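import Mathlib
import Fermat.Prelude.Def_GaloisRep_LocalConditions

/-!
# S33, the glue: ordinarity at `p` is an equational condition (owner: helper11)

For a representation `ρ : GaloisRepAdic A` over a local ring `A`, put
`wo ρ σ τ = (ρ σ - det (ρ σ)) ∘ (ρ τ - 1)`.

* `wo_eq_zero_of_isOrdinaryAt` : if `ρ` is ordinary at `p` (Prelude `IsOrdinaryAt`), then
  `wo ρ σ τ = 0` for all `σ, τ` in the inertia group of any place `P ∣ p` (`WO ρ p`).
* `isOrdinaryAt_of_wo` : conversely, if `WO ρ p` holds and for every place `P ∣ p` some element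
  `σ₀` of the inertia group has `det (ρ σ₀) - 1` invertible (`IDN ρ p`; automatic when `p` is odd
  and the determinant is the cyclotomic character), then `ρ` is ordinary at `p`: the line is
  `(ρ σ₀ - 1) V`.

Since `WO` is equational, it passes to base changes, descends along jointly injective families of
base changes, and is invariant under equivalence; the same holds "modulo the maximal ideal"
(`WOres`), which is the residual ordinarity.
-/

set_option autoImplicit false

namespace Fermat.Agent.S33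

open TensorProduct IsLocalRing

local notation "GQ" => (AlgebraicClosure ℚ ≃ₐ[ℚ] AlgebraicClosure ℚ)
local notation "Qb" => (AlgebraicClosure ℚ)

variable {A : Type} [CommRing A] [IsLocalRing A]

/-- The weak-ordinarity operator `(ρ σ - det (ρ σ)) ∘ (ρ τ - 1)`. -/
noncomputable def wo (ρ : GaloisRepAdic A) (σ τ : GQ) : Module.End A ρ.V :=
  (ρ.ρ σ - LinearMap.det (ρ.ρ σ) • (1 : Module.End A ρ.V)) * (ρ.ρ τ - 1)

/-- Weak ordinarity at `p`: the operators `wo ρ σ τ` vanish on the inertia groups at `p`. -/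
def WO (ρ : GaloisRepAdic A) (p : ℕ) : Prop :=
  ∀ P : ValuationSubring Qb, P.LiesOverPrime p →
    ∀ σ ∈ P.inertiaSubgroupIn ℚ, ∀ τ ∈ P.inertiaSubgroupIn ℚ, wo ρ σ τ = 0

/-- Residual weak ordinarity at `p`: the operators `wo ρ σ τ` vanish modulo the maximal ideal on
the inertia groups at `p`. -/
def WOres (ρ : GaloisRepAdic A) (p : ℕ) : Prop :=
  ∀ P : ValuationSubring Qb, P.LiesOverPrime p →
    ∀ σ ∈ P.inertiaSubgroupIn ℚ, ∀ τ ∈ P.inertiaSubgroupIn ℚ,
      ∀ v : ρ.V, wo ρ σ τ v ∈ maximalIdeal A • (⊤ : Submodule A ρ.V)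

/-- The determinant is residually nontrivial on the inertia groups at `p`. -/
def IDN (ρ : GaloisRepAdic A) (p : ℕ) : Prop :=
  ∀ P : ValuationSubring Qb, P.LiesOverPrime p →
    ∃ σ₀ ∈ P.inertiaSubgroupIn ℚ, IsUnit (LinearMap.det (ρ.ρ σ₀) - 1)

/-! ### Inertia inside decomposition -/

theorem inertia_le_decomp {P : ValuationSubring Qb} {σ : GQ}
    (hσ : σ ∈ P.inertiaSubgroupIn ℚ) : σ ∈ P.decompositionSubgroup ℚ := by
  obtain ⟨x, -, rfl⟩ := Subgroup.mem_map.mp hσ
  exact x.2

theorem conj_mem_inertia {P : ValuationSubring Qb} {δ σ : GQ}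
    (hδ : δ ∈ P.decompositionSubgroup ℚ) (hσ : σ ∈ P.inertiaSubgroupIn ℚ) :
    δ * σ * δ⁻¹ ∈ P.inertiaSubgroupIn ℚ := by
  obtain ⟨x, hx, rfl⟩ := Subgroup.mem_map.mp hσ
  refine Subgroup.mem_map.mpr ⟨(⟨δ, hδ⟩ : P.decompositionSubgroup ℚ) * x *
    (⟨δ, hδ⟩ : P.decompositionSubgroup ℚ)⁻¹, ?_, rfl⟩
  have hn : (P.inertiaSubgroup ℚ).Normal := by
    unfold ValuationSubring.inertiaSubgroup
    exact MonoidHom.normal_ker _
  exact hn.conj_mem x hx _

/-! ### Coordinates -/

section Coord

variable {R : Type} [CommRing R] {V : Type} [AddCommGroup V] [Module R V]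

theorem eq_repr_smul_add' (w : Module.Basis (Fin 2) R V) (v : V) :
    v = w.repr v 0 • w 0 + w.repr v 1 • w 1 := by
  conv_lhs => rw [← w.sum_repr v]
  rw [Fin.sum_univ_two]

theorem mem_span_iff_repr_one' (w : Module.Basis (Fin 2) R V) (v : V) :
    v ∈ Submodule.span R {w 0} ↔ w.repr v 1 = 0 := by
  constructor
  · intro h
    obtain ⟨c, rfl⟩ := Submodule.mem_span_singleton.mp h
    rw [map_smul, Finsupp.smul_apply, w.repr_self]
    simp
  · intro h
    rw [eq_repr_smul_add' w v, h, zero_smul, add_zero]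
    exact Submodule.smul_mem _ _ (Submodule.mem_span_singleton_self _)

/-- A vector with a unit coordinate is the first vector of a basis. -/
theorem exists_basis_of_isUnit_coord' (e : Module.Basis (Fin 2) R V) (v : V) (i : Fin 2)
    (hu : IsUnit (e.repr v i)) : ∃ w : Module.Basis (Fin 2) R V, w 0 = v := by
  have main : ∀ u : V, IsUnit (e.det ![v, u]) → ∃ w : Module.Basis (Fin 2) R V, w 0 = v := by
    intro u hdet
    obtain ⟨hli, hspan⟩ := e.is_basis_iff_det.mpr hdet
    refine ⟨Module.Basis.mk hli hspan.ge, ?_⟩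
    rw [Module.Basis.mk_apply]
    rfl
  fin_cases i
  · apply main (e 1)
    rw [Module.Basis.det_apply, Matrix.det_fin_two]
    simp only [Module.Basis.toMatrix_apply, Matrix.cons_val_zero, Matrix.cons_val_one]
    simpa using hu
  · apply main (e 0)
    rw [Module.Basis.det_apply, Matrix.det_fin_two]
    simp only [Module.Basis.toMatrix_apply, Matrix.cons_val_zero, Matrix.cons_val_one]
    simpa using hu.neg

/-- The determinant of an upper triangular endomorphism in a basis indexed by `Fin 2`. -/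
theorem det_eq_of_triangular (w : Module.Basis (Fin 2) R V) (f : Module.End R V) (c x d : R)
    (h0 : f (w 0) = c • w 0) (h1 : f (w 1) = x • w 0 + d • w 1) :
    LinearMap.det f = c * d := by
  rw [← LinearMap.det_toMatrix w, Matrix.det_fin_two]
  simp only [LinearMap.toMatrix_apply, h0, h1, map_add, map_smul, Finsupp.add_apply,
    Finsupp.smul_apply, w.repr_self]
  simp

end Coord

/-! ### Ordinary implies weakly ordinary -/

/-- **Ordinary implies weakly ordinary.** -/
theorem wo_of_isOrdinaryAt {ρ : GaloisRepAdic A} {p : ℕ} (h : ρ.IsOrdinaryAt p) : WO ρ p := by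
  intro P hP σ hσ τ hτ
  obtain ⟨L, ⟨b, rfl⟩, hD, hI⟩ := h P hP
  have h0 : ρ.ρ σ (b 0) ∈ Submodule.span A {b 0} :=
    hD σ (inertia_le_decomp hσ) _ (Submodule.mem_span_singleton_self _)
  obtain ⟨c, hc⟩ := Submodule.mem_span_singleton.mp h0
  obtain ⟨x, hx⟩ := Submodule.mem_span_singleton.mp (hI σ hσ (b 1))
  have hdet : LinearMap.det (ρ.ρ σ) = c := by
    rw [det_eq_of_triangular b (ρ.ρ σ) c x 1 hc.symm (by rw [one_smul, hx]; abel), mul_one]
  refine LinearMap.ext fun v => ?_
  obtain ⟨y, hy⟩ := Submodule.mem_span_singleton.mp (hI τ hτ v)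
  simp only [wo, Module.End.mul_apply, LinearMap.sub_apply, Module.End.one_apply,
    LinearMap.smul_apply, LinearMap.zero_apply]
  rw [← hy, map_smul, ← hc, hdet, smul_comm, sub_self]

/-! ### Weakly ordinary implies ordinary -/

/-- **Weakly ordinary implies ordinary**, when the determinant is residually nontrivial on
inertia. -/
theorem isOrdinaryAt_of_wo {ρ : GaloisRepAdic A} {p : ℕ} (h : WO ρ p) (hd : IDN ρ p) :
    ρ.IsOrdinaryAt p := by
  classical
  intro P hP
  obtain ⟨σ₀, hσ₀, hu⟩ := hd P hP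
  set g : Module.End A ρ.V := ρ.ρ σ₀ with hg
  set d : A := LinearMap.det g with hdd
  have hdu : IsUnit d := by
    have h1 : IsUnit g := by
      refine IsUnit.of_mul_eq_one (ρ.ρ σ₀⁻¹) ?_
      rw [hg, ← map_mul, mul_inv_cancel, map_one]
    exact h1.map (LinearMap.det : Module.End A ρ.V →* A)
  set c : Module.Basis (Fin 2) A ρ.V := Module.finBasisOfFinrankEq A ρ.V ρ.finrank_eq with hc
  -- some coordinate of some `(g - 1) (c j)` is a unit
  have hex : ∃ j i, IsUnit (c.repr ((g - 1) (c j)) i) := by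
    by_contra hcon
    push Not at hcon
    have hm : ∀ j i, c.repr ((g - 1) (c j)) i ∈ maximalIdeal A := fun j i =>
      (mem_maximalIdeal _).2 (hcon j i)
    have hdet : d = c.repr (g (c 0)) 0 * c.repr (g (c 1)) 1 -
        c.repr (g (c 1)) 0 * c.repr (g (c 0)) 1 := by
      rw [hdd, ← LinearMap.det_toMatrix c, Matrix.det_fin_two]
      simp only [LinearMap.toMatrix_apply]
    have e00 : c.repr ((g - 1) (c 0)) 0 = c.repr (g (c 0)) 0 - 1 := by
      rw [LinearMap.sub_apply, Module.End.one_apply, map_sub, Finsupp.sub_apply, c.repr_self]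
      simp
    have e01 : c.repr ((g - 1) (c 0)) 1 = c.repr (g (c 0)) 1 := by
      rw [LinearMap.sub_apply, Module.End.one_apply, map_sub, Finsupp.sub_apply, c.repr_self]
      simp
    have e10 : c.repr ((g - 1) (c 1)) 0 = c.repr (g (c 1)) 0 := by
      rw [LinearMap.sub_apply, Module.End.one_apply, map_sub, Finsupp.sub_apply, c.repr_self]
      simp
    have e11 : c.repr ((g - 1) (c 1)) 1 = c.repr (g (c 1)) 1 - 1 := by
      rw [LinearMap.sub_apply, Module.End.one_apply, map_sub, Finsupp.sub_apply, c.repr_self]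
      simp
    have h00 := hm 0 0
    have h01 := hm 0 1
    have h10 := hm 1 0
    have h11 := hm 1 1
    rw [e00] at h00
    rw [e01] at h01
    rw [e10] at h10
    rw [e11] at h11
    have hmem : d - 1 ∈ maximalIdeal A := by
      have e : d - 1 = (c.repr (g (c 0)) 0 - 1) * c.repr (g (c 1)) 1 +
          (c.repr (g (c 1)) 1 - 1) - c.repr (g (c 1)) 0 * c.repr (g (c 0)) 1 := by
        rw [hdet]; ring
      rw [e]
      exact Ideal.sub_mem _ (Ideal.add_mem _ (Ideal.mul_mem_right _ _ h00) h11)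
        (Ideal.mul_mem_right _ _ h10)
    exact (mem_maximalIdeal _).1 hmem hu
  obtain ⟨j, i, hji⟩ := hex
  obtain ⟨w, hw⟩ := exists_basis_of_isUnit_coord' c ((g - 1) (c j)) i hji
  -- the operator `g - d` kills `(ρ τ - 1) v` for `τ` in inertia
  have hkill : ∀ τ ∈ P.inertiaSubgroupIn ℚ, ∀ v : ρ.V,
      g (ρ.ρ τ v - v) = d • (ρ.ρ τ v - v) := by
    intro τ hτ v
    have h1 := LinearMap.congr_fun (h P hP σ₀ hσ₀ τ hτ) v
    simp only [wo, Module.End.mul_apply, LinearMap.sub_apply, Module.End.one_apply,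
      LinearMap.smul_apply, LinearMap.zero_apply] at h1
    exact sub_eq_zero.mp h1
  have hg0 : g (w 0) = d • w 0 := by
    rw [hw]
    exact hkill σ₀ hσ₀ (c j)
  -- the matrix of `g` in the basis `w` is upper triangular with diagonal `(d, 1)`
  have hg1 : g (w 1) = w.repr (g (w 1)) 0 • w 0 + w.repr (g (w 1)) 1 • w 1 :=
    eq_repr_smul_add' w _
  have hy : w.repr (g (w 1)) 1 = 1 := by
    have h1 := det_eq_of_triangular w g d _ _ hg0 hg1
    have h2 : d * (w.repr (g (w 1)) 1 - 1) = 0 := by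
      rw [mul_sub, mul_one, ← h1, sub_self]
    exact sub_eq_zero.mp ((hdu.mul_right_eq_zero).mp h2)
  -- the kernel of `g - d` is the line spanned by `w 0`
  have hker : ∀ x : ρ.V, g x = d • x → x ∈ Submodule.span A {w 0} := by
    intro x hx
    rw [mem_span_iff_repr_one']
    have h1 : w.repr (g x) 1 = w.repr x 1 := by
      conv_lhs => rw [eq_repr_smul_add' w x]
      rw [map_add, map_smul, map_smul, hg0, map_add, map_smul, map_smul, map_smul,
        Finsupp.add_apply, Finsupp.smul_apply, Finsupp.smul_apply, Finsupp.smul_apply, hy,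
        w.repr_self]
      simp
    have h2 : w.repr (g x) 1 = d * w.repr x 1 := by
      rw [hx, map_smul, Finsupp.smul_apply, smul_eq_mul]
    have h3 : (d - 1) * w.repr x 1 = 0 := by
      rw [sub_mul, one_mul, ← h2, h1, sub_self]
    exact (hu.mul_right_eq_zero).mp h3
  refine ⟨Submodule.span A {w 0}, ⟨w, rfl⟩, ?_, ?_⟩
  · intro δ hδ v hv
    obtain ⟨a, rfl⟩ := Submodule.mem_span_singleton.mp hv
    rw [map_smul]
    refine Submodule.smul_mem _ _ (hker _ ?_)
    have h1 : ρ.ρ δ (w 0) = ρ.ρ (δ * σ₀ * δ⁻¹) (ρ.ρ δ (c j)) - ρ.ρ δ (c j) := by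
      have h2 : ρ.ρ (δ * σ₀ * δ⁻¹) (ρ.ρ δ (c j)) = ρ.ρ δ (g (c j)) := by
        rw [← Module.End.mul_apply, ← map_mul, inv_mul_cancel_right, map_mul,
          Module.End.mul_apply]
      rw [h2, hw, LinearMap.sub_apply, Module.End.one_apply, map_sub]
    rw [h1]
    exact hkill _ (conj_mem_inertia hδ hσ₀) _
  · intro τ hτ v
    exact hker _ (hkill τ hτ v)

end Fermat.Agent.S33
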