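import Mathlib
import Fermat.Agent.S33.Glue
import Fermat.Agent.Lib.TraceRigidity.Density

/-!
# S33, the glue, part 2: weak ordinarity under base change, equivalence, reduction
(owner: helper11)

`WO`, `WOres`, `IDN` of `S33/Glue.lean` under `GaloisRepAdic.baseChangeAlong`, under
`GaloisRepAdic.Equiv`, and their relation with the residual representation:

* `wo_baseChangeAlong`, `wores_baseChangeAlong`, `idn_baseChangeAlong_iff`;
* `wo_of_baseChangeAlong_family` (descent along a jointly injective family);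
* `wo_of_isEquiv`, `wores_of_isEquiv`, `idn_of_isEquiv`;
* `wores_iff_wo_residual`, `idn_iff_idn_residual`;
* `residual_isOrdinaryAt_iff_wores` : residual ordinarity (Prelude form) is `WOres`.
-/

set_option autoImplicit false
set_option linter.style.haveILetI false
set_option linter.unusedSectionVars false

namespace Fermat.Agent.S33

open TensorProduct IsLocalRing Fermat.Agent.TraceRigidity

local notation "GQ" => (AlgebraicClosure ℚ ≃ₐ[ℚ] AlgebraicClosure ℚ)
local notation "Qb" => (AlgebraicClosure ℚ)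

/-! ### Endomorphisms -/

section EndLevel

variable {A : Type} [CommRing A] {V : Type} [AddCommGroup V] [Module A V]

/-- The weak ordinarity operator of two endomorphisms. -/
noncomputable def woEnd (f g : Module.End A V) : Module.End A V :=
  (f - LinearMap.det f • (1 : Module.End A V)) * (g - 1)

theorem wo_eq_woEnd {A : Type} [CommRing A] [IsLocalRing A] (ρ : GaloisRepAdic A) (σ τ : GQ) :
    wo ρ σ τ = woEnd (ρ.ρ σ) (ρ.ρ τ) := rfl

/-- An endomorphism with values in `I • ⊤`, in coordinates. -/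
theorem forall_mem_smul_top_iff (I : Ideal A) (b : Module.Basis (Fin 2) A V)
    (f : Module.End A V) :
    (∀ v, f v ∈ I • (⊤ : Submodule A V)) ↔ ∀ i j, b.repr (f (b j)) i ∈ I := by
  constructor
  · intro h i j
    exact repr_mem_of_mem_smul_top b I (h (b j)) i
  · intro h v
    have hb : ∀ j, f (b j) ∈ I • (⊤ : Submodule A V) := by
      intro j
      rw [eq_repr_smul_add' b (f (b j))]
      exact Submodule.add_mem _ (Submodule.smul_mem_smul (h 0 j) Submodule.mem_top)
        (Submodule.smul_mem_smul (h 1 j) Submodule.mem_top)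
    rw [eq_repr_smul_add' b v, map_add, map_smul, map_smul]
    exact Submodule.add_mem _ (Submodule.smul_mem _ _ (hb 0)) (Submodule.smul_mem _ _ (hb 1))

theorem eq_zero_iff_repr (b : Module.Basis (Fin 2) A V) (f : Module.End A V) :
    f = 0 ↔ ∀ i j, b.repr (f (b j)) i = 0 := by
  constructor
  · rintro rfl i j
    simp
  · intro h
    apply b.ext
    intro j
    apply b.repr.injective
    ext i
    rw [h i j]
    simp

variable [Module.Free A V] [Module.Finite A V]

theorem woEnd_baseChange (B : Type) [CommRing B] [Algebra A B] (f g : Module.End A V) :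
    woEnd (f.baseChange B) (g.baseChange B) = (woEnd f g).baseChange B := by
  unfold woEnd
  rw [LinearMap.det_baseChange, LinearMap.baseChange_mul, LinearMap.baseChange_sub,
    LinearMap.baseChange_sub, LinearMap.baseChange_smul, LinearMap.baseChange_one,
    algebraMap_smul]

/-- Coordinates of a base change. -/
theorem repr_baseChange (B : Type) [CommRing B] [Algebra A B] (b : Module.Basis (Fin 2) A V)
    (f : Module.End A V) (i j : Fin 2) :
    (Algebra.TensorProduct.basis B b).repr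
      ((f.baseChange B) ((Algebra.TensorProduct.basis B b) j)) i =
      algebraMap A B (b.repr (f (b j)) i) := by
  have h := LinearMap.toMatrix_baseChange (A := B) f b b
  have h2 := congrFun (congrFun h i) j
  rw [LinearMap.toMatrix_apply, Matrix.map_apply, LinearMap.toMatrix_apply] at h2
  exact h2

end EndLevel

/-! ### Base change of representations -/

section BaseChange

variable {A B : Type} [CommRing A] [IsLocalRing A] [CommRing B] [IsLocalRing B]

theorem wo_baseChangeAlong_eq (ψ : A →+* B) (hψ : IsLocalHom ψ) (ρ : GaloisRepAdic A)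
    (b : Module.Basis (Fin 2) A ρ.V) (σ τ : GQ) :
    letI : Algebra A B := ψ.toAlgebra
    ∀ i j, (Algebra.TensorProduct.basis B b).repr
      (wo (ρ.baseChangeAlong ψ hψ) σ τ ((Algebra.TensorProduct.basis B b) j)) i =
      ψ (b.repr (wo ρ σ τ (b j)) i) := by
  letI : Algebra A B := ψ.toAlgebra
  intro i j
  have h1 : wo (ρ.baseChangeAlong ψ hψ) σ τ = (wo ρ σ τ).baseChange B := by
    rw [wo_eq_woEnd, wo_eq_woEnd]
    exact woEnd_baseChange B (ρ.ρ σ) (ρ.ρ τ)
  rw [h1]
  exact repr_baseChange B b _ i j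

/-- Weak ordinarity passes to base changes. -/
theorem wo_baseChangeAlong (ψ : A →+* B) (hψ : IsLocalHom ψ) {ρ : GaloisRepAdic A} {p : ℕ}
    (h : WO ρ p) : WO (ρ.baseChangeAlong ψ hψ) p := by
  letI : Algebra A B := ψ.toAlgebra
  intro P hP σ hσ τ hτ
  set b : Module.Basis (Fin 2) A ρ.V := Module.finBasisOfFinrankEq A ρ.V ρ.finrank_eq
  refine (eq_zero_iff_repr (Algebra.TensorProduct.basis B b)
    (wo (ρ.baseChangeAlong ψ hψ) σ τ)).2 fun i j => ?_
  refine (wo_baseChangeAlong_eq ψ hψ ρ b σ τ i j).trans ?_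
  rw [h P hP σ hσ τ hτ]
  simp

/-- Residual weak ordinarity passes to base changes. -/
theorem wores_baseChangeAlong (ψ : A →+* B) (hψ : IsLocalHom ψ) {ρ : GaloisRepAdic A} {p : ℕ}
    (h : WOres ρ p) : WOres (ρ.baseChangeAlong ψ hψ) p := by
  letI : Algebra A B := ψ.toAlgebra
  intro P hP σ hσ τ hτ
  set b : Module.Basis (Fin 2) A ρ.V := Module.finBasisOfFinrankEq A ρ.V ρ.finrank_eq
  refine (forall_mem_smul_top_iff (maximalIdeal B) (Algebra.TensorProduct.basis B b)
    (wo (ρ.baseChangeAlong ψ hψ) σ τ)).2 fun i j => ?_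
  have e := wo_baseChangeAlong_eq ψ hψ ρ b σ τ i j
  have h1 := (forall_mem_smul_top_iff _ b _).1 (h P hP σ hσ τ hτ) i j
  have h2 : ψ (b.repr (wo ρ σ τ (b j)) i) ∈ maximalIdeal B := by
    rw [mem_maximalIdeal, mem_nonunits_iff] at h1 ⊢
    exact fun hu => h1 (isUnit_of_map_unit ψ _ hu)
  exact Eq.subst (motive := fun x => x ∈ maximalIdeal B) e.symm h2

/-- Weak ordinarity descends along a jointly injective family of base changes. -/
theorem wo_of_baseChangeAlong_family {ι : Type*} {O : ι → Type} [∀ i, CommRing (O i)]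
    [∀ i, IsLocalRing (O i)] (ψ : ∀ i, A →+* O i) (hψ : ∀ i, IsLocalHom (ψ i))
    (hinj : ∀ x : A, (∀ i, ψ i x = 0) → x = 0) {ρ : GaloisRepAdic A} {p : ℕ}
    (h : ∀ i, WO (ρ.baseChangeAlong (ψ i) (hψ i)) p) : WO ρ p := by
  intro P hP σ hσ τ hτ
  set b : Module.Basis (Fin 2) A ρ.V := Module.finBasisOfFinrankEq A ρ.V ρ.finrank_eq
  rw [eq_zero_iff_repr b]
  intro i j
  apply hinj
  intro k
  refine (wo_baseChangeAlong_eq (ψ k) (hψ k) ρ b σ τ i j).symm.trans ?_
  have h0 : wo (ρ.baseChangeAlong (ψ k) (hψ k)) σ τ = 0 := h k P hP σ hσ τ hτ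
  letI : Algebra A (O k) := (ψ k).toAlgebra
  have h1 := (eq_zero_iff_repr (Algebra.TensorProduct.basis (O k) b)
    (wo (ρ.baseChangeAlong (ψ k) (hψ k)) σ τ)).1 h0 i j
  exact h1

theorem det_baseChangeAlong (ψ : A →+* B) (hψ : IsLocalHom ψ) (ρ : GaloisRepAdic A) (σ : GQ) :
    LinearMap.det ((ρ.baseChangeAlong ψ hψ).ρ σ) = ψ (LinearMap.det (ρ.ρ σ)) := by
  letI : Algebra A B := ψ.toAlgebra
  exact LinearMap.det_baseChange (ρ.ρ σ)

/-- Residual nontriviality of the determinant on inertia and base change. -/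
theorem idn_baseChangeAlong_iff (ψ : A →+* B) (hψ : IsLocalHom ψ) (ρ : GaloisRepAdic A)
    (p : ℕ) : IDN (ρ.baseChangeAlong ψ hψ) p ↔ IDN ρ p := by
  have key : ∀ σ : GQ, IsUnit (LinearMap.det ((ρ.baseChangeAlong ψ hψ).ρ σ) - 1) ↔
      IsUnit (LinearMap.det (ρ.ρ σ) - 1) := by
    intro σ
    rw [det_baseChangeAlong, ← map_one ψ, ← map_sub]
    exact ⟨fun hu => isUnit_of_map_unit ψ _ hu, fun hu => hu.map ψ⟩
  constructor
  · intro h P hP
    obtain ⟨σ₀, hσ₀, hu⟩ := h P hP
    exact ⟨σ₀, hσ₀, (key σ₀).1 hu⟩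
  · intro h P hP
    obtain ⟨σ₀, hσ₀, hu⟩ := h P hP
    exact ⟨σ₀, hσ₀, (key σ₀).2 hu⟩

end BaseChange

/-! ### Equivalence -/

section Equivalence

variable {A : Type} [CommRing A] [IsLocalRing A]

theorem rho_eq_of_equiv {ρ₁ ρ₂ : GaloisRepAdic A} (e : ρ₁.Equiv ρ₂) (σ : GQ) :
    ρ₂.ρ σ = e.toLinearEquiv.conj (ρ₁.ρ σ) := by
  refine LinearMap.ext fun y => ?_
  obtain ⟨x, rfl⟩ := e.toLinearEquiv.surjective y
  rw [LinearEquiv.conj_apply, LinearMap.comp_apply, LinearMap.comp_apply,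
    LinearEquiv.coe_coe, LinearEquiv.coe_coe, LinearEquiv.symm_apply_apply, e.map_apply]

theorem det_eq_of_equiv {ρ₁ ρ₂ : GaloisRepAdic A} (e : ρ₁.Equiv ρ₂) (σ : GQ) :
    LinearMap.det (ρ₂.ρ σ) = LinearMap.det (ρ₁.ρ σ) := by
  rw [rho_eq_of_equiv e σ, LinearEquiv.conj_apply, LinearMap.comp_assoc, LinearMap.det_conj]

theorem wo_apply_of_equiv {ρ₁ ρ₂ : GaloisRepAdic A} (e : ρ₁.Equiv ρ₂) (σ τ : GQ) (x : ρ₁.V) :
    wo ρ₂ σ τ (e.toLinearEquiv x) = e.toLinearEquiv (wo ρ₁ σ τ x) := by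
  simp only [wo, Module.End.mul_apply, LinearMap.sub_apply, Module.End.one_apply,
    LinearMap.smul_apply, det_eq_of_equiv e σ, map_sub, map_smul, e.map_apply]

theorem wo_of_isEquiv {ρ₁ ρ₂ : GaloisRepAdic A} (e : ρ₁.IsEquiv ρ₂) {p : ℕ} (h : WO ρ₁ p) :
    WO ρ₂ p := by
  obtain ⟨e⟩ := e
  intro P hP σ hσ τ hτ
  refine LinearMap.ext fun y => ?_
  obtain ⟨x, rfl⟩ := e.toLinearEquiv.surjective y
  rw [wo_apply_of_equiv, h P hP σ hσ τ hτ]
  simp

theorem wores_of_isEquiv {ρ₁ ρ₂ : GaloisRepAdic A} (e : ρ₁.IsEquiv ρ₂) {p : ℕ}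
    (h : WOres ρ₁ p) : WOres ρ₂ p := by
  obtain ⟨e⟩ := e
  intro P hP σ hσ τ hτ y
  obtain ⟨x, rfl⟩ := e.toLinearEquiv.surjective y
  rw [wo_apply_of_equiv]
  have h1 := h P hP σ hσ τ hτ x
  refine Submodule.smul_induction_on (p := fun z => e.toLinearEquiv z ∈
    maximalIdeal A • (⊤ : Submodule A ρ₂.V)) h1 ?_ ?_
  · intro a ha v _
    rw [map_smul]
    exact Submodule.smul_mem_smul ha Submodule.mem_top
  · intro x y hx hy
    rw [map_add]
    exact Submodule.add_mem _ hx hy

theorem idn_of_isEquiv {ρ₁ ρ₂ : GaloisRepAdic A} (e : ρ₁.IsEquiv ρ₂) {p : ℕ}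
    (h : IDN ρ₁ p) : IDN ρ₂ p := by
  obtain ⟨e⟩ := e
  intro P hP
  obtain ⟨σ₀, hσ₀, hu⟩ := h P hP
  exact ⟨σ₀, hσ₀, by rw [det_eq_of_equiv e]; exact hu⟩

end Equivalence

/-! ### The residual representation -/

section Residual

variable {A : Type} [CommRing A] [IsLocalRing A]

theorem wo_residual_eq (ρ : GaloisRepAdic A) (b : Module.Basis (Fin 2) A ρ.V) (σ τ : GQ)
    (i j : Fin 2) :
    (Algebra.TensorProduct.basis (ResidueField A) b).repr
      (wo (GaloisRepAdic.ofResidualGaloisRep ρ.residual) σ τ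
        ((Algebra.TensorProduct.basis (ResidueField A) b) j)) i =
      residue A (b.repr (wo ρ σ τ (b j)) i) := by
  have h1 : wo (GaloisRepAdic.ofResidualGaloisRep ρ.residual) σ τ =
      (wo ρ σ τ).baseChange (ResidueField A) := by
    rw [wo_eq_woEnd, wo_eq_woEnd]
    exact woEnd_baseChange (ResidueField A) (ρ.ρ σ) (ρ.ρ τ)
  rw [h1]
  exact repr_baseChange (ResidueField A) b _ i j

/-- Residual weak ordinarity is weak ordinarity of the residual representation. -/
theorem wores_iff_wo_residual (ρ : GaloisRepAdic A) (p : ℕ) :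
    WOres ρ p ↔ WO (GaloisRepAdic.ofResidualGaloisRep ρ.residual) p := by
  set b : Module.Basis (Fin 2) A ρ.V := Module.finBasisOfFinrankEq A ρ.V ρ.finrank_eq
  have key : ∀ σ τ : GQ, (∀ v : ρ.V, wo ρ σ τ v ∈ maximalIdeal A • (⊤ : Submodule A ρ.V)) ↔
      wo (GaloisRepAdic.ofResidualGaloisRep ρ.residual) σ τ = 0 := by
    intro σ τ
    have hL := forall_mem_smul_top_iff (maximalIdeal A) b (wo ρ σ τ)
    have hR := eq_zero_iff_repr (Algebra.TensorProduct.basis (ResidueField A) b)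
      (wo (GaloisRepAdic.ofResidualGaloisRep ρ.residual) σ τ)
    refine hL.trans (Iff.trans ?_ hR.symm)
    constructor
    · intro h i j
      refine (wo_residual_eq ρ b σ τ i j).trans ?_
      rw [residue_eq_zero_iff]
      exact h i j
    · intro h i j
      have h1 := (wo_residual_eq ρ b σ τ i j).symm.trans (h i j)
      rw [residue_eq_zero_iff] at h1
      exact h1
  constructor
  · intro h P hP σ hσ τ hτ
    exact (key σ τ).1 (h P hP σ hσ τ hτ)
  · intro h P hP σ hσ τ hτ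
    exact (key σ τ).2 (h P hP σ hσ τ hτ)

theorem idn_iff_idn_residual (ρ : GaloisRepAdic A) (p : ℕ) :
    IDN ρ p ↔ IDN (GaloisRepAdic.ofResidualGaloisRep ρ.residual) p := by
  have key : ∀ σ : GQ, IsUnit (LinearMap.det ((GaloisRepAdic.ofResidualGaloisRep
      ρ.residual).ρ σ) - 1) ↔ IsUnit (LinearMap.det (ρ.ρ σ) - 1) := by
    intro σ
    have h1 : LinearMap.det ((GaloisRepAdic.ofResidualGaloisRep ρ.residual).ρ σ) =
        residue A (LinearMap.det (ρ.ρ σ)) := LinearMap.det_baseChange (ρ.ρ σ)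
    rw [h1, ← map_one (residue A), ← map_sub]
    exact ⟨fun hu => isUnit_of_map_unit (residue A) _ hu, fun hu => hu.map (residue A)⟩
  constructor
  · intro h P hP
    obtain ⟨σ₀, hσ₀, hu⟩ := h P hP
    exact ⟨σ₀, hσ₀, (key σ₀).2 hu⟩
  · intro h P hP
    obtain ⟨σ₀, hσ₀, hu⟩ := h P hP
    exact ⟨σ₀, hσ₀, (key σ₀).1 hu⟩

/-- **Residual ordinarity** (Prelude form) **is residual weak ordinarity.** -/
theorem residual_isOrdinaryAt_iff_wores (ρ : GaloisRepAdic A) (p : ℕ) (hd : IDN ρ p) :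
    (GaloisRepAdic.ofResidualGaloisRep ρ.residual).IsOrdinaryAt p ↔ WOres ρ p := by
  rw [wores_iff_wo_residual]
  exact ⟨wo_of_isOrdinaryAt, fun h => isOrdinaryAt_of_wo h ((idn_iff_idn_residual ρ p).1 hd)⟩

/-- **Ordinarity is weak ordinarity**, when the determinant is residually nontrivial on
inertia. -/
theorem isOrdinaryAt_iff_wo (ρ : GaloisRepAdic A) (p : ℕ) (hd : IDN ρ p) :
    ρ.IsOrdinaryAt p ↔ WO ρ p :=
  ⟨wo_of_isOrdinaryAt, fun h => isOrdinaryAt_of_wo h hd⟩

end Residual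

end Fermat.Agent.S33
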