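import Mathlib
import Fermat.Agent.S33.Glue
import Fermat.Agent.S34.Transfer
import Fermat.Agent.F3.FrobDensityLiteFinal
import Fermat.Agent.S59.DefCond.StrictOrdArith

/-!
# S33, the glue, part 3: the determinant is residually nontrivial on inertia at `p`
(owner: helper11)

`idn_of_det_frob`: let `ρ : GaloisRepAdic A`, `p` an odd prime in the maximal ideal of `A`, and
assume `det ρ(Frob_ℓ) = ℓ` for the Frobenius elements at the primes `ℓ` outside a finite set.
Then for every place `P ∣ p` of `ℚ̄` there is `σ₀` in the inertia group of `P` with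
`det ρ(σ₀) - 1` invertible (`IDN ρ p`).  [`σ₀` acts on `μ_p` by inversion; by Frobenius density
`det ρ(σ₀) ≡ ℓ ^ j ≡ -1` modulo the maximal ideal.]
-/

set_option autoImplicit false
set_option linter.style.haveILetI false

namespace Fermat.Agent.S33

open IsLocalRing Fermat.Agent.F3 Fermat.Agent.S31 Fermat.Agent.S34 Fermat.Agent.Cyclo

variable {A : Type} [CommRing A] [IsLocalRing A]

/-- `2` is invertible in a local ring whose maximal ideal contains an odd prime. -/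
theorem isUnit_two_of_odd {p : ℕ} (hp : p.Prime) (hp2 : p ≠ 2)
    (hpA : (p : A) ∈ maximalIdeal A) : IsUnit (2 : A) := by
  by_contra h2
  have h2m : (2 : A) ∈ maximalIdeal A := (mem_maximalIdeal _).2 h2
  obtain ⟨m, hm⟩ := hp.odd_of_ne_two hp2
  have h1 : (1 : A) = (p : A) - 2 * (m : A) := by
    rw [hm]; push_cast; ring
  have : (1 : A) ∈ maximalIdeal A := by
    rw [h1]
    exact Ideal.sub_mem _ hpA (Ideal.mul_mem_right _ _ h2m)
  exact (mem_maximalIdeal _).1 this isUnit_one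

/-- **The determinant is residually nontrivial on inertia at `p`.** -/
theorem idn_of_det_frob (ρ : GaloisRepAdic A) {p : ℕ} (hp : p.Prime) (hp2 : p ≠ 2)
    (hpA : (p : A) ∈ maximalIdeal A) (S : Finset ℕ)
    (hdet : ∀ ℓ : ℕ, ℓ.Prime → ℓ ∉ S →
      ∀ A' : ValuationSubring (AlgebraicClosure ℚ), A'.LiesOverPrime ℓ →
        ∀ σ : AlgebraicClosure ℚ ≃ₐ[ℚ] AlgebraicClosure ℚ, A'.IsFrobeniusAt σ ℓ →
          LinearMap.det (ρ.ρ σ) = (ℓ : A)) :
    IDN ρ p := by
  classical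
  haveI : Fact p.Prime := ⟨hp⟩
  haveI : NeZero p := ⟨hp.ne_zero⟩
  intro P hP
  obtain ⟨σ₀, hσ₀, hinv⟩ := Fermat.Agent.S59.SOArith.exists_inertia_inv_on_roots p P hP
  refine ⟨σ₀, hσ₀, ?_⟩
  -- the level
  obtain ⟨L₁, hL₁fd, hL₁n, hL₁⟩ := exists_normal_level ρ 1
  obtain ⟨L, hLfd, hLn, hL₁L, hcL⟩ := exists_normal_sup 1 (fun _ => cycloField p)
    (fun _ => inferInstance) (fun _ => inferInstance) L₁ hL₁fd hL₁n
  obtain ⟨ℓ, A', τ, j, hℓ, hℓS, hA', hτ, hτs⟩ :=
    exists_frob_pow frobDensityLite L hLfd hLn σ₀ (insert p S)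
  have hℓp : ℓ ≠ p := fun h => hℓS (h ▸ Finset.mem_insert_self _ _)
  have hℓS' : ℓ ∉ S := fun h => hℓS (Finset.mem_insert_of_mem h)
  -- the determinant of `ρ (τ ^ j)`
  have hdτ : LinearMap.det (ρ.ρ (τ ^ j)) = (ℓ : A) ^ j := by
    rw [map_pow, map_pow, hdet ℓ hℓ hℓS' A' hA' τ hτ]
  have hcong : LinearMap.det (ρ.ρ (τ ^ j)) - LinearMap.det (ρ.ρ σ₀) ∈ maximalIdeal A := by
    have := det_sub_mem_of_agree ρ 1 L
      (fun σ' hσ' => hL₁ σ' fun x hx => hσ' x (hL₁L hx)) σ₀ (τ ^ j) hτs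
    rwa [pow_one] at this
  -- the cyclotomic character
  have hχ1 : ((modChar p (τ ^ j) : (ZMod p)ˣ) : ZMod p) = ((ℓ : ZMod p)) ^ j := by
    rw [map_pow, Units.val_pow_eq_pow_val,
      modChar_frobenius p hℓ (fun h => hℓp ((Nat.prime_dvd_prime_iff_eq hℓ hp).mp h)) A' hA' τ hτ]
  have hχ2 : modChar p (τ ^ j) = modChar p σ₀ := by
    have h1 : modChar p (σ₀⁻¹ * τ ^ j) = 1 := by
      apply modChar_eq_one_of_fix_cycloField
      intro x hx
      rw [AlgEquiv.mul_apply, hτs x (hcL 0 hx)]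
      exact σ₀.symm_apply_apply x
    rw [map_mul, map_inv, inv_mul_eq_one] at h1
    exact h1.symm
  have hχ3 : ((modChar p σ₀ : (ZMod p)ˣ) : ZMod p) = -1 := by
    apply modChar_unique
    intro t ht
    rw [hinv t ht]
    have hdv : p ∣ ((-1 : ZMod p)).val + 1 := by
      rw [← ZMod.natCast_eq_zero_iff]
      push_cast
      rw [ZMod.natCast_zmod_val]
      ring
    obtain ⟨c, hc⟩ := hdv
    apply inv_eq_of_mul_eq_one_right
    rw [← pow_succ', hc, pow_mul, ht, one_pow]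
  have hdvd : p ∣ ℓ ^ j + 1 := by
    rw [← ZMod.natCast_eq_zero_iff]
    push_cast
    rw [← hχ1, hχ2, hχ3]
    ring
  have hmem : (ℓ : A) ^ j + 1 ∈ maximalIdeal A := by
    obtain ⟨c, hc⟩ := hdvd
    have : (ℓ : A) ^ j + 1 = (p : A) * (c : A) := by
      have := congrArg (Nat.cast : ℕ → A) hc
      push_cast at this
      exact this
    rw [this]
    exact Ideal.mul_mem_right _ _ hpA
  -- conclusion
  have h2 := isUnit_two_of_odd (A := A) hp hp2 hpA
  by_contra hcon0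
  have hcon : LinearMap.det (ρ.ρ σ₀) - 1 ∈ maximalIdeal A := (mem_maximalIdeal _).2 hcon0
  have : (2 : A) ∈ maximalIdeal A := by
    have e : (2 : A) = ((ℓ : A) ^ j + 1) -
        (LinearMap.det (ρ.ρ (τ ^ j)) - LinearMap.det (ρ.ρ σ₀)) - (LinearMap.det (ρ.ρ σ₀) - 1) := by
      rw [hdτ]; ring
    rw [e]
    exact Ideal.sub_mem _ (Ideal.sub_mem _ hmem hcong) hcon
  exact (mem_maximalIdeal _).1 this h2

end Fermat.Agent.S33
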