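import Mathlib
import Fermat.Agent.S33.BaseChange
import Fermat.Agent.S33.InertiaDet
import Fermat.Agent.Lib.TraceRigidity.Points
import Fermat.Prelude.Def_CuspForm_HeckeGaloisRepDatum

/-!
# S33 from a statement about the `p`-adic representations of eigen-systems
(owner: helper11)

`OrdinaryPoints p N S` (the target of the geometric suppliers): every point `χ : 𝕋 → 𝒪'` of the
Hecke algebra `𝕋 = heckeAlgebra N 2 S` in a complete discrete valuation ring `𝒪'` of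
characteristic zero with finite residue field of characteristic `p` has an attached
representation `ρ` over a discrete valuation ring `𝒪''` (local extension of `𝒪'`), with the
Frobenius characteristic polynomials `X² - χ(T_ℓ) X + ℓ`, such that `ρ` is ordinary at `p` as
soon as its residual representation is.

* `wo_of_ordinaryPoints`: then EVERY representation over `𝒪'` with these Frobenius characteristic
  polynomials which is residually absolutely irreducible (in the form: four matrices of `ρ` form a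
  basis of `M₂(𝒪')`) and residually (weakly) ordinary is (weakly) ordinary.
* `isOrdinaryAt_of_ordinaryPoints`: the frozen S33 for a datum `H` over `T`, given
  `OrdinaryPoints p N S` and a jointly injective family of local homomorphisms from `T` to
  complete discrete valuation rings (`LocalDVRPoint`; these exist since `T` is reduced and
  finite free over `𝒪`: helper62, `S32/Points.lean`).
-/

set_option autoImplicit false
set_option linter.style.haveILetI false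

namespace Fermat.Agent.S33

open Polynomial TensorProduct IsLocalRing Fermat.Agent.F3 Fermat.Agent.TraceRigidity
  Fermat.Agent.S34

local notation "GQ'" => (AlgebraicClosure ℚ ≃ₐ[ℚ] AlgebraicClosure ℚ)

/-- Every `p`-adic point of the Hecke algebra of level `N` carries a representation with the
right Frobenius characteristic polynomials which is ordinary at `p` if it is residually
ordinary at `p`. -/
def OrdinaryPoints (p N : ℕ) [NeZero N] (S : Finset ℕ) : Prop :=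
  ∀ (𝒪' : Type) [CommRing 𝒪'] [IsDomain 𝒪'] [IsDiscreteValuationRing 𝒪']
    [IsAdicComplete (IsLocalRing.maximalIdeal 𝒪') 𝒪'] [Finite (IsLocalRing.ResidueField 𝒪')]
    [CharZero 𝒪'] (_hp𝒪' : (p : 𝒪') ∈ IsLocalRing.maximalIdeal 𝒪')
    (χ : CuspForm.heckeAlgebra N 2 (↑S : Set ℕ) →+* 𝒪'),
    ∃ (𝒪'' : Type) (_ : CommRing 𝒪'') (_ : IsDomain 𝒪'') (_ : IsDiscreteValuationRing 𝒪'')
      (_ : Algebra 𝒪' 𝒪''),
    Function.Injective (algebraMap 𝒪' 𝒪'') ∧ IsLocalHom (algebraMap 𝒪' 𝒪'') ∧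
    ∃ ρ : GaloisRepAdic 𝒪'',
      (∀ (ℓ : ℕ) (hℓ : ℓ.Prime) (hℓN : ¬ ℓ ∣ N) (hℓS : ℓ ∉ (↑S : Set ℕ)),
        ∀ A : ValuationSubring (AlgebraicClosure ℚ), A.LiesOverPrime ℓ →
          ∀ σ : AlgebraicClosure ℚ ≃ₐ[ℚ] AlgebraicClosure ℚ, A.IsFrobeniusAt σ ℓ →
            LinearMap.charpoly (ρ.ρ σ) =
              X ^ 2 - C (algebraMap 𝒪' 𝒪'' (χ (CuspForm.heckeAlgebra.T hℓ hℓN hℓS))) * X
                + C ((ℓ : 𝒪''))) ∧
      ((GaloisRepAdic.ofResidualGaloisRep ρ.residual).IsOrdinaryAt p → ρ.IsOrdinaryAt p)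

variable {p : ℕ} {N : ℕ} [NeZero N] {S : Finset ℕ}

/-- The determinant at Frobenius from the characteristic polynomial. -/
theorem det_frob_of_charpoly {B : Type} [CommRing B] [IsLocalRing B]
    (φ : CuspForm.heckeAlgebra N 2 (↑S : Set ℕ) →+* B) (ρ : GaloisRepAdic B)
    (hNS : ∀ q : ℕ, q.Prime → q ∣ N → q ∈ S)
    (hρ : ∀ (ℓ : ℕ) (hℓ : ℓ.Prime) (hℓN : ¬ ℓ ∣ N) (hℓS : ℓ ∉ (↑S : Set ℕ)),
      ∀ A' : ValuationSubring (AlgebraicClosure ℚ), A'.LiesOverPrime ℓ →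
        ∀ σ : GQ', A'.IsFrobeniusAt σ ℓ →
          LinearMap.charpoly (ρ.ρ σ) =
            X ^ 2 - C (φ (CuspForm.heckeAlgebra.T hℓ hℓN hℓS)) * X + C ((ℓ : B))) :
    ∀ ℓ : ℕ, ℓ.Prime → ℓ ∉ S →
      ∀ A' : ValuationSubring (AlgebraicClosure ℚ), A'.LiesOverPrime ℓ →
        ∀ σ : GQ', A'.IsFrobeniusAt σ ℓ → LinearMap.det (ρ.ρ σ) = (ℓ : B) := by
  intro ℓ hℓ hℓS A' hA' σ hσ
  have hℓN : ¬ ℓ ∣ N := fun h => hℓS (hNS ℓ hℓ h)
  have hℓS' : ℓ ∉ (↑S : Set ℕ) := fun h => hℓS (Finset.mem_coe.1 h)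
  exact (trace_det_of_charpoly_eq ρ.finrank_eq _ _ _ (hρ ℓ hℓ hℓN hℓS' A' hA' σ hσ)).2

/-- **From the points to all representations**: given `OrdinaryPoints`, a representation over
`𝒪'` with the Frobenius characteristic polynomials of a point `χ`, four of whose matrices form a
basis of `M₂(𝒪')`, is weakly ordinary at `p` if it is residually weakly ordinary. -/
theorem wo_of_ordinaryPoints (hOP : OrdinaryPoints p N S) (hp : p.Prime) (hp2 : p ≠ 2)
    (hNS : ∀ q : ℕ, q.Prime → q ∣ N → q ∈ S)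
    (𝒪' : Type) [CommRing 𝒪'] [IsDomain 𝒪'] [IsDiscreteValuationRing 𝒪']
    [IsAdicComplete (IsLocalRing.maximalIdeal 𝒪') 𝒪'] [Finite (IsLocalRing.ResidueField 𝒪')]
    [CharZero 𝒪'] (hp𝒪' : (p : 𝒪') ∈ IsLocalRing.maximalIdeal 𝒪')
    (χ : CuspForm.heckeAlgebra N 2 (↑S : Set ℕ) →+* 𝒪') (ρ₀ : GaloisRepAdic 𝒪')
    (hρ₀ : ∀ (ℓ : ℕ) (hℓ : ℓ.Prime) (hℓN : ¬ ℓ ∣ N) (hℓS : ℓ ∉ (↑S : Set ℕ)),
      ∀ A' : ValuationSubring (AlgebraicClosure ℚ), A'.LiesOverPrime ℓ →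
        ∀ σ : GQ', A'.IsFrobeniusAt σ ℓ →
          LinearMap.charpoly (ρ₀.ρ σ) =
            X ^ 2 - C (χ (CuspForm.heckeAlgebra.T hℓ hℓN hℓS)) * X + C ((ℓ : 𝒪')))
    (b : Module.Basis (Fin 2) 𝒪' ρ₀.V) (g : Fin 2 × Fin 2 → GQ')
    (hg : IsUnit (coordMat (fun σ => LinearMap.toMatrix b b (ρ₀.ρ σ)) g).det)
    (hres : WOres ρ₀ p) : WO ρ₀ p := by
  classical
  obtain ⟨𝒪'', i1, i2, i3, i4, hinj, hloc, ρ'', hρ'', himp⟩ := hOP 𝒪' hp𝒪' χ
  set ψ : 𝒪' →+* 𝒪'' := algebraMap 𝒪' 𝒪'' with hψ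
  set ρ₁ : GaloisRepAdic 𝒪'' := ρ₀.baseChangeAlong ψ hloc with hρ₁
  letI : Algebra 𝒪' 𝒪'' := ψ.toAlgebra
  set b₁ : Module.Basis (Fin 2) 𝒪'' ρ₁.V := Algebra.TensorProduct.basis 𝒪'' b with hb₁
  have hmat : ∀ τ, LinearMap.toMatrix b₁ b₁ (ρ₁.ρ τ) =
      (LinearMap.toMatrix b b (ρ₀.ρ τ)).map ψ := fun τ =>
    LinearMap.toMatrix_baseChange 𝒪'' (ρ₀.ρ τ) b b
  have hg₁ : IsUnit (coordMat (fun τ => LinearMap.toMatrix b₁ b₁ (ρ₁.ρ τ)) g).det := by
    have h1 : coordMat (fun τ => LinearMap.toMatrix b₁ b₁ (ρ₁.ρ τ)) g =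
        ψ.mapMatrix (coordMat (fun τ => LinearMap.toMatrix b b (ρ₀.ρ τ)) g) := by
      ext ab j
      simp only [coordMat, Matrix.of_apply, RingHom.mapMatrix_apply, Matrix.map_apply]
      rw [hmat]
      rfl
    rw [h1, ← RingHom.map_det]
    exact hg.map ψ
  have hfrob' : ∀ ℓ : ℕ, ℓ.Prime → ℓ ∉ S →
      ∀ A' : ValuationSubring (AlgebraicClosure ℚ), A'.LiesOverPrime ℓ →
        ∀ τ : GQ', A'.IsFrobeniusAt τ ℓ →
          LinearMap.charpoly (ρ₁.ρ τ) = LinearMap.charpoly (ρ''.ρ τ) := by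
    intro ℓ hℓ hℓS A' hA' τ hτ
    have hℓN : ¬ ℓ ∣ N := fun h => hℓS (hNS ℓ hℓ h)
    have hℓS' : ℓ ∉ (↑S : Set ℕ) := fun h => hℓS (Finset.mem_coe.1 h)
    have h1 : LinearMap.charpoly (ρ₁.ρ τ) = (LinearMap.charpoly (ρ₀.ρ τ)).map ψ :=
      LinearMap.charpoly_baseChange (ρ₀.ρ τ) 𝒪''
    rw [h1, hρ₀ ℓ hℓ hℓN hℓS' A' hA' τ hτ, hρ'' ℓ hℓ hℓN hℓS' A' hA' τ hτ]
    simp [Polynomial.map_sub, Polynomial.map_add, Polynomial.map_mul, Polynomial.map_pow]
  have heq : ρ₁.IsEquiv ρ'' :=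
    isEquiv_of_trace_eq_of_basis ρ₁ ρ'' b₁ g hg₁
      (trace_eq_of_charpoly_frob_eq frobDensityLite ρ₁ ρ'' S hfrob')
  have hp𝒪'' : (p : 𝒪'') ∈ IsLocalRing.maximalIdeal 𝒪'' := by
    have h1 : (p : 𝒪'') = ψ (p : 𝒪') := by simp
    rw [h1, mem_maximalIdeal, mem_nonunits_iff]
    intro hu
    exact (mem_maximalIdeal _).1 hp𝒪' (isUnit_of_map_unit ψ _ hu)
  have hidn'' : IDN ρ'' p :=
    idn_of_det_frob ρ'' hp hp2 hp𝒪'' S
      (det_frob_of_charpoly ((algebraMap 𝒪' 𝒪'').comp χ) ρ'' hNS hρ'')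
  have h1 : WOres ρ₁ p := wores_baseChangeAlong ψ hloc hres
  have h2 : WOres ρ'' p := wores_of_isEquiv heq h1
  have h3 : ρ''.IsOrdinaryAt p := himp ((residual_isOrdinaryAt_iff_wores ρ'' p hidn'').2 h2)
  have h4 : WO ρ₁ p := by
    obtain ⟨e⟩ := heq
    exact wo_of_isEquiv ⟨e.symm⟩ (wo_of_isOrdinaryAt h3)
  exact wo_of_baseChangeAlong_family (ι := Unit) (O := fun _ => 𝒪'') (fun _ => ψ)
    (fun _ => hloc) (fun x hx => hinj (by rw [hx (), map_zero])) (fun _ => h4)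

/-- A local homomorphism from `T` to a complete discrete valuation ring of characteristic zero
with finite residue field. -/
structure LocalDVRPoint (T : Type) [CommRing T] [IsLocalRing T] : Type 1 where
  /-- the coefficient ring -/
  O : Type
  [instCommRing : CommRing O]
  [instIsDomain : IsDomain O]
  [instDVR : IsDiscreteValuationRing O]
  [instComplete : IsAdicComplete (IsLocalRing.maximalIdeal O) O]
  [instFinite : Finite (IsLocalRing.ResidueField O)]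
  [instCharZero : CharZero O]
  /-- the point -/
  ψ : T →+* O
  isLocalHom : IsLocalHom ψ

attribute [instance] LocalDVRPoint.instCommRing LocalDVRPoint.instIsDomain
  LocalDVRPoint.instDVR LocalDVRPoint.instComplete LocalDVRPoint.instFinite
  LocalDVRPoint.instCharZero

/-- `T` is separated by local homomorphisms to complete discrete valuation rings. -/
def HasLocalDVRPoints (T : Type) [CommRing T] [IsLocalRing T] : Prop :=
  ∃ (ι : Type) (Q : ι → LocalDVRPoint T), ∀ x : T, (∀ i, (Q i).ψ x = 0) → x = 0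

variable {𝒪 : Type} [CommRing 𝒪] [IsDomain 𝒪] [IsDiscreteValuationRing 𝒪]
  [IsAdicComplete (IsLocalRing.maximalIdeal 𝒪) 𝒪]
  {θ : CuspForm.heckeAlgebra N 2 (↑S : Set ℕ) →+* IsLocalRing.ResidueField 𝒪}
  {T : Type} [CommRing T] [IsLocalRing T] [IsNoetherianRing T]
  [IsAdicComplete (IsLocalRing.maximalIdeal T) T] [Algebra 𝒪 T] [IsLocalHom (algebraMap 𝒪 T)]
  [Module.Finite 𝒪 T] [Module.Free 𝒪 T]

/-- **S33 from the `p`-adic representations of eigen-systems**: the statement of the frozen S33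
for a datum `H`, given `OrdinaryPoints p N S` and the separation of `T` by local points. -/
theorem isOrdinaryAt_of_ordinaryPoints (hOP : OrdinaryPoints p N S)
    (hp : p.Prime) (hp2 : p ≠ 2) (hp𝒪 : (p : 𝒪) ∈ IsLocalRing.maximalIdeal 𝒪)
    (hNS : ∀ q : ℕ, q.Prime → q ∣ N → q ∈ S)
    (H : CuspForm.HeckeGaloisRepDatum N (↑S : Set ℕ) 𝒪 θ T)
    (hpts : HasLocalDVRPoints T)
    (hres : (GaloisRepAdic.ofResidualGaloisRep H.ρ.residual).IsOrdinaryAt p) :
    H.ρ.IsOrdinaryAt p := by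
  classical
  obtain ⟨ι, Q, hQ⟩ := hpts
  have hpT : (p : T) ∈ IsLocalRing.maximalIdeal T := by
    have h1 : (p : T) = algebraMap 𝒪 T (p : 𝒪) := by simp
    rw [h1, mem_maximalIdeal, mem_nonunits_iff]
    intro hu
    exact (mem_maximalIdeal _).1 hp𝒪 (isUnit_of_map_unit (algebraMap 𝒪 T) _ hu)
  have hidn : IDN H.ρ p :=
    idn_of_det_frob H.ρ hp hp2 hpT S (det_frob_of_charpoly H.π H.ρ hNS H.charpoly_frob)
  have hwores : WOres H.ρ p := (residual_isOrdinaryAt_iff_wores H.ρ p hidn).1 hres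
  set b : Module.Basis (Fin 2) T H.ρ.V := Module.finBasisOfFinrankEq T H.ρ.V H.ρ.finrank_eq
    with hb
  obtain ⟨g, hg⟩ := exists_isUnit_det_coordMat H.ρ H.residual_absIrr b
  refine isOrdinaryAt_of_wo ?_ hidn
  refine wo_of_baseChangeAlong_family (fun i => (Q i).ψ) (fun i => (Q i).isLocalHom) hQ
    fun i => ?_
  -- the point `i`
  have hloc := (Q i).isLocalHom
  letI : Algebra T (Q i).O := ((Q i).ψ).toAlgebra
  set ρi : GaloisRepAdic (Q i).O := H.ρ.baseChangeAlong (Q i).ψ hloc with hρi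
  set bi : Module.Basis (Fin 2) (Q i).O ρi.V := Algebra.TensorProduct.basis (Q i).O b with hbi
  have hmat : ∀ τ, LinearMap.toMatrix bi bi (ρi.ρ τ) =
      (LinearMap.toMatrix b b (H.ρ.ρ τ)).map (Q i).ψ := fun τ =>
    LinearMap.toMatrix_baseChange (Q i).O (H.ρ.ρ τ) b b
  have hgi : IsUnit (coordMat (fun τ => LinearMap.toMatrix bi bi (ρi.ρ τ)) g).det := by
    have h1 : coordMat (fun τ => LinearMap.toMatrix bi bi (ρi.ρ τ)) g =
        ((Q i).ψ).mapMatrix (coordMat (fun τ => LinearMap.toMatrix b b (H.ρ.ρ τ)) g) := by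
      ext ab j
      simp only [coordMat, Matrix.of_apply, RingHom.mapMatrix_apply, Matrix.map_apply]
      rw [hmat]
      rfl
    rw [h1, ← RingHom.map_det]
    exact hg.map (Q i).ψ
  have hpi : (p : (Q i).O) ∈ IsLocalRing.maximalIdeal (Q i).O := by
    have h1 : (p : (Q i).O) = (Q i).ψ (p : T) := by simp
    rw [h1, mem_maximalIdeal, mem_nonunits_iff]
    intro hu
    exact (mem_maximalIdeal _).1 hpT (isUnit_of_map_unit (Q i).ψ _ hu)
  have hfrobi : ∀ (ℓ : ℕ) (hℓ : ℓ.Prime) (hℓN : ¬ ℓ ∣ N) (hℓS : ℓ ∉ (↑S : Set ℕ)),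
      ∀ A' : ValuationSubring (AlgebraicClosure ℚ), A'.LiesOverPrime ℓ →
        ∀ σ : GQ', A'.IsFrobeniusAt σ ℓ →
          LinearMap.charpoly (ρi.ρ σ) =
            X ^ 2 - C (((Q i).ψ.comp H.π) (CuspForm.heckeAlgebra.T hℓ hℓN hℓS)) * X
              + C ((ℓ : (Q i).O)) := by
    intro ℓ hℓ hℓN hℓS A' hA' σ hσ
    have h1 : LinearMap.charpoly (ρi.ρ σ) = (LinearMap.charpoly (H.ρ.ρ σ)).map (Q i).ψ :=
      LinearMap.charpoly_baseChange (H.ρ.ρ σ) (Q i).O
    rw [h1, H.charpoly_frob ℓ hℓ hℓN hℓS A' hA' σ hσ]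
    simp [Polynomial.map_sub, Polynomial.map_add, Polynomial.map_mul, Polynomial.map_pow]
  exact wo_of_ordinaryPoints hOP hp hp2 hNS (Q i).O hpi ((Q i).ψ.comp H.π) ρi hfrobi bi g hgi
    (wores_baseChangeAlong (Q i).ψ hloc hwores)

end Fermat.Agent.S33
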