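import Mathlib
import Fermat.Agent.S33.Reduction
import Fermat.Agent.S32.DatumPoints

/-!
# S33: the assembly (owner: helper11)

`s33_of_ordinaryPoints`: the frozen statement S33 (same binders), from `OrdinaryPoints p N S`
(S33/Reduction.lean; the geometric input).  The separation of the coefficient ring `T` of a datum
by local points in complete discrete valuation rings is helper62's `S32.dvrSeparation_of_datum`.
-/

set_option autoImplicit false
set_option linter.style.haveILetI false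

namespace Fermat.Agent.S33

open IsLocalRing Fermat.Agent.DVRPoints

variable {p : ℕ} {N : ℕ} [NeZero N] {S : Finset ℕ}
  {𝒪 : Type} [CommRing 𝒪] [IsDomain 𝒪] [IsDiscreteValuationRing 𝒪]
  [IsAdicComplete (IsLocalRing.maximalIdeal 𝒪) 𝒪]
  {θ : CuspForm.heckeAlgebra N 2 (↑S : Set ℕ) →+* IsLocalRing.ResidueField 𝒪}
  {T : Type} [CommRing T] [IsLocalRing T] [IsNoetherianRing T]
  [IsAdicComplete (IsLocalRing.maximalIdeal T) T] [Algebra 𝒪 T] [IsLocalHom (algebraMap 𝒪 T)]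
  [Module.Finite 𝒪 T] [Module.Free 𝒪 T]

/-- The coefficient ring of a datum is separated by local points in complete discrete valuation
rings. -/
theorem hasLocalDVRPoints_of_datum [Finite (IsLocalRing.ResidueField 𝒪)] [CharZero 𝒪]
    (hp : p.Prime) (hp𝒪 : (p : 𝒪) ∈ IsLocalRing.maximalIdeal 𝒪)
    (hNS : ∀ q : ℕ, q.Prime → q ∣ N → q ∈ S)
    (H : CuspForm.HeckeGaloisRepDatum N (↑S : Set ℕ) 𝒪 θ T) : HasLocalDVRPoints T := by
  obtain ⟨d, P, hP⟩ := Fermat.Agent.S32.dvrSeparation_of_datum hp hNS H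
  have hpT : (p : T) ∈ IsLocalRing.maximalIdeal T := by
    have h1 : (p : T) = algebraMap 𝒪 T (p : 𝒪) := by simp
    rw [h1, mem_maximalIdeal, mem_nonunits_iff]
    intro hu
    exact (mem_maximalIdeal _).1 hp𝒪 (isUnit_of_map_unit (algebraMap 𝒪 T) _ hu)
  have hbot : ⨅ n : ℕ, IsLocalRing.maximalIdeal T ^ n = ⊥ :=
    Ideal.iInf_pow_eq_bot_of_isLocalRing _ (Ideal.IsMaximal.ne_top inferInstance)
  refine ⟨Fin d, fun i =>
    { O := (P i).O
      ψ := (P i).χ
      isLocalHom := Fermat.Agent.S32.isLocalHom_of_dvrPt (𝒪 := 𝒪) hp (P i) }, fun x hx => ?_⟩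
  rw [← Ideal.mem_bot, ← hbot, Ideal.mem_iInf]
  intro r
  obtain ⟨m, hm⟩ := hP r
  obtain ⟨Y, hY⟩ := hm x fun i => by
    have : (P i).χ x = 0 := hx i
    rw [this]
    exact Ideal.zero_mem _
  rw [hY]
  exact Ideal.mul_mem_right _ _ (Ideal.pow_mem_pow hpT r)

/-- **S33 from `OrdinaryPoints`** (binders of the frozen statement). -/
theorem s33_of_ordinaryPoints (hOP : OrdinaryPoints p N S)
    [Finite (IsLocalRing.ResidueField 𝒪)] [CharZero 𝒪]
    (hp : p.Prime) (hp2 : p ≠ 2) (hp𝒪 : (p : 𝒪) ∈ IsLocalRing.maximalIdeal 𝒪)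
    (_hN : p ∣ N ∧ ¬ p ^ 2 ∣ N)
    (hNS : ∀ q : ℕ, q.Prime → q ∣ N → q ∈ S)
    (H : CuspForm.HeckeGaloisRepDatum N (↑S : Set ℕ) 𝒪 θ T)
    (hres : (GaloisRepAdic.ofResidualGaloisRep H.ρ.residual).IsOrdinaryAt p) :
    H.ρ.IsOrdinaryAt p :=
  isOrdinaryAt_of_ordinaryPoints hOP hp hp2 hp𝒪 hNS H
    (hasLocalDVRPoints_of_datum hp hp𝒪 hNS H) hres

end Fermat.Agent.S33
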