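import Mathlib
import Fermat.Agent.S33.Assembly

/-!
# S33: the two suppliers (owner: helper11)

`OrdinaryPoints p N S` (S33/Reduction.lean) is split, point by point, into

* `OldOrdinary p N₀ N S` : the points `χ` of the Hecke algebra of level `N` which occur at level
  `N₀` (`N = p * N₀`, `p ∤ N₀`) — supplier: flatness at level `N₀` (S19 / S32) + FFL-ORD;
* `NewOrdinary p N₀ N S` : the points which do not occur at level `N₀` — supplier: the toric part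
  at `p` (`(T1p)`).

`s33_of_old_new` : the frozen S33 (same binders) from the two.
-/

set_option autoImplicit false
set_option linter.style.haveILetI false

namespace Fermat.Agent.S33

open Polynomial IsLocalRing

/-- The eigen-system `χ` of level `N` occurs at level `N₀`. -/
def OccursAtLevel (N₀ N : ℕ) [NeZero N₀] [NeZero N] (S : Finset ℕ) {𝒪' : Type} [CommRing 𝒪']
    (χ : CuspForm.heckeAlgebra N 2 (↑S : Set ℕ) →+* 𝒪') : Prop :=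
  ∃ χ₀ : CuspForm.heckeAlgebra N₀ 2 (↑S : Set ℕ) →+* 𝒪',
    ∀ (ℓ : ℕ) (hℓ : ℓ.Prime) (hℓN : ¬ ℓ ∣ N) (hℓN₀ : ¬ ℓ ∣ N₀) (hℓS : ℓ ∉ (↑S : Set ℕ)),
      χ₀ (CuspForm.heckeAlgebra.T hℓ hℓN₀ hℓS) = χ (CuspForm.heckeAlgebra.T hℓ hℓN hℓS)

/-- The conclusion of `OrdinaryPoints` for one point `χ`. -/
def OrdinaryPointAt (p N : ℕ) [NeZero N] (S : Finset ℕ) (𝒪' : Type) [CommRing 𝒪']
    [IsLocalRing 𝒪'] (χ : CuspForm.heckeAlgebra N 2 (↑S : Set ℕ) →+* 𝒪') : Prop :=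
  ∃ (𝒪'' : Type) (_ : CommRing 𝒪'') (_ : IsDomain 𝒪'') (_ : IsDiscreteValuationRing 𝒪'')
    (_ : Algebra 𝒪' 𝒪''),
  Function.Injective (algebraMap 𝒪' 𝒪'') ∧ IsLocalHom (algebraMap 𝒪' 𝒪'') ∧
  ∃ ρ : GaloisRepAdic 𝒪'',
    (∀ (ℓ : ℕ) (hℓ : ℓ.Prime) (hℓN : ¬ ℓ ∣ N) (hℓS : ℓ ∉ (↑S : Set ℕ)),
      ∀ A : ValuationSubring (AlgebraicClosure ℚ), A.LiesOverPrime ℓ →
        ∀ σ : AlgebraicClosure ℚ ≃ₐ[ℚ] AlgebraicClosure ℚ, A.IsFrobeniusAt σ ℓ →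
          LinearMap.charpoly (ρ.ρ σ) =
            X ^ 2 - C (algebraMap 𝒪' 𝒪'' (χ (CuspForm.heckeAlgebra.T hℓ hℓN hℓS))) * X
              + C ((ℓ : 𝒪''))) ∧
    ((GaloisRepAdic.ofResidualGaloisRep ρ.residual).IsOrdinaryAt p → ρ.IsOrdinaryAt p)

/-- The points occurring at level `N₀`. -/
def OldOrdinary (p N₀ N : ℕ) [NeZero N₀] [NeZero N] (S : Finset ℕ) : Prop :=
  ∀ (𝒪' : Type) [CommRing 𝒪'] [IsDomain 𝒪'] [IsDiscreteValuationRing 𝒪']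
    [IsAdicComplete (IsLocalRing.maximalIdeal 𝒪') 𝒪'] [Finite (IsLocalRing.ResidueField 𝒪')]
    [CharZero 𝒪'] (_hp𝒪' : (p : 𝒪') ∈ IsLocalRing.maximalIdeal 𝒪')
    (χ : CuspForm.heckeAlgebra N 2 (↑S : Set ℕ) →+* 𝒪'),
    OccursAtLevel N₀ N S χ → OrdinaryPointAt p N S 𝒪' χ

/-- The points not occurring at level `N₀`. -/
def NewOrdinary (p N₀ N : ℕ) [NeZero N₀] [NeZero N] (S : Finset ℕ) : Prop :=
  ∀ (𝒪' : Type) [CommRing 𝒪'] [IsDomain 𝒪'] [IsDiscreteValuationRing 𝒪']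
    [IsAdicComplete (IsLocalRing.maximalIdeal 𝒪') 𝒪'] [Finite (IsLocalRing.ResidueField 𝒪')]
    [CharZero 𝒪'] (_hp𝒪' : (p : 𝒪') ∈ IsLocalRing.maximalIdeal 𝒪')
    (χ : CuspForm.heckeAlgebra N 2 (↑S : Set ℕ) →+* 𝒪'),
    ¬ OccursAtLevel N₀ N S χ → OrdinaryPointAt p N S 𝒪' χ

theorem ordinaryPoints_of_old_new {p N₀ N : ℕ} [NeZero N₀] [NeZero N] {S : Finset ℕ}
    (hold : OldOrdinary p N₀ N S) (hnew : NewOrdinary p N₀ N S) : OrdinaryPoints p N S := by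
  classical
  intro 𝒪' _ _ _ _ _ _ hp𝒪' χ
  by_cases h : OccursAtLevel N₀ N S χ
  · exact hold 𝒪' hp𝒪' χ h
  · exact hnew 𝒪' hp𝒪' χ h

variable {p : ℕ} {N : ℕ} [NeZero N] {S : Finset ℕ}
  {𝒪 : Type} [CommRing 𝒪] [IsDomain 𝒪] [IsDiscreteValuationRing 𝒪]
  [IsAdicComplete (IsLocalRing.maximalIdeal 𝒪) 𝒪]
  {θ : CuspForm.heckeAlgebra N 2 (↑S : Set ℕ) →+* IsLocalRing.ResidueField 𝒪}
  {T : Type} [CommRing T] [IsLocalRing T] [IsNoetherianRing T]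
  [IsAdicComplete (IsLocalRing.maximalIdeal T) T] [Algebra 𝒪 T] [IsLocalHom (algebraMap 𝒪 T)]
  [Module.Finite 𝒪 T] [Module.Free 𝒪 T]

/-- **S33 from the two suppliers** (binders of the frozen statement). -/
theorem s33_of_old_new
    (hold : ∀ (p N₀ N : ℕ) [NeZero N₀] [NeZero N] (S : Finset ℕ), p.Prime → p ≠ 2 →
      N = p * N₀ → ¬ p ∣ N₀ → (∀ q : ℕ, q.Prime → q ∣ N → q ∈ S) → OldOrdinary p N₀ N S)
    (hnew : ∀ (p N₀ N : ℕ) [NeZero N₀] [NeZero N] (S : Finset ℕ), p.Prime → p ≠ 2 →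
      N = p * N₀ → ¬ p ∣ N₀ → (∀ q : ℕ, q.Prime → q ∣ N → q ∈ S) → NewOrdinary p N₀ N S)
    [Finite (IsLocalRing.ResidueField 𝒪)] [CharZero 𝒪]
    (hp : p.Prime) (hp2 : p ≠ 2) (hp𝒪 : (p : 𝒪) ∈ IsLocalRing.maximalIdeal 𝒪)
    (hN : p ∣ N ∧ ¬ p ^ 2 ∣ N)
    (hNS : ∀ q : ℕ, q.Prime → q ∣ N → q ∈ S)
    (H : CuspForm.HeckeGaloisRepDatum N (↑S : Set ℕ) 𝒪 θ T)
    (hres : (GaloisRepAdic.ofResidualGaloisRep H.ρ.residual).IsOrdinaryAt p) :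
    H.ρ.IsOrdinaryAt p := by
  obtain ⟨N₀, hN₀⟩ := hN.1
  have hN₀0 : N₀ ≠ 0 := by
    rintro rfl
    exact NeZero.ne N (by rw [hN₀, mul_zero])
  haveI : NeZero N₀ := ⟨hN₀0⟩
  have hpN₀ : ¬ p ∣ N₀ := by
    rintro ⟨c, hc⟩
    exact hN.2 ⟨c, by rw [hN₀, hc]; ring⟩
  exact s33_of_ordinaryPoints
    (ordinaryPoints_of_old_new (hold p N₀ N S hp hp2 hN₀ hpN₀ hNS)
      (hnew p N₀ N S hp hp2 hN₀ hpN₀ hNS)) hp hp2 hp𝒪 hN hNS H hres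

end Fermat.Agent.S33
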