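/-
S33-new (architect helper66), seat P-NEW (helper69): the points `χ` of the Hecke algebra of level
`N = N₀ p` which do NOT occur at level `N₀` are `p`-new.

* `pnew_exists_character` : a nonzero eigenvector in `O ⊗ Hom_par(Γ₀(N), ℤ)` with eigenvalues
  `r ℓ ∈ O` gives a character `heckeAlgebra N 2 S →+* O` (values in `O`, no passage to `ℂ`);
* `pnew_vector`  : if `χ` does not occur at level `N₀` (`S33.OccursAtLevel`), every `χ`-eigenvector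
  of `O ⊗ Hom_par(Γ₀(N₀ p), ℤ)` is killed by the two corestrictions to level `N₀`;
* `pnew_vector_cast` : the same at a level `N = N₀ * p`;
* **(G0)** `pnewAlpha h`, `pnewBeta h D hM : J₀(N) →+ J₀(N₀)` (`α_*` and `α_* ∘ w_*`), Galois
  equivariant (`pnewAlpha_smul`, `pnewBeta_smul`);
* **(G3)** `pnew_class` : the explicit eigen-class `S35.newClass N p O x₀ n = (O ⊗ κ_{pⁿ}) x₀` of a
  `χ`-eigenvector `x₀` is killed by `O ⊗ α_*` and `O ⊗ β_*`, for all `n`;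
* **`newEigenclassAt`** : the target `S33.NewEigenclassAt M S i` of `S33/NewDefs.lean`
  (helper11's consumer `S33.newOrdinaryU_of_torsion`), unconditional.
-/
import Mathlib
import Fermat.Agent.S33.OldNew
import Fermat.Agent.S33.NewDefs
import Fermat.Agent.S35.NewVector
import Fermat.Agent.S35.KernelAt
import Fermat.Agent.F3.EigenPadic.Closed

set_option autoImplicit false
set_option linter.style.haveILetI false
set_option linter.unusedSectionVars false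
set_option linter.unusedVariables false

noncomputable section

namespace Fermat.Agent.S33

open CongruenceSubgroup ModularFormClass ModularCurve ModularCurve.Period AlgebraicCurve
open Fermat.Agent.F3EC Fermat.Agent.F3EP Fermat.Agent.F3 Fermat.Agent.F3Deg Fermat.Agent.F3DegW
  Fermat.Agent.LDeg Fermat.Agent.S35
open Fermat.Agent.AtkinLehner (ALData)
open CuspForm
open scoped TensorProduct

local notation "Qb" => AlgebraicClosure ℚ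

/-! ### from an eigenvector to a character with values in `O` -/

section Character

variable {N : ℕ} [NeZero N] {S : Set ℕ}

/-- **From an eigenvector to a character.**  A nonzero vector of `O ⊗ Hom_par(Γ₀(N), ℤ)` on which
the `T_ℓ`, `ℓ ∉ S`, act by the scalars `r ℓ ∈ O` gives a character of the Hecke algebra with values
in `O` and `Ψ (T_ℓ) = r ℓ`. -/
theorem pnew_exists_character (hNS : ∀ q : ℕ, q.Prime → q ∣ N → q ∈ S)
    {O : Type*} [CommRing O] [IsDomain O] (r : ℕ → O)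
    (y : O ⊗[ℤ] HomPar N) (hy0 : y ≠ 0)
    (hy : ∀ (ℓ : ℕ) (hℓ : ℓ.Prime), ¬ ℓ ∣ N → ℓ ∉ S →
      (heckeHom N ⟨ℓ, hℓ⟩).baseChange O y = r ℓ • y) :
    ∃ Ψ : heckeAlgebra N 2 S →+* O,
      ∀ (ℓ : ℕ) (hℓ : ℓ.Prime) (hℓN : ¬ ℓ ∣ N) (hℓS : ℓ ∉ S),
        Ψ (heckeAlgebra.T hℓ hℓN hℓS) = r ℓ := by
  classical
  have huniq : ∀ s s' : O, s • y = s' • y → s = s' := by
    intro s s' h
    have h1 : (s - s') • y = 0 := by rw [sub_smul, h, sub_self]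
    rcases smul_eq_zero.mp h1 with h2 | h2
    · exact sub_eq_zero.mp h2
    · exact absurd h2 hy0
  have hy' : ∀ (ℓ : ℕ) (hℓ : ℓ.Prime), ¬ ℓ ∣ N → ℓ ∉ S →
      (heckeHom N ⟨ℓ, hℓ⟩).baseChange O y = (RingHom.id O) (r ℓ) • y := hy
  choose Φ hΦ using nv_exists_scalar hNS (RingHom.id O) r y hy'
  have hΦ' : ∀ t, nvRho hNS O t y = Φ t • y := hΦ
  have hone : Φ 1 = 1 := by
    apply huniq
    rw [← hΦ', map_one, Module.End.one_apply, one_smul]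
  have hmul : ∀ a b, Φ (a * b) = Φ a * Φ b := by
    intro a b
    apply huniq
    rw [← hΦ', map_mul, Module.End.mul_apply, hΦ' b, map_smul, hΦ' a, smul_smul, mul_comm]
  have hzero : Φ 0 = 0 := by
    apply huniq
    rw [← hΦ', map_zero, LinearMap.zero_apply, zero_smul]
  have hadd : ∀ a b, Φ (a + b) = Φ a + Φ b := by
    intro a b
    apply huniq
    rw [← hΦ', map_add, LinearMap.add_apply, hΦ' a, hΦ' b, add_smul]
  let Φr : heckeAlgebra N 2 S →+* O :=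
    { toFun := Φ, map_one' := hone, map_mul' := hmul, map_zero' := hzero, map_add' := hadd }
  refine ⟨Φr, ?_⟩
  intro ℓ hℓ hℓN hℓS
  show Φ (heckeAlgebra.T hℓ hℓN hℓS) = r ℓ
  apply huniq
  rw [← hΦ', nvRho_T hNS O hℓ hℓN hℓS]
  exact hy ℓ hℓ hℓN hℓS

end Character

/-! ### eigenvectors of a point not occurring at level `N₀` -/

/-- The key step for an abstract Hecke-equivariant map `τ` from level `N₀ p` to level `N₀`: if the
point `χ` does not occur at level `N₀`, every `χ`-eigenvector is killed by `O ⊗ τ`. -/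
theorem pnew_baseChange_eq_zero (N₀ p : ℕ) [NeZero N₀] [NeZero p]
    (S : Finset ℕ) (hS : ∀ r : ℕ, r.Prime → r ∣ N₀ * p → r ∈ S)
    (O : Type) [CommRing O] [IsDomain O]
    (χ : CuspForm.heckeAlgebra (N₀ * p) 2 (↑S : Set ℕ) →+* O)
    (hχ : ¬ OccursAtLevel N₀ (N₀ * p) S χ)
    (x : O ⊗[ℤ] HomPar (N₀ * p))
    (hx : ∀ (ℓ : ℕ) (hℓ : ℓ.Prime) (hℓM : ¬ ℓ ∣ N₀ * p) (hℓS : ℓ ∉ (↑S : Set ℕ)),
      (heckeHom (N₀ * p) ⟨ℓ, hℓ⟩).baseChange O x =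
        χ (CuspForm.heckeAlgebra.T hℓ hℓM hℓS) • x)
    (τ : HomPar (N₀ * p) →ₗ[ℤ] HomPar N₀)
    (hτ : ∀ (ℓ : Nat.Primes), ¬ (ℓ : ℕ) ∣ N₀ * p → ∀ c : HomPar (N₀ * p),
      τ (heckeHom (N₀ * p) ℓ c) = heckeHom N₀ ℓ (τ c)) :
    τ.baseChange O x = 0 := by
  classical
  by_contra hy0
  set y := τ.baseChange O x with hy
  have hNS : ∀ r : ℕ, r.Prime → r ∣ N₀ → r ∈ (↑S : Set ℕ) := fun r hr hrN =>
    Finset.mem_coe.mpr (hS r hr (Dvd.dvd.mul_right hrN p))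
  have hnd : ∀ ℓ : ℕ, ℓ.Prime → ℓ ∉ (↑S : Set ℕ) → ¬ ℓ ∣ N₀ * p := fun ℓ hℓ hℓS h =>
    hℓS (Finset.mem_coe.mpr (hS ℓ hℓ h))
  set r : ℕ → O := fun ℓ =>
    if h : ℓ.Prime ∧ ¬ ℓ ∣ N₀ * p ∧ ℓ ∉ (↑S : Set ℕ) then
      χ (heckeAlgebra.T h.1 h.2.1 h.2.2) else 0 with hr
  have hrℓ : ∀ (ℓ : ℕ) (hℓ : ℓ.Prime) (hℓM : ¬ ℓ ∣ N₀ * p) (hℓS : ℓ ∉ (↑S : Set ℕ)),
      r ℓ = χ (heckeAlgebra.T hℓ hℓM hℓS) := fun ℓ hℓ hℓM hℓS => by
    simp only [hr, dif_pos (show ℓ.Prime ∧ ¬ ℓ ∣ N₀ * p ∧ ℓ ∉ (↑S : Set ℕ) from ⟨hℓ, hℓM, hℓS⟩)]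
  have hyeig : ∀ (ℓ : ℕ) (hℓ : ℓ.Prime), ¬ ℓ ∣ N₀ → ℓ ∉ (↑S : Set ℕ) →
      (heckeHom N₀ ⟨ℓ, hℓ⟩).baseChange O y = r ℓ • y := by
    intro ℓ hℓ _ hℓS
    have hℓM := hnd ℓ hℓ hℓS
    have hcomm : (heckeHom N₀ ⟨ℓ, hℓ⟩).baseChange O ∘ₗ τ.baseChange O =
        τ.baseChange O ∘ₗ (heckeHom (N₀ * p) ⟨ℓ, hℓ⟩).baseChange O := by
      rw [← LinearMap.baseChange_comp, ← LinearMap.baseChange_comp]
      congr 1
      refine LinearMap.ext fun c => ?_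
      rw [LinearMap.comp_apply, LinearMap.comp_apply]
      exact (hτ ⟨ℓ, hℓ⟩ hℓM c).symm
    have h1 := congrArg (fun f => f x) hcomm
    simp only [LinearMap.comp_apply] at h1
    rw [hy, h1, hx ℓ hℓ hℓM hℓS, map_smul, hrℓ ℓ hℓ hℓM hℓS]
  obtain ⟨Ψ, hΨ⟩ := pnew_exists_character hNS r y hy0 hyeig
  apply hχ
  refine ⟨Ψ, fun ℓ hℓ hℓN hℓN₀ hℓS => ?_⟩
  rw [hΨ ℓ hℓ hℓN₀ hℓS, hrℓ ℓ hℓ hℓN hℓS]

/-- **P-NEW, vector form**: if the point `χ` of level `N₀ p` does not occur at level `N₀`, every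
`χ`-eigenvector of `O ⊗ Hom_par(Γ₀(N₀ p), ℤ)` is killed by the two corestrictions to level
`N₀`. -/
theorem pnew_vector (N₀ p : ℕ) [NeZero N₀] [NeZero p] (hp : p.Prime) (hpN : ¬ p ∣ N₀)
    (S : Finset ℕ) (hS : ∀ r : ℕ, r.Prime → r ∣ N₀ * p → r ∈ S)
    (O : Type) [CommRing O] [IsDomain O]
    (χ : CuspForm.heckeAlgebra (N₀ * p) 2 (↑S : Set ℕ) →+* O)
    (hχ : ¬ OccursAtLevel N₀ (N₀ * p) S χ)
    (x : O ⊗[ℤ] HomPar (N₀ * p))
    (hx : ∀ (ℓ : ℕ) (hℓ : ℓ.Prime) (hℓM : ¬ ℓ ∣ N₀ * p) (hℓS : ℓ ∉ (↑S : Set ℕ)),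
      (heckeHom (N₀ * p) ⟨ℓ, hℓ⟩).baseChange O x =
        χ (CuspForm.heckeAlgebra.T hℓ hℓM hℓS) • x) :
    (coresPar N₀ p).baseChange O x = 0 ∧ (coresParD N₀ p).baseChange O x = 0 :=
  ⟨pnew_baseChange_eq_zero N₀ p S hS O χ hχ x hx _
      (fun ℓ hℓ c => coresPar_heckeHom hp hpN ℓ hℓ c),
    pnew_baseChange_eq_zero N₀ p S hS O χ hχ x hx _
      (fun ℓ hℓ c => coresParD_heckeHom hp hpN ℓ hℓ c)⟩

/-- **P-NEW, vector form at a level `N = N₀ * p`.** -/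
theorem pnew_vector_cast {N N₀ p : ℕ} [NeZero N] [NeZero N₀] [NeZero p] (h : N = N₀ * p)
    (hp : p.Prime) (hpN : ¬ p ∣ N₀)
    (S : Finset ℕ) (hS : ∀ r : ℕ, r.Prime → r ∣ N → r ∈ S)
    (O : Type) [CommRing O] [IsDomain O]
    (χ : CuspForm.heckeAlgebra N 2 (↑S : Set ℕ) →+* O)
    (hχ : ¬ OccursAtLevel N₀ N S χ)
    (x : O ⊗[ℤ] HomPar N)
    (hx : ∀ (ℓ : ℕ) (hℓ : ℓ.Prime) (hℓM : ¬ ℓ ∣ N) (hℓS : ℓ ∉ (↑S : Set ℕ)),
      (heckeHom N ⟨ℓ, hℓ⟩).baseChange O x = χ (CuspForm.heckeAlgebra.T hℓ hℓM hℓS) • x) :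
    (coresParAt h).baseChange O x = 0 ∧ (coresParDAt h).baseChange O x = 0 := by
  subst h
  exact pnew_vector N₀ p hp hpN S hS O χ hχ x hx

/-! ### (G0): the two degeneracy maps -/

section Deg

variable {N N₀ p : ℕ} [NeZero N] [NeZero N₀] [NeZero p]

/-- **(G0)** `α_* : J₀(N) → J₀(N₀)` for `N = N₀ * p`. -/
def pnewAlpha (h : N = N₀ * p) : JZero N →+ JZero N₀ := pushAlphaAt h

/-- **(G0)** `β_* = α_* ∘ w_* : J₀(N) → J₀(N₀)` for `N = N₀ * p = D.Q * D.R`. -/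
def pnewBeta (h : N = N₀ * p) (D : ALData) (hM : N = D.Q * D.R) : JZero N →+ JZero N₀ :=
  (pushAlphaAt h).comp (pushWAt D hM)

theorem pnewAlpha_smul (h : N = N₀ * p) (σ : Qb ≃ₐ[ℚ] Qb) (y : JZero N) :
    pnewAlpha h (σ • y) = σ • pnewAlpha h y :=
  pushAlphaAt_smul h σ y

theorem pnewBeta_smul (h : N = N₀ * p) (D : ALData) (hM : N = D.Q * D.R) (σ : Qb ≃ₐ[ℚ] Qb)
    (y : JZero N) : pnewBeta h D hM (σ • y) = σ • pnewBeta h D hM y := by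
  unfold pnewBeta
  rw [AddMonoidHom.comp_apply, pushWAt_smul, pushAlphaAt_smul]
  rfl

/-- **(G3)**, abstract form: an `x₀` killed by the two corestrictions has its explicit eigen-class
killed by `O ⊗ α_*` and `O ⊗ β_*`. -/
theorem pnew_class_of (h : N = N₀ * p) (hp : p.Prime) (hpN : ¬ p ∣ N₀)
    (D : ALData) (hQ : D.Q = p) (hR : D.R = N₀) (hM : N = D.Q * D.R)
    {O : Type*} [CommRing O] {x₀ : O ⊗[ℤ] HomPar N}
    (hx₀ : (coresParAt h).baseChange O x₀ = 0 ∧ (coresParDAt h).baseChange O x₀ = 0)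
    (m n : ℕ) :
    ((pnewAlpha h).toIntLinearMap ∘ₗ (Jtors N (m ^ n)).subtype).baseChange O
        (newClass N m O x₀ n) = 0 ∧
      ((pnewBeta h D hM).toIntLinearMap ∘ₗ (Jtors N (m ^ n)).subtype).baseChange O
        (newClass N m O x₀ n) = 0 := by
  refine ⟨newClass_ker (pnewAlpha h).toIntLinearMap (coresParAt h) n
      ((Jtors N₀ (m ^ n)).subtype ∘ₗ kappaC N₀ (m ^ n)) (fun c => ?_) hx₀.1,
    newClass_ker (pnewBeta h D hM).toIntLinearMap (coresParDAt h) n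
      ((Jtors N₀ (m ^ n)).subtype ∘ₗ kappaC N₀ (m ^ n)) (fun c => ?_) hx₀.2⟩
  · exact pushAlphaAt_kappaC h hp hpN (m ^ n) c
  · exact pushAlphaAt_pushWAt_kappaC h hp hpN D hQ hR hM (m ^ n) c

/-- **(G3) = P-NEW**: if the point `χ` of level `N = N₀ * p` does not occur at level `N₀`, the
explicit eigen-class `(O ⊗ κ_{mⁿ}) x₀` of every `χ`-eigenvector `x₀` is killed by `O ⊗ α_*` and
`O ⊗ β_*` (any exponent `m`, in particular `m = p`). -/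
theorem pnew_class (h : N = N₀ * p) (hp : p.Prime) (hpN : ¬ p ∣ N₀)
    (D : ALData) (hQ : D.Q = p) (hR : D.R = N₀) (hM : N = D.Q * D.R)
    (S : Finset ℕ) (hS : ∀ r : ℕ, r.Prime → r ∣ N → r ∈ S)
    (O : Type) [CommRing O] [IsDomain O]
    (χ : CuspForm.heckeAlgebra N 2 (↑S : Set ℕ) →+* O)
    (hχ : ¬ OccursAtLevel N₀ N S χ)
    (x₀ : O ⊗[ℤ] HomPar N)
    (hx : ∀ (ℓ : ℕ) (hℓ : ℓ.Prime) (hℓM : ¬ ℓ ∣ N) (hℓS : ℓ ∉ (↑S : Set ℕ)),
      (heckeHom N ⟨ℓ, hℓ⟩).baseChange O x₀ = χ (CuspForm.heckeAlgebra.T hℓ hℓM hℓS) • x₀)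
    (m n : ℕ) :
    ((pnewAlpha h).toIntLinearMap ∘ₗ (Jtors N (m ^ n)).subtype).baseChange O
        (newClass N m O x₀ n) = 0 ∧
      ((pnewBeta h D hM).toIntLinearMap ∘ₗ (Jtors N (m ^ n)).subtype).baseChange O
        (newClass N m O x₀ n) = 0 :=
  pnew_class_of h hp hpN D hQ hR hM (pnew_vector_cast h hp hpN S hS O χ hχ x₀ hx) m n

end Deg

/-! ### the target `NewEigenclassAt` -/

/-- **P-NEW = (G3)**, in the shape consumed by `S33/NewTateJ.lean`: every point `χ` of the Hecke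
algebra of level `M` which does not occur at level `M / p` (`p = i.1 ‖ M`) has a nonzero compatible
eigen-class killed by `𝒪' ⊗ newUAt i`. -/
theorem newEigenclassAt (M : ℕ) [NeZero M] (S : Finset ℕ)
    (hMS : ∀ q : ℕ, q.Prime → q ∣ M → q ∈ S) (i : Fermat.Agent.S35.NewIdx M 0) :
    NewEigenclassAt M S i := by
  haveI := i.neZero_N
  haveI := i.neZero_q
  intro 𝒪' _ _ _ _ _ _ hp𝒪' χ hχ
  have hMS' : ∀ q : ℕ, q.Prime → q ∣ M → q ∈ (↑S : Set ℕ) := fun q hq hqM =>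
    Finset.mem_coe.mpr (hMS q hq hqM)
  obtain ⟨x₀, hx₀, hx⟩ := Fermat.Agent.F3EP.exists_eigenvector_homPar' hMS' χ
  have hpu : ¬ IsUnit ((i.1 : ℕ) : 𝒪') := fun hu =>
    (IsLocalRing.mem_maximalIdeal _).mp hp𝒪' hu
  have hcor := pnew_vector_cast i.level_eq i.prime i.not_dvd_N S hMS 𝒪' χ hχ x₀ hx
  refine ⟨fun n => newClass M i.1 𝒪' x₀ n, newClass_ne_zero i.prime hpu hx₀,
    fun n => newClass_compat i.prime x₀ n,
    fun n ℓ hℓ hℓN hℓS => newClass_eig ⟨ℓ, hℓ⟩ hℓN (hx ℓ hℓ hℓN hℓS) n, fun n => ?_⟩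
  refine newClass_ker (newUAt i) (LinearMap.prod i.corA i.corB) n
    (LinearMap.prodMap ((Jtors (M / i.1) (i.1 ^ n)).subtype ∘ₗ kappaC (M / i.1) (i.1 ^ n))
      ((Jtors (M / i.1) (i.1 ^ n)).subtype ∘ₗ kappaC (M / i.1) (i.1 ^ n))) ?_ ?_
  · intro c
    rw [newUAt_apply, i.degA_kappaC, i.degB_kappaC]
    rfl
  · exact baseChange_prod_eq_zero _ _ x₀ hcor.1 hcor.2

end Fermat.Agent.S33
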