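import Fermat.Agent.S33.NewFinal
import Fermat.Agent.S33.PNew
import Fermat.Agent.Lib.BadRed.Bridge.AuxLevel

/-!
# S33 from the split classes at the Atkin–Lehner data with auxiliary level (owner: helper11)

`PBRTarget` (the output of P-BR, helper46): for every odd prime `p`, every `N₀` prime to `p` and
every Atkin–Lehner datum `D` with `D.Q = p`, `D.R = N₀` and `AuxOK D`, and every place `A ∣ p`,
a subgroup `Sp ≤ J₀(N₀ p)` with helper94's `SplitG1`, `SplitG2`.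

* `splitG_of_pbrTarget` : the same without `AuxOK` (for `p = 3`, `2 ∤ N₀` pull back from the level
  `2 N₀ p`: helper94's `split_pull_two`);
* `s33_of_pbrTarget` : the frozen S33 (same binders) from `PBRTarget`
  (new eigen-classes: helper69's `newEigenclassAt`; old part: helper62's `oldOrdinaryU`).
-/

set_option autoImplicit false
set_option linter.unusedSectionVars false
set_option linter.style.haveILetI false

noncomputable section

namespace Fermat.Agent.S33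

open ModularCurve AlgebraicCurve IsLocalRing Fermat.Agent.BadRed Fermat.Agent.BadRed.PullAux
  Fermat.Agent.S35
open Fermat.Agent.AtkinLehner (ALData)

local notation "Qb" => (AlgebraicClosure ℚ)

/-- **The target of P-BR.** -/
def PBRTarget : Prop :=
  ∀ (p N₀ : ℕ) [NeZero N₀] [NeZero p] (D : ALData) (hM : N₀ * p = D.Q * D.R),
    p.Prime → p ≠ 2 → ¬ p ∣ N₀ → D.Q = p → D.R = N₀ → AuxLevel.AuxOK D →
    ∀ A : ValuationSubring Qb, A.LiesOverPrime p →
      ∃ Sp : AddSubgroup (JZero (N₀ * p)),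
        SplitG1 p N₀ D hM A Sp ∧ SplitG2 p (N₀ * p) A Sp

/-- The split classes at all data, from the data with auxiliary level. -/
theorem splitG_of_pbrTarget (h : PBRTarget)
    (p N₀ : ℕ) [NeZero N₀] [NeZero p] (D : ALData) (hM : N₀ * p = D.Q * D.R)
    (hp : p.Prime) (hp2 : p ≠ 2) (hpN₀ : ¬ p ∣ N₀) (hQ : D.Q = p) (hR : D.R = N₀)
    (A : ValuationSubring Qb) (hA : A.LiesOverPrime p) :
    ∃ Sp : AddSubgroup (JZero (N₀ * p)),
      SplitG1 p N₀ D hM A Sp ∧ SplitG2 p (N₀ * p) A Sp := by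
  by_cases haux : AuxLevel.AuxOK D
  · exact h p N₀ D hM hp hp2 hpN₀ hQ hR haux A hA
  · -- `p = 3` and `2 ∤ N₀`
    have h3 : p = 3 ∧ ¬ 2 ∣ N₀ := by
      by_contra hcon
      apply haux
      refine ⟨fun hQ2 => absurd (hQ ▸ hQ2) hp2, fun hQ3 => ?_⟩
      by_contra h2
      exact hcon ⟨hQ ▸ hQ3, hR ▸ h2⟩
    obtain ⟨hp3, h2N⟩ := h3
    have hN₀ : 0 < N₀ := Nat.pos_of_ne_zero (NeZero.ne N₀)
    haveI : NeZero (N₀ * 2) := ⟨by positivity⟩
    have hpN₀2 : ¬ p ∣ N₀ * 2 := by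
      intro hd
      rcases (Nat.Prime.dvd_mul hp).1 hd with h1 | h1
      · exact hpN₀ h1
      · rw [hp3] at h1
        exact absurd h1 (by norm_num)
    have hp2' : ¬ p ∣ 2 := by
      rw [hp3]
      norm_num
    obtain ⟨D', hQ', hR'⟩ := ALData.exists_of_coprime hp.pos (show 0 < N₀ * 2 by positivity)
      ((Nat.Prime.coprime_iff_not_dvd hp).2 hpN₀2)
    have hM' : N₀ * 2 * p = D'.Q * D'.R := by
      rw [hQ', hR']
      ring
    have haux' : AuxLevel.AuxOK D' := by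
      refine ⟨fun hQ2 => absurd (hQ' ▸ hQ2) hp2, fun _ => ?_⟩
      rw [hR']
      exact dvd_mul_left 2 N₀
    obtain ⟨Sp', hG1, hG2⟩ := h p (N₀ * 2) D' hM' hp hp2 hpN₀2 hQ' hR' haux' A hA
    exact split_pull_two hp hpN₀ hp2' D D' hM hM' (by rw [hQ', hQ]) (by rw [hR', hR]) A Sp'
      hG1 hG2

variable {p : ℕ} {N : ℕ} [NeZero N] {S : Finset ℕ}
  {𝒪 : Type} [CommRing 𝒪] [IsDomain 𝒪] [IsDiscreteValuationRing 𝒪]
  [IsAdicComplete (IsLocalRing.maximalIdeal 𝒪) 𝒪]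
  {θ : CuspForm.heckeAlgebra N 2 (↑S : Set ℕ) →+* IsLocalRing.ResidueField 𝒪}
  {T : Type} [CommRing T] [IsLocalRing T] [IsNoetherianRing T]
  [IsAdicComplete (IsLocalRing.maximalIdeal T) T] [Algebra 𝒪 T] [IsLocalHom (algebraMap 𝒪 T)]
  [Module.Finite 𝒪 T] [Module.Free 𝒪 T]

/-- **S33 from the target of P-BR** (binders of the frozen statement). -/
theorem s33_of_pbrTarget (h : PBRTarget)
    [Finite (IsLocalRing.ResidueField 𝒪)] [CharZero 𝒪]
    (hp : p.Prime) (hp2 : p ≠ 2) (hp𝒪 : (p : 𝒪) ∈ IsLocalRing.maximalIdeal 𝒪)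
    (hN : p ∣ N ∧ ¬ p ^ 2 ∣ N)
    (hNS : ∀ q : ℕ, q.Prime → q ∣ N → q ∈ S)
    (H : CuspForm.HeckeGaloisRepDatum N (↑S : Set ℕ) 𝒪 θ T)
    (hres : (GaloisRepAdic.ofResidualGaloisRep H.ρ.residual).IsOrdinaryAt p) :
    H.ρ.IsOrdinaryAt p :=
  s33_of_splitG (fun M _ S i _ hMS => newEigenclassAt M S hMS i)
    (fun p N₀ _ _ D hM hp hp2 hpN₀ hQ hR A hA =>
      splitG_of_pbrTarget h p N₀ D hM hp hp2 hpN₀ hQ hR A hA)
    hp hp2 hp𝒪 hN hNS H hres

end Fermat.Agent.S33
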