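import Mathlib
import Fermat.Agent.S33.Final
import Fermat.Agent.Lib.BadRed.PNew.Bridge
import Fermat.Agent.Lib.BadRed.PNew.WMain

set_option autoImplicit false
set_option linter.unusedVariables false
set_option linter.unusedSectionVars false
set_option linter.style.haveILetI false
set_option synthInstance.maxHeartbeats 400000
set_option maxHeartbeats 1000000

/-!
# S33: the target of P-BR from the parts (helper11)

`PBRTarget` (`S33/Final.lean`) from helper46's `pbr_of_parts` (bridge), helper66's `w1_split`
((W1)) and the one remaining input, the modular instance of (COV) (`CovTarget`).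
-/

noncomputable section

namespace Fermat.Agent.S33

open ModularCurve AlgebraicCurve Fermat.Agent.F3 Fermat.Agent.AtkinLehner Fermat.Agent.BadRed

local notation "Qb" => (AlgebraicClosure ℚ)

/-- **The modular instance of (COV)**, at all data with auxiliary level. -/
def CovTarget : Prop :=
  ∀ (p N₀ : ℕ) [NeZero N₀] [NeZero p] (D : ALData) (hM : N₀ * p = D.Q * D.R),
    p.Prime → p ≠ 2 → ¬ p ∣ N₀ → D.Q = p → D.R = N₀ → AuxLevel.AuxOK D →
    ∀ A : ValuationSubring Qb, A.LiesOverPrime p →
      ∀ ζ : Qb, IsPrimitiveRoot ζ p → PNew.CovInstStatement D A p (ζ - 1)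

/-- **P-BR** from the modular instance of (COV). -/
theorem pbrTarget_of_covTarget (h : CovTarget) : PBRTarget := by
  intro p N₀ _ _ D hM hp hp2 hpN hQ hR haux A hA
  refine PNew.pbr_of_parts (D := D) (hM := hM) (A := A) hp hQ hA ?_ ?_
  · intro g hg _ hnew hred _
    exact PNew.w1_split D hM hp hpN hQ hR A hA hg hnew hred
  · intro ζ hζ
    exact h p N₀ D hM hp hp2 hpN hQ hR haux A hA ζ hζ

end Fermat.Agent.S33
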