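import Mathlib
import Fermat.Agent.S33.PBR
import Fermat.Agent.Lib.BadRed.PNew.CycloUnif
import Fermat.Agent.Lib.BadRed.Nodal.P.CovMain
import Fermat.Agent.Lib.BadRed.Final.FrobKey
import Fermat.Agent.Lib.BadRed.Final.Main

set_option autoImplicit false
set_option linter.unusedVariables false
set_option linter.unusedSectionVars false
set_option linter.style.haveILetI false
set_option synthInstance.maxHeartbeats 400000
set_option maxHeartbeats 1000000

/-!
# S33: the modular instance of (COV) (helper11)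

`covTarget : CovTarget`: the modular nodal package `fwModularNodal` of cluster T with the abstract
`PCov.pCovMain_of_nonempty` and the cyclotomic uniformiser `ζ - 1` (`PNew.isCycloUnif_sub_one`).
-/

noncomputable section

namespace Fermat.Agent.S33

open IntermediateField ModularCurve AlgebraicCurve Fermat.Agent.F3 Fermat.Agent.F3G
  Fermat.Agent.GaussInt Fermat.Agent.AtkinLehner Fermat.Agent.Deuring Fermat.Agent.RR
  Fermat.Agent.BadRed

local notation "Qb" => (AlgebraicClosure ℚ)

attribute [local instance] fwFintype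

/-- the modular instance of (COV) at the prime `D.Q`. -/
theorem covInst_of_auxOK (D : ALData) (hQ : D.Q.Prime) (haux : AuxLevel.AuxOK D)
    (A : ValuationSubring Qb) (hA : A.LiesOverPrime D.Q) (ζ : Qb)
    (hζ : IsPrimitiveRoot ζ D.Q) : PNew.CovInstStatement D A D.Q (ζ - 1) := by
  haveI : NeZero D.Q := ⟨hQ.ne_zero⟩
  haveI : NeZero D.R := ⟨D.hR.ne'⟩
  haveI : NeZero (D.Q * D.R) := ⟨mul_ne_zero hQ.ne_zero D.hR.ne'⟩
  haveI : Fact D.Q.Prime := ⟨hQ⟩
  haveI : CharP (IsLocalRing.ResidueField A) D.Q :=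
    Fermat.Agent.FrobTrace.charP_residueField A hA
  haveI : IsAlgClosed (IsLocalRing.ResidueField A) := Fermat.Agent.GaussInt.isAlgClosed_residue A
  haveI : PerfectRing (IsLocalRing.ResidueField A) D.Q := inferInstance
  haveI := infinite_residue A
  have hqR := ALData_not_dvd D hQ
  have hS := isGaussSetup_gaussSetupBad D hQ hqR A hA
  have hL := hasLattice_gaussSetupBad D hQ hqR A hA
  have haux' : AuxLevelOK D.Q D.R := haux
  have hsep := fw_sep D A hQ hA hqR _ hS haux'
  haveI := fw_nonempty D A hQ hA _ hS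
  refine ⟨fwModularNodal D A hQ hA hqR _ hS hL haux' hsep, ?_⟩
  set sd := fwSeed D A hQ hA hqR _ hS hL haux' hsep with hsd
  have hNS : Nonempty (NodalNS sd.nodalSetup (genusFF Qb (modularFunctionFieldBar (D.Q * D.R)))) :=
    sd.nodalSetup.nonempty_nodalNS_of_lift sd.nodalSetup_genusRel sd.D₀ sd.R₁ sd.R₂
      sd.R₁_pos sd.R₂_pos sd.R₁_node sd.R₂_node sd.nodalSetup_hasLift
  have hp0 : ((D.Q : ℕ) : Qb) ≠ 0 := by exact_mod_cast hQ.ne_zero
  have hpA : (((D.Q : ℕ) : Qb))⁻¹ ∉ sd.nodalSetup.S₁.A := by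
    have hAeq : sd.nodalSetup.S₁.A = A := hS.A_eq
    rw [hAeq]
    intro h
    have h1 : ((D.Q : ℕ) : Qb) ∈ A.nonunits := hA
    rcases (A.mem_nonunits_iff_or).mp h1 with h2 | h2
    · exact hp0 h2
    · exact h2 h
  have hK : ∀ c : Qb, ∃ d : Qb, d ^ D.Q = c := fun c =>
    IsAlgClosed.exists_pow_nat_eq c hQ.pos
  exact PCov.pCovMain_of_nonempty sd.nodalSetup hNS D.Q (ζ - 1)
    (PNew.isCycloUnif_sub_one sd.nodalSetup hQ hζ hp0 hpA) hK sd.nodalSetup_genusRel

/-- **the modular instance of (COV)**, in the shape of `CovTarget`. -/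
theorem covTarget_h11 : CovTarget := by
  intro p N₀ _ _ D hM hp hp2 hpN hQ hR haux A hA ζ hζ
  have hQp : D.Q.Prime := hQ ▸ hp
  have hAQ : A.LiesOverPrime D.Q := hQ ▸ hA
  have hζQ : IsPrimitiveRoot ζ D.Q := hQ ▸ hζ
  have := covInst_of_auxOK D hQp haux A hAQ ζ hζQ
  rw [hQ] at this
  exact this

end Fermat.Agent.S33
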