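import Fermat.Agent.S33.PBR
import Fermat.Agent.Lib.BadRed.PNew.CovInst

set_option autoImplicit false
set_option linter.unusedVariables false
set_option linter.unusedSectionVars false
set_option linter.style.haveILetI false
set_option synthInstance.maxHeartbeats 400000
set_option maxHeartbeats 1000000

/-!
# S33: the modular instance of (COV), `CovTarget`, and `PBRTarget` (helper12)

`covTarget : CovTarget` from `BadRed.covInst_all` (`Lib/BadRed/PNew/CovInst.lean`), and
`pbrTarget : PBRTarget` by helper11's `pbrTarget_of_covTarget`.
-/

noncomputable section

namespace Fermat.Agent.S33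

open ModularCurve AlgebraicCurve Fermat.Agent.F3 Fermat.Agent.AtkinLehner Fermat.Agent.BadRed

local notation "Qb" => (AlgebraicClosure ℚ)

/-- **the modular instance of (COV)**. -/
theorem covTarget : CovTarget := by
  intro p N₀ _ _ D hM hp hp2 hpN hQ hR haux A hA ζ hζ
  exact covInst_all p D hp hQ haux A hA ζ hζ

/-- **P-BR**. -/
theorem pbrTarget : PBRTarget := pbrTarget_of_covTarget covTarget

end Fermat.Agent.S33
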