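import Mathlib
import Fermat.Agent.S33.Glue

/-!
# S33, the glue, part 4: ordinarity from an inertia-invariant functional (owner: helper11)

Let `ρ : GaloisRepAdic A` with `A` a local domain.  If for every place `P ∣ p` there is a nonzero
linear form `λ : V → A` invariant under the inertia group of `P`, then `ρ` is weakly ordinary at
`p` (`wo_of_invariant_functional`); hence ordinary at `p` as soon as the determinant is residually
nontrivial on inertia (`isOrdinaryAt_of_invariant_functional`).

This is the shape in which the local suppliers deliver ordinarity: FFL-ORD ("flat + residually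
ordinary ⇒ nonzero inertia-invariant functional") and the slope map of the toric part.
-/

set_option autoImplicit false

namespace Fermat.Agent.S33

open IsLocalRing

local notation "GQ" => (AlgebraicClosure ℚ ≃ₐ[ℚ] AlgebraicClosure ℚ)
local notation "Qb" => (AlgebraicClosure ℚ)

section Algebra

variable {R : Type} [CommRing R] [IsDomain R] {V : Type} [AddCommGroup V] [Module R V]

/-- An endomorphism `f` of a free module of rank two over a domain which preserves a nonzero
linear form `l` acts on the kernel of `l` by multiplication by `det f`. -/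
theorem apply_eq_det_smul_of_form (b : Module.Basis (Fin 2) R V) (l : V →ₗ[R] R) (hl : l ≠ 0)
    (f : Module.End R V) (hf : ∀ v, l (f v) = l v) (w : V) (hw : l w = 0) :
    f w = LinearMap.det f • w := by
  classical
  -- coordinates
  set l0 := l (b 0) with hl0
  set l1 := l (b 1) with hl1
  set m00 := b.repr (f (b 0)) 0 with hm00
  set m10 := b.repr (f (b 0)) 1 with hm10
  set m01 := b.repr (f (b 1)) 0 with hm01
  set m11 := b.repr (f (b 1)) 1 with hm11
  set w0 := b.repr w 0 with hw0
  set w1 := b.repr w 1 with hw1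
  have hfb0 : f (b 0) = m00 • b 0 + m10 • b 1 := eq_repr_smul_add' b _
  have hfb1 : f (b 1) = m01 • b 0 + m11 • b 1 := eq_repr_smul_add' b _
  have hwe : w = w0 • b 0 + w1 • b 1 := eq_repr_smul_add' b _
  have e1 : l0 * m00 + l1 * m10 = l0 := by
    have := hf (b 0)
    rw [hfb0, map_add, map_smul, map_smul, smul_eq_mul, smul_eq_mul] at this
    linear_combination this
  have e2 : l0 * m01 + l1 * m11 = l1 := by
    have := hf (b 1)
    rw [hfb1, map_add, map_smul, map_smul, smul_eq_mul, smul_eq_mul] at this
    linear_combination this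
  have e3 : l0 * w0 + l1 * w1 = 0 := by
    have := hw
    rw [hwe, map_add, map_smul, map_smul, smul_eq_mul, smul_eq_mul] at this
    linear_combination this
  have hdet : LinearMap.det f = m00 * m11 - m01 * m10 := by
    rw [← LinearMap.det_toMatrix b, Matrix.det_fin_two]
    simp only [LinearMap.toMatrix_apply]
    rfl
  -- the two coordinates of the claim
  have hfw : f w = (m00 * w0 + m01 * w1) • b 0 + (m10 * w0 + m11 * w1) • b 1 := by
    conv_lhs => rw [hwe]
    rw [map_add, map_smul, map_smul, hfb0, hfb1]
    module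
  have hdw : LinearMap.det f • w =
      ((m00 * m11 - m01 * m10) * w0) • b 0 + ((m00 * m11 - m01 * m10) * w1) • b 1 := by
    conv_lhs => rw [hwe, hdet]
    module
  -- `l ≠ 0`
  have hl' : l0 ≠ 0 ∨ l1 ≠ 0 := by
    by_contra hcon
    push Not at hcon
    apply hl
    apply b.ext
    intro i
    fin_cases i
    · simpa using hcon.1
    · simpa using hcon.2
  have g0 : m00 * w0 + m01 * w1 = (m00 * m11 - m01 * m10) * w0 := by
    rcases hl' with h | h
    · apply mul_left_cancel₀ h
      linear_combination (m00 - (m00 * m11 - m01 * m10)) * e3 + w1 * e2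
        + w1 * (-(1 - m00) * e2 - m01 * e1)
    · apply mul_left_cancel₀ h
      linear_combination m01 * e3 - w0 * e2 + w0 * m01 * e1 + w0 * (1 - m00) * e2
  have g1 : m10 * w0 + m11 * w1 = (m00 * m11 - m01 * m10) * w1 := by
    rcases hl' with h | h
    · apply mul_left_cancel₀ h
      linear_combination m10 * e3 - w1 * e1 + w1 * m10 * e2 + w1 * (1 - m11) * e1
    · apply mul_left_cancel₀ h
      linear_combination (m11 - (m00 * m11 - m01 * m10)) * e3 + w0 * e1
        + w0 * (-(1 - m11) * e1 - m10 * e2)
  rw [hfw, hdw, g0, g1]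

end Algebra

variable {A : Type} [CommRing A] [IsLocalRing A] [IsDomain A]

/-- **Weak ordinarity from inertia-invariant functionals.** -/
theorem wo_of_invariant_functional (ρ : GaloisRepAdic A) (p : ℕ)
    (h : ∀ P : ValuationSubring Qb, P.LiesOverPrime p →
      ∃ l : ρ.V →ₗ[A] A, l ≠ 0 ∧ ∀ σ ∈ P.inertiaSubgroupIn ℚ, ∀ v : ρ.V, l (ρ.ρ σ v) = l v) :
    WO ρ p := by
  intro P hP σ hσ τ hτ
  obtain ⟨l, hl, hinv⟩ := h P hP
  set b : Module.Basis (Fin 2) A ρ.V := Module.finBasisOfFinrankEq A ρ.V ρ.finrank_eq
  refine LinearMap.ext fun v => ?_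
  have hw : l (ρ.ρ τ v - v) = 0 := by rw [map_sub, hinv τ hτ v, sub_self]
  have key := apply_eq_det_smul_of_form b l hl (ρ.ρ σ) (hinv σ hσ) _ hw
  simp only [wo, Module.End.mul_apply, LinearMap.sub_apply, Module.End.one_apply,
    LinearMap.smul_apply, LinearMap.zero_apply]
  rw [key, sub_self]

/-- **Ordinarity from inertia-invariant functionals.** -/
theorem isOrdinaryAt_of_invariant_functional (ρ : GaloisRepAdic A) (p : ℕ) (hd : IDN ρ p)
    (h : ∀ P : ValuationSubring Qb, P.LiesOverPrime p →
      ∃ l : ρ.V →ₗ[A] A, l ≠ 0 ∧ ∀ σ ∈ P.inertiaSubgroupIn ℚ, ∀ v : ρ.V, l (ρ.ρ σ v) = l v) :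
    ρ.IsOrdinaryAt p :=
  isOrdinaryAt_of_wo (wo_of_invariant_functional ρ p h) hd

end Fermat.Agent.S33
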