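import Mathlib
import Fermat.Agent.S33.Functional
import Fermat.Agent.Lib.FFL.Main
import Fermat.Agent.Lib.FFL.Ord

/-!
# S33, old part: flat + residually ordinary ⇒ ordinary (helper57)

`A` a discrete valuation ring with finite residue field, `p` odd, `ρ : GaloisRepAdic A` flat at
`p` with determinant residually nontrivial on inertia (`IDN`).  If the residual representation is
ordinary at `p`, then `ρ` is ordinary at `p`.

Proof: residual ordinarity gives `U + 𝔪 V ≠ V` for the inertia span `U` (`FFL.inertiaSpan`);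
FFL-ORD (`FFL.exists_inertia_invariant_functional`, with `FFL.exactProp`) gives a nonzero
inertia-invariant functional; `S33.isOrdinaryAt_of_invariant_functional` concludes.
-/

set_option autoImplicit false
set_option linter.style.haveILetI false
set_option linter.unusedSectionVars false

namespace Fermat.Agent.S33

open IsLocalRing TensorProduct Fermat.Agent.FFL

local notation "GQ" => (AlgebraicClosure ℚ ≃ₐ[ℚ] AlgebraicClosure ℚ)
local notation "Qb" => (AlgebraicClosure ℚ)

variable {A : Type} [CommRing A] [IsDomain A] [IsDiscreteValuationRing A]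

/-- `1 ⊗ m = 0` in the residual representation for `m ∈ 𝔪 V`. -/
theorem one_tmul_eq_zero_of_mem (ρ : GaloisRepAdic A) {m : ρ.V}
    (hm : m ∈ maximalIdeal A • (⊤ : Submodule A ρ.V)) :
    (1 : ResidueField A) ⊗ₜ[A] m = 0 := by
  refine Submodule.smul_induction_on
    (p := fun x => (1 : ResidueField A) ⊗ₜ[A] x = (0 : ResidueField A ⊗[A] ρ.V)) hm ?_ ?_
  · intro a ha w _
    rw [TensorProduct.tmul_smul, TensorProduct.smul_tmul', Algebra.smul_def,
      IsLocalRing.ResidueField.algebraMap_eq, (IsLocalRing.residue_eq_zero_iff a).mpr ha,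
      zero_mul, TensorProduct.zero_tmul]
  · intro x y hx hy
    rw [TensorProduct.tmul_add, hx, hy, add_zero]

/-- Residual ordinarity at a place `P` implies that the inertia span is not everything modulo the
maximal ideal. -/
theorem inertiaSpan_sup_ne_top (ρ : GaloisRepAdic A) (P : ValuationSubring Qb)
    (hres : ∃ L : Submodule (ResidueField A) (ResidueField A ⊗[A] ρ.V),
      (∃ b : Module.Basis (Fin 2) (ResidueField A) (ResidueField A ⊗[A] ρ.V),
        L = Submodule.span (ResidueField A) {b 0}) ∧
      ∀ σ ∈ P.inertiaSubgroupIn ℚ, ∀ v : ResidueField A ⊗[A] ρ.V,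
        (ρ.ρ σ).baseChange (ResidueField A) v - v ∈ L) :
    inertiaSpan P ρ ⊔ maximalIdeal A • (⊤ : Submodule A ρ.V) ≠ ⊤ := by
  obtain ⟨L, ⟨b, hb⟩, hI⟩ := hres
  intro htop
  -- the image of `U` lies in `L`
  have hU : ∀ u ∈ inertiaSpan P ρ, (1 : ResidueField A) ⊗ₜ[A] u ∈ L := by
    intro u hu
    unfold inertiaSpan at hu
    induction hu using Submodule.span_induction with
    | mem x hx =>
      obtain ⟨σ, hσ, w, rfl⟩ := hx
      have := hI σ hσ ((1 : ResidueField A) ⊗ₜ[A] w)
      rw [LinearMap.baseChange_tmul, ← TensorProduct.tmul_sub] at this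
      exact this
    | zero =>
      rw [TensorProduct.tmul_zero]
      exact L.zero_mem
    | add x y _ _ hx hy =>
      rw [TensorProduct.tmul_add]
      exact L.add_mem hx hy
    | smul a x _ hx =>
      rw [TensorProduct.tmul_smul, TensorProduct.smul_tmul', Algebra.smul_def, mul_one,
        ← mul_one (algebraMap A (ResidueField A) a), ← smul_eq_mul, ← TensorProduct.smul_tmul']
      exact L.smul_mem _ hx
  have hall : ∀ x : ResidueField A ⊗[A] ρ.V, x ∈ L := by
    intro x
    induction x using TensorProduct.induction_on with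
    | zero => exact L.zero_mem
    | tmul c v =>
      have hv : v ∈ inertiaSpan P ρ ⊔ maximalIdeal A • (⊤ : Submodule A ρ.V) := by
        rw [htop]; exact Submodule.mem_top
      obtain ⟨u, hu, m, hm, rfl⟩ := Submodule.mem_sup.1 hv
      have h1 : c ⊗ₜ[A] (u + m) = c • ((1 : ResidueField A) ⊗ₜ[A] u) := by
        rw [TensorProduct.tmul_add, TensorProduct.smul_tmul', smul_eq_mul, mul_one]
        have h2 : c ⊗ₜ[A] m = c • ((1 : ResidueField A) ⊗ₜ[A] m) := by
          rw [TensorProduct.smul_tmul', smul_eq_mul, mul_one]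
        rw [h2, one_tmul_eq_zero_of_mem ρ hm, smul_zero, add_zero]
      rw [h1]
      exact L.smul_mem _ (hU u hu)
    | add x y hx hy => exact L.add_mem hx hy
  -- contradiction: `b 1 ∉ span {b 0}`
  have h1 : b 1 ∈ Submodule.span (ResidueField A) {b 0} := hb ▸ hall (b 1)
  obtain ⟨c, hc⟩ := Submodule.mem_span_singleton.1 h1
  have h2 := congrArg (fun x => b.repr x 1) hc
  simp only [map_smul, Module.Basis.repr_self, Finsupp.smul_apply, smul_eq_mul] at h2
  rw [Finsupp.single_eq_of_ne (by decide), Finsupp.single_eq_same, mul_zero] at h2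
  exact zero_ne_one h2

/-- **Flat + residually ordinary ⇒ ordinary** (`p` odd, over a discrete valuation ring with
finite residue field). -/
theorem isOrdinaryAt_of_isFlatAt {p : ℕ} (hp : p.Prime) (hp2 : p ≠ 2)
    [Finite (ResidueField A)] (ρ : GaloisRepAdic A) (hfl : ρ.IsFlatAt p) (hd : IDN ρ p)
    (hres : (GaloisRepAdic.ofResidualGaloisRep ρ.residual).IsOrdinaryAt p) :
    ρ.IsOrdinaryAt p := by
  refine isOrdinaryAt_of_invariant_functional ρ p hd (fun P hP => ?_)
  refine exists_inertia_invariant_functional (exactProp hp hp2 P hP) ρ hfl ?_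
  obtain ⟨L, hb, -, hI⟩ := hres P hP
  exact inertiaSpan_sup_ne_top ρ P ⟨L, hb, hI⟩

end Fermat.Agent.S33
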