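import Mathlib
import Fermat.Agent.S33.OldNew

/-!
# S33: the assembly, universal form (owner: helper11)

`OrdinaryPointsU p N S` : EVERY representation `ρ₀` over a complete discrete valuation ring `𝒪'`
with the Frobenius characteristic polynomials of a point `χ : 𝕋 → 𝒪'` of the Hecke algebra of
level `N`, four of whose matrices form a basis of `M₂(𝒪')`, is ordinary at `p` if it is residually
ordinary at `p`.  (In `OrdinaryPoints` the supplier chooses the representation; here the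
representation is given, and the supplier may use `S32.exists_embedding_of_frobLattice` to find it
inside the Tate lattice.)

* `s33_of_ordinaryPointsU` : the frozen S33 (same binders) from `OrdinaryPointsU p N S`;
* `OldOrdinaryU`, `NewOrdinaryU`, `s33_of_old_new_U` : the two suppliers.
-/

set_option autoImplicit false
set_option linter.style.haveILetI false

namespace Fermat.Agent.S33

open Polynomial TensorProduct IsLocalRing Fermat.Agent.F3 Fermat.Agent.TraceRigidity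
  Fermat.Agent.S34

local notation "GQ'" => (AlgebraicClosure ℚ ≃ₐ[ℚ] AlgebraicClosure ℚ)

/-- The conclusion of `OrdinaryPointsU` at one point `χ`. -/
def OrdinaryPointUAt (p N : ℕ) [NeZero N] (S : Finset ℕ) (𝒪' : Type) [CommRing 𝒪']
    [IsLocalRing 𝒪'] (χ : CuspForm.heckeAlgebra N 2 (↑S : Set ℕ) →+* 𝒪') : Prop :=
  ∀ (ρ₀ : GaloisRepAdic 𝒪'),
    (∀ (ℓ : ℕ) (hℓ : ℓ.Prime) (hℓN : ¬ ℓ ∣ N) (hℓS : ℓ ∉ (↑S : Set ℕ)),
      ∀ A' : ValuationSubring (AlgebraicClosure ℚ), A'.LiesOverPrime ℓ →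
        ∀ σ : GQ', A'.IsFrobeniusAt σ ℓ →
          LinearMap.charpoly (ρ₀.ρ σ) =
            X ^ 2 - C (χ (CuspForm.heckeAlgebra.T hℓ hℓN hℓS)) * X + C ((ℓ : 𝒪'))) →
    ∀ (b : Module.Basis (Fin 2) 𝒪' ρ₀.V) (g : Fin 2 × Fin 2 → GQ'),
      IsUnit (coordMat (fun σ => LinearMap.toMatrix b b (ρ₀.ρ σ)) g).det →
      (GaloisRepAdic.ofResidualGaloisRep ρ₀.residual).IsOrdinaryAt p → ρ₀.IsOrdinaryAt p

/-- Every residually absolutely irreducible, residually ordinary representation with the Frobenius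
characteristic polynomials of a `p`-adic point of the Hecke algebra of level `N` is ordinary. -/
def OrdinaryPointsU (p N : ℕ) [NeZero N] (S : Finset ℕ) : Prop :=
  ∀ (𝒪' : Type) [CommRing 𝒪'] [IsDomain 𝒪'] [IsDiscreteValuationRing 𝒪']
    [IsAdicComplete (IsLocalRing.maximalIdeal 𝒪') 𝒪'] [Finite (IsLocalRing.ResidueField 𝒪')]
    [CharZero 𝒪'] (_hp𝒪' : (p : 𝒪') ∈ IsLocalRing.maximalIdeal 𝒪')
    (χ : CuspForm.heckeAlgebra N 2 (↑S : Set ℕ) →+* 𝒪'), OrdinaryPointUAt p N S 𝒪' χ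

variable {p : ℕ} {N : ℕ} [NeZero N] {S : Finset ℕ}

/-- The weak form of `OrdinaryPointsU`. -/
theorem wo_of_ordinaryPointsU (hU : OrdinaryPointsU p N S) (hp : p.Prime) (hp2 : p ≠ 2)
    (hNS : ∀ q : ℕ, q.Prime → q ∣ N → q ∈ S)
    (𝒪' : Type) [CommRing 𝒪'] [IsDomain 𝒪'] [IsDiscreteValuationRing 𝒪']
    [IsAdicComplete (IsLocalRing.maximalIdeal 𝒪') 𝒪'] [Finite (IsLocalRing.ResidueField 𝒪')]
    [CharZero 𝒪'] (hp𝒪' : (p : 𝒪') ∈ IsLocalRing.maximalIdeal 𝒪')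
    (χ : CuspForm.heckeAlgebra N 2 (↑S : Set ℕ) →+* 𝒪') (ρ₀ : GaloisRepAdic 𝒪')
    (hρ₀ : ∀ (ℓ : ℕ) (hℓ : ℓ.Prime) (hℓN : ¬ ℓ ∣ N) (hℓS : ℓ ∉ (↑S : Set ℕ)),
      ∀ A' : ValuationSubring (AlgebraicClosure ℚ), A'.LiesOverPrime ℓ →
        ∀ σ : GQ', A'.IsFrobeniusAt σ ℓ →
          LinearMap.charpoly (ρ₀.ρ σ) =
            X ^ 2 - C (χ (CuspForm.heckeAlgebra.T hℓ hℓN hℓS)) * X + C ((ℓ : 𝒪')))
    (b : Module.Basis (Fin 2) 𝒪' ρ₀.V) (g : Fin 2 × Fin 2 → GQ')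
    (hg : IsUnit (coordMat (fun σ => LinearMap.toMatrix b b (ρ₀.ρ σ)) g).det)
    (hres : WOres ρ₀ p) : WO ρ₀ p := by
  have hidn : IDN ρ₀ p :=
    idn_of_det_frob ρ₀ hp hp2 hp𝒪' S (det_frob_of_charpoly χ ρ₀ hNS hρ₀)
  exact wo_of_isOrdinaryAt
    (hU 𝒪' hp𝒪' χ ρ₀ hρ₀ b g hg ((residual_isOrdinaryAt_iff_wores ρ₀ p hidn).2 hres))

variable {𝒪 : Type} [CommRing 𝒪] [IsDomain 𝒪] [IsDiscreteValuationRing 𝒪]
  [IsAdicComplete (IsLocalRing.maximalIdeal 𝒪) 𝒪]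
  {θ : CuspForm.heckeAlgebra N 2 (↑S : Set ℕ) →+* IsLocalRing.ResidueField 𝒪}
  {T : Type} [CommRing T] [IsLocalRing T] [IsNoetherianRing T]
  [IsAdicComplete (IsLocalRing.maximalIdeal T) T] [Algebra 𝒪 T] [IsLocalHom (algebraMap 𝒪 T)]
  [Module.Finite 𝒪 T] [Module.Free 𝒪 T]

/-- **S33 from `OrdinaryPointsU`**, given the separation of `T` by local points. -/
theorem isOrdinaryAt_of_ordinaryPointsU (hU : OrdinaryPointsU p N S)
    (hp : p.Prime) (hp2 : p ≠ 2) (hp𝒪 : (p : 𝒪) ∈ IsLocalRing.maximalIdeal 𝒪)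
    (hNS : ∀ q : ℕ, q.Prime → q ∣ N → q ∈ S)
    (H : CuspForm.HeckeGaloisRepDatum N (↑S : Set ℕ) 𝒪 θ T)
    (hpts : HasLocalDVRPoints T)
    (hres : (GaloisRepAdic.ofResidualGaloisRep H.ρ.residual).IsOrdinaryAt p) :
    H.ρ.IsOrdinaryAt p := by
  classical
  obtain ⟨ι, Q, hQ⟩ := hpts
  have hpT : (p : T) ∈ IsLocalRing.maximalIdeal T := by
    have h1 : (p : T) = algebraMap 𝒪 T (p : 𝒪) := by simp
    rw [h1, mem_maximalIdeal, mem_nonunits_iff]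
    intro hu
    exact (mem_maximalIdeal _).1 hp𝒪 (isUnit_of_map_unit (algebraMap 𝒪 T) _ hu)
  have hidn : IDN H.ρ p :=
    idn_of_det_frob H.ρ hp hp2 hpT S (det_frob_of_charpoly H.π H.ρ hNS H.charpoly_frob)
  have hwores : WOres H.ρ p := (residual_isOrdinaryAt_iff_wores H.ρ p hidn).1 hres
  set b : Module.Basis (Fin 2) T H.ρ.V := Module.finBasisOfFinrankEq T H.ρ.V H.ρ.finrank_eq
    with hb
  obtain ⟨g, hg⟩ := exists_isUnit_det_coordMat H.ρ H.residual_absIrr b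
  refine isOrdinaryAt_of_wo ?_ hidn
  refine wo_of_baseChangeAlong_family (fun i => (Q i).ψ) (fun i => (Q i).isLocalHom) hQ
    fun i => ?_
  -- the point `i`
  have hloc := (Q i).isLocalHom
  letI : Algebra T (Q i).O := ((Q i).ψ).toAlgebra
  set ρi : GaloisRepAdic (Q i).O := H.ρ.baseChangeAlong (Q i).ψ hloc with hρi
  set bi : Module.Basis (Fin 2) (Q i).O ρi.V := Algebra.TensorProduct.basis (Q i).O b with hbi
  have hmat : ∀ τ, LinearMap.toMatrix bi bi (ρi.ρ τ) =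
      (LinearMap.toMatrix b b (H.ρ.ρ τ)).map (Q i).ψ := fun τ =>
    LinearMap.toMatrix_baseChange (Q i).O (H.ρ.ρ τ) b b
  have hgi : IsUnit (coordMat (fun τ => LinearMap.toMatrix bi bi (ρi.ρ τ)) g).det := by
    have h1 : coordMat (fun τ => LinearMap.toMatrix bi bi (ρi.ρ τ)) g =
        ((Q i).ψ).mapMatrix (coordMat (fun τ => LinearMap.toMatrix b b (H.ρ.ρ τ)) g) := by
      ext ab j
      simp only [coordMat, Matrix.of_apply, RingHom.mapMatrix_apply, Matrix.map_apply]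
      rw [hmat]
      rfl
    rw [h1, ← RingHom.map_det]
    exact hg.map (Q i).ψ
  have hpi : (p : (Q i).O) ∈ IsLocalRing.maximalIdeal (Q i).O := by
    have h1 : (p : (Q i).O) = (Q i).ψ (p : T) := by simp
    rw [h1, mem_maximalIdeal, mem_nonunits_iff]
    intro hu
    exact (mem_maximalIdeal _).1 hpT (isUnit_of_map_unit (Q i).ψ _ hu)
  have hfrobi : ∀ (ℓ : ℕ) (hℓ : ℓ.Prime) (hℓN : ¬ ℓ ∣ N) (hℓS : ℓ ∉ (↑S : Set ℕ)),
      ∀ A' : ValuationSubring (AlgebraicClosure ℚ), A'.LiesOverPrime ℓ →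
        ∀ σ : GQ', A'.IsFrobeniusAt σ ℓ →
          LinearMap.charpoly (ρi.ρ σ) =
            X ^ 2 - C (((Q i).ψ.comp H.π) (CuspForm.heckeAlgebra.T hℓ hℓN hℓS)) * X
              + C ((ℓ : (Q i).O)) := by
    intro ℓ hℓ hℓN hℓS A' hA' σ hσ
    have h1 : LinearMap.charpoly (ρi.ρ σ) = (LinearMap.charpoly (H.ρ.ρ σ)).map (Q i).ψ :=
      LinearMap.charpoly_baseChange (H.ρ.ρ σ) (Q i).O
    rw [h1, H.charpoly_frob ℓ hℓ hℓN hℓS A' hA' σ hσ]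
    simp [Polynomial.map_sub, Polynomial.map_add, Polynomial.map_mul, Polynomial.map_pow]
  exact wo_of_ordinaryPointsU hU hp hp2 hNS (Q i).O hpi ((Q i).ψ.comp H.π) ρi hfrobi bi g hgi
    (wores_baseChangeAlong (Q i).ψ hloc hwores)

/-- **S33 from `OrdinaryPointsU`** (binders of the frozen statement). -/
theorem s33_of_ordinaryPointsU (hU : OrdinaryPointsU p N S)
    [Finite (IsLocalRing.ResidueField 𝒪)] [CharZero 𝒪]
    (hp : p.Prime) (hp2 : p ≠ 2) (hp𝒪 : (p : 𝒪) ∈ IsLocalRing.maximalIdeal 𝒪)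
    (_hN : p ∣ N ∧ ¬ p ^ 2 ∣ N)
    (hNS : ∀ q : ℕ, q.Prime → q ∣ N → q ∈ S)
    (H : CuspForm.HeckeGaloisRepDatum N (↑S : Set ℕ) 𝒪 θ T)
    (hres : (GaloisRepAdic.ofResidualGaloisRep H.ρ.residual).IsOrdinaryAt p) :
    H.ρ.IsOrdinaryAt p :=
  isOrdinaryAt_of_ordinaryPointsU hU hp hp2 hp𝒪 hNS H
    (hasLocalDVRPoints_of_datum hp hp𝒪 hNS H) hres

/-! ### the two suppliers -/

/-- The points occurring at level `N₀`, universal form. -/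
def OldOrdinaryU (p N₀ N : ℕ) [NeZero N₀] [NeZero N] (S : Finset ℕ) : Prop :=
  ∀ (𝒪' : Type) [CommRing 𝒪'] [IsDomain 𝒪'] [IsDiscreteValuationRing 𝒪']
    [IsAdicComplete (IsLocalRing.maximalIdeal 𝒪') 𝒪'] [Finite (IsLocalRing.ResidueField 𝒪')]
    [CharZero 𝒪'] (_hp𝒪' : (p : 𝒪') ∈ IsLocalRing.maximalIdeal 𝒪')
    (χ : CuspForm.heckeAlgebra N 2 (↑S : Set ℕ) →+* 𝒪'),
    OccursAtLevel N₀ N S χ → OrdinaryPointUAt p N S 𝒪' χ

/-- The points not occurring at level `N₀`, universal form. -/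
def NewOrdinaryU (p N₀ N : ℕ) [NeZero N₀] [NeZero N] (S : Finset ℕ) : Prop :=
  ∀ (𝒪' : Type) [CommRing 𝒪'] [IsDomain 𝒪'] [IsDiscreteValuationRing 𝒪']
    [IsAdicComplete (IsLocalRing.maximalIdeal 𝒪') 𝒪'] [Finite (IsLocalRing.ResidueField 𝒪')]
    [CharZero 𝒪'] (_hp𝒪' : (p : 𝒪') ∈ IsLocalRing.maximalIdeal 𝒪')
    (χ : CuspForm.heckeAlgebra N 2 (↑S : Set ℕ) →+* 𝒪'),
    ¬ OccursAtLevel N₀ N S χ → OrdinaryPointUAt p N S 𝒪' χ

theorem ordinaryPointsU_of_old_new {p N₀ N : ℕ} [NeZero N₀] [NeZero N] {S : Finset ℕ}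
    (hold : OldOrdinaryU p N₀ N S) (hnew : NewOrdinaryU p N₀ N S) : OrdinaryPointsU p N S := by
  classical
  intro 𝒪' _ _ _ _ _ _ hp𝒪' χ
  by_cases h : OccursAtLevel N₀ N S χ
  · exact hold 𝒪' hp𝒪' χ h
  · exact hnew 𝒪' hp𝒪' χ h

/-- **S33 from the two suppliers, universal form** (binders of the frozen statement). -/
theorem s33_of_old_new_U
    (hold : ∀ (p N₀ N : ℕ) [NeZero N₀] [NeZero N] (S : Finset ℕ), p.Prime → p ≠ 2 →
      N = p * N₀ → ¬ p ∣ N₀ → (∀ q : ℕ, q.Prime → q ∣ N → q ∈ S) → OldOrdinaryU p N₀ N S)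
    (hnew : ∀ (p N₀ N : ℕ) [NeZero N₀] [NeZero N] (S : Finset ℕ), p.Prime → p ≠ 2 →
      N = p * N₀ → ¬ p ∣ N₀ → (∀ q : ℕ, q.Prime → q ∣ N → q ∈ S) → NewOrdinaryU p N₀ N S)
    [Finite (IsLocalRing.ResidueField 𝒪)] [CharZero 𝒪]
    (hp : p.Prime) (hp2 : p ≠ 2) (hp𝒪 : (p : 𝒪) ∈ IsLocalRing.maximalIdeal 𝒪)
    (hN : p ∣ N ∧ ¬ p ^ 2 ∣ N)
    (hNS : ∀ q : ℕ, q.Prime → q ∣ N → q ∈ S)
    (H : CuspForm.HeckeGaloisRepDatum N (↑S : Set ℕ) 𝒪 θ T)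
    (hres : (GaloisRepAdic.ofResidualGaloisRep H.ρ.residual).IsOrdinaryAt p) :
    H.ρ.IsOrdinaryAt p := by
  obtain ⟨N₀, hN₀⟩ := hN.1
  have hN₀0 : N₀ ≠ 0 := by
    rintro rfl
    exact NeZero.ne N (by rw [hN₀, mul_zero])
  haveI : NeZero N₀ := ⟨hN₀0⟩
  have hpN₀ : ¬ p ∣ N₀ := by
    rintro ⟨c, hc⟩
    exact hN.2 ⟨c, by rw [hN₀, hc]; ring⟩
  exact s33_of_ordinaryPointsU
    (ordinaryPointsU_of_old_new (hold p N₀ N S hp hp2 hN₀ hpN₀ hNS)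
      (hnew p N₀ N S hp hp2 hN₀ hpN₀ hNS)) hp hp2 hp𝒪 hN hNS H hres

end Fermat.Agent.S33
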