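import Mathlib
import Fermat.Agent.S33.UForm
import Fermat.Agent.S33.FlatOrd
import Fermat.Agent.S32.PointFlat
import Fermat.Agent.S19

/-!
# S33, the old supplier (owner: helper62)

`oldOrdinaryU : OldOrdinaryU p N₀ N S` for `N = p * N₀`, `p ∤ N₀`, `p` odd: a representation `ρ₀`
over a complete discrete valuation ring with the Frobenius characteristic polynomials of a point
`χ` of the Hecke algebra of level `N` which occurs at level `N₀`, four of whose matrices form a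
basis of `M₂`, is ordinary at `p` if it is residually ordinary at `p`.

Proof: `ρ₀` has the Frobenius characteristic polynomials of a point of level `N₀`, so it is flat
at `p` (`S32.isFlatAt_point` with S19 at level `N₀`); flat + residually ordinary ⇒ ordinary
(helper57, `S33.isOrdinaryAt_of_isFlatAt`, FFL).

`s33_of_newOrdinaryU`: the frozen S33 (same binders) from the new supplier only.
-/

set_option autoImplicit false
set_option linter.style.haveILetI false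
set_option linter.unusedSectionVars false
set_option linter.unusedVariables false

namespace Fermat.Agent.S33

open Polynomial TensorProduct IsLocalRing Fermat.Agent.F3 Fermat.Agent.TraceRigidity
  Fermat.Agent.S34 Fermat.Agent.S30

local notation "GQ'" => (AlgebraicClosure ℚ ≃ₐ[ℚ] AlgebraicClosure ℚ)

/-- The frozen statement of S19, as a theorem. -/
theorem s19Statement : Fermat.Agent.S32.S19Statement :=
  fun M _ ℓ _ hℓM k => Fermat.Agent.S19.result M ℓ hℓM k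

/-- **The old supplier**, from S19. -/
theorem oldOrdinaryU_of_s19 (h19 : Fermat.Agent.S32.S19Statement)
    {p N₀ N : ℕ} [NeZero N₀] [NeZero N] {S : Finset ℕ}
    (hp : p.Prime) (hp2 : p ≠ 2) (hN : N = p * N₀) (hpN₀ : ¬ p ∣ N₀)
    (hNS : ∀ q : ℕ, q.Prime → q ∣ N → q ∈ S) : OldOrdinaryU p N₀ N S := by
  classical
  intro 𝒪' _ _ _ _ _ _ hp𝒪' χ hocc ρ₀ hρ₀ b g hg hres
  obtain ⟨χ₀, hχ₀⟩ := hocc
  have hpS : p ∈ S := hNS p hp ⟨N₀, hN⟩
  have hN₀N : N₀ ∣ N := ⟨p, by rw [hN, mul_comm]⟩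
  have hN₀S : ∀ q : ℕ, q.Prime → q ∣ N₀ → q ∈ S := fun q hq h =>
    hNS q hq (dvd_trans h hN₀N)
  have hfrob₀ : ∀ ℓ : ℕ, ℓ.Prime → ℓ ∉ S →
      ∀ A : ValuationSubring (AlgebraicClosure ℚ), A.LiesOverPrime ℓ →
        ∀ σ : GQ', A.IsFrobeniusAt σ ℓ →
          LinearMap.charpoly (ρ₀.ρ σ) =
            X ^ 2 - C (heckeEigenvalue χ₀ ℓ) * X + C ((ℓ : 𝒪')) := by
    intro ℓ hℓ hℓS A hA σ hσ
    have hℓN : ¬ ℓ ∣ N := fun h => hℓS (hNS ℓ hℓ h)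
    have hℓN₀ : ¬ ℓ ∣ N₀ := fun h => hℓS (hN₀S ℓ hℓ h)
    have hℓS' : ℓ ∉ (↑S : Set ℕ) := fun h => hℓS (Finset.mem_coe.1 h)
    rw [hρ₀ ℓ hℓ hℓN hℓS' A hA σ hσ, heckeEigenvalue_eq χ₀ hℓ hℓN₀ hℓS',
      hχ₀ ℓ hℓ hℓN hℓN₀ hℓS']
  have hfl : ρ₀.IsFlatAt p :=
    Fermat.Agent.S32.isFlatAt_point h19 hp hp𝒪' hpN₀ hpS hN₀S χ₀ ρ₀ hfrob₀ b g hg
  have hidn : IDN ρ₀ p :=
    idn_of_det_frob ρ₀ hp hp2 hp𝒪' S (det_frob_of_charpoly χ ρ₀ hNS hρ₀)
  exact isOrdinaryAt_of_isFlatAt hp hp2 ρ₀ hfl hidn hres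

/-- **The old supplier** (unconditional). -/
theorem oldOrdinaryU {p N₀ N : ℕ} [NeZero N₀] [NeZero N] {S : Finset ℕ}
    (hp : p.Prime) (hp2 : p ≠ 2) (hN : N = p * N₀) (hpN₀ : ¬ p ∣ N₀)
    (hNS : ∀ q : ℕ, q.Prime → q ∣ N → q ∈ S) : OldOrdinaryU p N₀ N S :=
  oldOrdinaryU_of_s19 s19Statement hp hp2 hN hpN₀ hNS

variable {p : ℕ} {N : ℕ} [NeZero N] {S : Finset ℕ}
  {𝒪 : Type} [CommRing 𝒪] [IsDomain 𝒪] [IsDiscreteValuationRing 𝒪]
  [IsAdicComplete (IsLocalRing.maximalIdeal 𝒪) 𝒪]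
  {θ : CuspForm.heckeAlgebra N 2 (↑S : Set ℕ) →+* IsLocalRing.ResidueField 𝒪}
  {T : Type} [CommRing T] [IsLocalRing T] [IsNoetherianRing T]
  [IsAdicComplete (IsLocalRing.maximalIdeal T) T] [Algebra 𝒪 T] [IsLocalHom (algebraMap 𝒪 T)]
  [Module.Finite 𝒪 T] [Module.Free 𝒪 T]

/-- **S33 from the new supplier only** (binders of the frozen statement). -/
theorem s33_of_newOrdinaryU
    (hnew : ∀ (p N₀ N : ℕ) [NeZero N₀] [NeZero N] (S : Finset ℕ), p.Prime → p ≠ 2 →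
      N = p * N₀ → ¬ p ∣ N₀ → (∀ q : ℕ, q.Prime → q ∣ N → q ∈ S) → NewOrdinaryU p N₀ N S)
    [Finite (IsLocalRing.ResidueField 𝒪)] [CharZero 𝒪]
    (hp : p.Prime) (hp2 : p ≠ 2) (hp𝒪 : (p : 𝒪) ∈ IsLocalRing.maximalIdeal 𝒪)
    (hN : p ∣ N ∧ ¬ p ^ 2 ∣ N)
    (hNS : ∀ q : ℕ, q.Prime → q ∣ N → q ∈ S)
    (H : CuspForm.HeckeGaloisRepDatum N (↑S : Set ℕ) 𝒪 θ T)
    (hres : (GaloisRepAdic.ofResidualGaloisRep H.ρ.residual).IsOrdinaryAt p) :
    H.ρ.IsOrdinaryAt p :=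
  s33_of_old_new_U
    (fun p N₀ N _ _ S hp hp2 hN hpN₀ hNS => oldOrdinaryU hp hp2 hN hpN₀ hNS)
    hnew hp hp2 hp𝒪 hN hNS H hres

end Fermat.Agent.S33
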