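import Fermat.Agent.S33.NewTateJ
import Fermat.Agent.S33.OldSupplier
import Fermat.Agent.Lib.BadRed.Bridge.PullSplit

/-!
# S33: the final wiring (owner: helper11)

* `torsionSplitAt_of_splitG` : `TorsionSplitAt M i` from helper94's form `SplitG1`, `SplitG2`
  (`Lib/BadRed/Bridge/PullSplit.lean`) at the level `N₀ * p`, `N₀ = M / p` (level casts).
* `s33_of_targets` : the frozen S33 (same binders) from the two geometric targets
  `NewEigenclassAt` (P-NEW) and `TorsionSplitAt` (P-BR); the old part is helper62's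
  `S33.oldOrdinaryU`.
* `s33_of_splitG` : the same with `SplitG1`, `SplitG2` in place of `TorsionSplitAt`.
-/

set_option autoImplicit false
set_option linter.unusedSectionVars false
set_option linter.style.haveILetI false

noncomputable section

namespace Fermat.Agent.S33

open ModularCurve AlgebraicCurve IsLocalRing Fermat.Agent.F3Deg Fermat.Agent.F3DegW
  Fermat.Agent.BadRed Fermat.Agent.BadRed.PullAux Fermat.Agent.S35
open Fermat.Agent.AtkinLehner (ALData)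

local notation "Qb" => (AlgebraicClosure ℚ)

/-! ### level casts -/

theorem newOrdinaryU_cast {p N₀ N₀' N : ℕ} [NeZero N₀] [NeZero N₀'] [NeZero N] {S : Finset ℕ}
    (h : N₀ = N₀') (H : NewOrdinaryU p N₀ N S) : NewOrdinaryU p N₀' N S := by
  subst h
  exact H

theorem torsionSplitAt_cast {M M' : ℕ} [NeZero M] [NeZero M'] (h : M' = M)
    (i : NewIdx M 0) (i' : NewIdx M' 0) (hi : i'.1 = i.1) (H : TorsionSplitAt M' i') :
    TorsionSplitAt M i := by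
  subst h
  obtain rfl : i' = i := Subtype.ext hi
  exact H

theorem pushAlphaAt_eq_zero_iff {M N₁ N₁' q q' : ℕ} [NeZero M] [NeZero N₁] [NeZero N₁']
    [NeZero q] [NeZero q']
    (h : M = N₁ * q) (h' : M = N₁' * q') (e : N₁ = N₁') (eq : q = q') (y : JZero M) :
    pushAlphaAt h y = 0 ↔ pushAlphaAt h' y = 0 := by
  subst e
  subst eq
  exact Iff.rfl

theorem pushAlphaAt_rfl {N₁ q : ℕ} [NeZero N₁] [NeZero q] [NeZero (N₁ * q)]
    (y : JZero (N₁ * q)) :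
    pushAlphaAt (rfl : N₁ * q = N₁ * q) y = pushAlpha N₁ q y := rfl

/-! ### the adapter -/

/-- `TorsionSplitAt` at the level `N₀ * p` from `SplitG1`, `SplitG2`. -/
theorem torsionSplitAt_mul {p N₀ : ℕ} [NeZero N₀] [NeZero p] (i : NewIdx (N₀ * p) 0)
    (hi : i.1 = p)
    (h : ∀ A : ValuationSubring Qb, A.LiesOverPrime p →
      ∃ Sp : AddSubgroup (JZero (N₀ * p)),
        SplitG1 p N₀ i.data i.level_eq_data A Sp ∧ SplitG2 p (N₀ * p) A Sp) :
    TorsionSplitAt (N₀ * p) i := by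
  have hp : p.Prime := hi ▸ i.prime
  haveI := i.neZero_N
  haveI := i.neZero_q
  have hdiv : N₀ * p / i.1 = N₀ := by
    rw [hi]
    exact Nat.mul_div_cancel N₀ hp.pos
  have hA : ∀ z : JZero (N₀ * p), i.degA z = 0 ↔ pushAlpha N₀ p z = 0 := by
    intro z
    have h1 := pushAlphaAt_eq_zero_iff (M := N₀ * p) i.level_eq
      (rfl : N₀ * p = N₀ * p) hdiv hi z
    rw [pushAlphaAt_rfl] at h1
    exact h1
  intro P hP
  obtain ⟨Sp, hG1, hG2⟩ := h P (hi ▸ hP)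
  refine ⟨Sp, fun τ hτ n y hy hu => ?_, fun σ hσ hinv s hs hps => ?_⟩
  · rw [newUAt_eq_zero_iff] at hu
    rw [hi] at hy
    exact hG1 n y hy ((hA y).1 hu.1) ((hA _).1 hu.2) τ hτ
  · rw [hi] at hps
    have h1 := hG2 s hs hps σ hσ (p - 1) (fun ζ hζ => by
      rw [hinv ζ (by rw [hi]; exact hζ)]
      apply inv_eq_of_mul_eq_one_right
      rw [← pow_succ', Nat.sub_add_cancel hp.one_le, hζ])
    rw [h1, ← succ_nsmul, Nat.sub_add_cancel hp.one_le, hps]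

/-- **The adapter**: `TorsionSplitAt M i` from `SplitG1`, `SplitG2` at the level `(M / p) * p`. -/
theorem torsionSplitAt_of_splitG (M : ℕ) [NeZero M] (i : NewIdx M 0) (hi2 : i.1 ≠ 2)
    (h : ∀ (p N₀ : ℕ) [NeZero N₀] [NeZero p] (D : ALData) (hM : N₀ * p = D.Q * D.R),
      p.Prime → p ≠ 2 → ¬ p ∣ N₀ → D.Q = p → D.R = N₀ →
      ∀ A : ValuationSubring Qb, A.LiesOverPrime p →
        ∃ Sp : AddSubgroup (JZero (N₀ * p)),
          SplitG1 p N₀ D hM A Sp ∧ SplitG2 p (N₀ * p) A Sp) :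
    TorsionSplitAt M i := by
  haveI := i.neZero_N
  haveI := i.neZero_q
  have hM : M / i.1 * i.1 = M := i.level_eq.symm
  have hdiv : (M / i.1 * i.1) / i.1 = M / i.1 := Nat.mul_div_cancel _ i.prime.pos
  have hdvd : i.1 ∣ M / i.1 * i.1 := dvd_mul_left _ _
  have hsq : ¬ i.1 ^ 2 ∣ M / i.1 * i.1 := by
    rw [hM]
    exact i.not_sq_dvd
  set i' : NewIdx (M / i.1 * i.1) 0 := pIdx i.prime hdvd hsq with hi'
  refine torsionSplitAt_cast hM i i' rfl ?_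
  refine torsionSplitAt_mul i' rfl fun A hA => ?_
  have hR : i'.data.R = M / i.1 := by
    rw [i'.data_R]
    exact hdiv
  exact h i.1 (M / i.1) i'.data i'.level_eq_data i.prime hi2 i.not_dvd_N i'.data_Q hR A hA

/-! ### the final wiring -/

variable {p : ℕ} {N : ℕ} [NeZero N] {S : Finset ℕ}
  {𝒪 : Type} [CommRing 𝒪] [IsDomain 𝒪] [IsDiscreteValuationRing 𝒪]
  [IsAdicComplete (IsLocalRing.maximalIdeal 𝒪) 𝒪]
  {θ : CuspForm.heckeAlgebra N 2 (↑S : Set ℕ) →+* IsLocalRing.ResidueField 𝒪}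
  {T : Type} [CommRing T] [IsLocalRing T] [IsNoetherianRing T]
  [IsAdicComplete (IsLocalRing.maximalIdeal T) T] [Algebra 𝒪 T] [IsLocalHom (algebraMap 𝒪 T)]
  [Module.Finite 𝒪 T] [Module.Free 𝒪 T]

/-- **S33 from the two geometric targets** (binders of the frozen statement). -/
theorem s33_of_targets
    (hE : ∀ (M : ℕ) [NeZero M] (S : Finset ℕ) (i : NewIdx M 0), i.1 ≠ 2 →
      (∀ q : ℕ, q.Prime → q ∣ M → q ∈ S) → NewEigenclassAt M S i)
    (hT : ∀ (M : ℕ) [NeZero M] (i : NewIdx M 0), i.1 ≠ 2 → TorsionSplitAt M i)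
    [Finite (IsLocalRing.ResidueField 𝒪)] [CharZero 𝒪]
    (hp : p.Prime) (hp2 : p ≠ 2) (hp𝒪 : (p : 𝒪) ∈ IsLocalRing.maximalIdeal 𝒪)
    (hN : p ∣ N ∧ ¬ p ^ 2 ∣ N)
    (hNS : ∀ q : ℕ, q.Prime → q ∣ N → q ∈ S)
    (H : CuspForm.HeckeGaloisRepDatum N (↑S : Set ℕ) 𝒪 θ T)
    (hres : (GaloisRepAdic.ofResidualGaloisRep H.ρ.residual).IsOrdinaryAt p) :
    H.ρ.IsOrdinaryAt p := by
  refine s33_of_newOrdinaryU (fun p N₀ N _ _ S hp hp2 hN hpN₀ hNS => ?_) hp hp2 hp𝒪 hN hNS H hres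
  have hpN : p ∣ N := ⟨N₀, hN⟩
  have hp2N : ¬ p ^ 2 ∣ N := by
    rintro ⟨c, hc⟩
    apply hpN₀
    refine ⟨c, ?_⟩
    have h1 : p * N₀ = p * (p * c) := by rw [← hN, hc]; ring
    exact Nat.eq_of_mul_eq_mul_left hp.pos h1
  set i : NewIdx N 0 := pIdx hp hpN hp2N with hi
  haveI : NeZero (N / p) := i.neZero_N
  have hdiv : N / p = N₀ := by
    rw [hN]
    exact Nat.mul_div_cancel_left N₀ hp.pos
  have h1 : NewOrdinaryU p (N / p) N S :=
    newOrdinaryU_of_torsion N S i hp2 (hNS p hp hpN) hNS (hE N S i hp2 hNS) (hT N i hp2)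
  exact newOrdinaryU_cast hdiv h1

/-- **S33 from P-NEW and P-BR in helper94's form.** -/
theorem s33_of_splitG
    (hE : ∀ (M : ℕ) [NeZero M] (S : Finset ℕ) (i : NewIdx M 0), i.1 ≠ 2 →
      (∀ q : ℕ, q.Prime → q ∣ M → q ∈ S) → NewEigenclassAt M S i)
    (hBR : ∀ (p N₀ : ℕ) [NeZero N₀] [NeZero p] (D : ALData) (hM : N₀ * p = D.Q * D.R),
      p.Prime → p ≠ 2 → ¬ p ∣ N₀ → D.Q = p → D.R = N₀ →
      ∀ A : ValuationSubring Qb, A.LiesOverPrime p →
        ∃ Sp : AddSubgroup (JZero (N₀ * p)),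
          SplitG1 p N₀ D hM A Sp ∧ SplitG2 p (N₀ * p) A Sp)
    [Finite (IsLocalRing.ResidueField 𝒪)] [CharZero 𝒪]
    (hp : p.Prime) (hp2 : p ≠ 2) (hp𝒪 : (p : 𝒪) ∈ IsLocalRing.maximalIdeal 𝒪)
    (hN : p ∣ N ∧ ¬ p ^ 2 ∣ N)
    (hNS : ∀ q : ℕ, q.Prime → q ∣ N → q ∈ S)
    (H : CuspForm.HeckeGaloisRepDatum N (↑S : Set ℕ) 𝒪 θ T)
    (hres : (GaloisRepAdic.ofResidualGaloisRep H.ρ.residual).IsOrdinaryAt p) :
    H.ρ.IsOrdinaryAt p :=
  s33_of_targets hE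
    (fun M _ i hi2 => torsionSplitAt_of_splitG M i hi2
      (fun p N₀ _ _ D hM hp h2 hpN₀ hQ hR A hA => hBR p N₀ D hM hp h2 hpN₀ hQ hR A hA))
    hp hp2 hp𝒪 hN hNS H hres

end Fermat.Agent.S33
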