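import Mathlib
import Fermat.Agent.S33.Functional
import Fermat.Agent.S33.InertiaDet
import Fermat.Agent.S30.Iface

/-!
# S33, the new part, P-WIRE: ordinarity from a split part of the Tate lattice (owner: helper11)

Let `L` be a `FrobLattice` over a discrete valuation ring `O` (the eigenpart of a Tate module).
A *split part* of `L` at a place `P ∣ p` is a saturated submodule `Lsp ≤ L.Λ` such that

* `(τ - 1) L.Λ ⊆ Lsp` for `τ` in the inertia group of `P`                       (E1 + W),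
* an inertia element which inverts the `p`-th roots of unity acts as `-1` on `Lsp` modulo the
  maximal ideal                                                                  (COV mod `p`).

`isOrdinaryAt_of_hasSplitPart`: a representation `ρ₁` of rank two with `det ρ₁(Frob_ℓ) = ℓ` which
embeds equivariantly in `L.Λ` with saturated image is ordinary at `p` (`p` odd).

Proof.  If the image is not contained in `Lsp`, a coordinate of the free module `L.Λ ⧸ Lsp` gives
a nonzero inertia-invariant linear form on `ρ₁.V` (`isOrdinaryAt_of_invariant_functional`).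
If it is, then `ρ₁ σ₀ ≡ -1` modulo the maximal ideal for `σ₀` inverting `μ_p`, so
`det ρ₁ σ₀ ≡ 1`; but `det ρ₁ σ₀ ≡ -1` by Frobenius density: impossible for `p` odd.
-/

set_option autoImplicit false
set_option linter.style.haveILetI false
set_option linter.unusedSectionVars false

namespace Fermat.Agent.S33

open IsLocalRing Fermat.Agent.F3 Fermat.Agent.S31 Fermat.Agent.S34 Fermat.Agent.Cyclo
  Fermat.Agent.S30

local notation "GQ" => (AlgebraicClosure ℚ ≃ₐ[ℚ] AlgebraicClosure ℚ)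
local notation "Qb" => (AlgebraicClosure ℚ)

section Det

variable {A : Type} [CommRing A] [IsLocalRing A]

/-- An element of `G_ℚ` which inverts the `p`-th roots of unity has determinant `≡ -1`, if
`det ρ(Frob_ℓ) = ℓ` outside a finite set of primes. -/
theorem det_add_one_mem_of_inv (ρ : GaloisRepAdic A) {p : ℕ} (hp : p.Prime)
    (hpA : (p : A) ∈ maximalIdeal A) (S : Finset ℕ)
    (hdet : ∀ ℓ : ℕ, ℓ.Prime → ℓ ∉ S →
      ∀ A' : ValuationSubring (AlgebraicClosure ℚ), A'.LiesOverPrime ℓ →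
        ∀ σ : AlgebraicClosure ℚ ≃ₐ[ℚ] AlgebraicClosure ℚ, A'.IsFrobeniusAt σ ℓ →
          LinearMap.det (ρ.ρ σ) = (ℓ : A))
    (σ₀ : GQ) (hinv : ∀ μ : Qb, μ ^ p = 1 → σ₀ μ = μ⁻¹) :
    LinearMap.det (ρ.ρ σ₀) + 1 ∈ maximalIdeal A := by
  classical
  haveI : Fact p.Prime := ⟨hp⟩
  haveI : NeZero p := ⟨hp.ne_zero⟩
  obtain ⟨L₁, hL₁fd, hL₁n, hL₁⟩ := exists_normal_level ρ 1
  obtain ⟨L, hLfd, hLn, hL₁L, hcL⟩ := exists_normal_sup 1 (fun _ => cycloField p)
    (fun _ => inferInstance) (fun _ => inferInstance) L₁ hL₁fd hL₁n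
  obtain ⟨ℓ, A', τ, j, hℓ, hℓS, hA', hτ, hτs⟩ :=
    exists_frob_pow frobDensityLite L hLfd hLn σ₀ (insert p S)
  have hℓp : ℓ ≠ p := fun h => hℓS (h ▸ Finset.mem_insert_self _ _)
  have hℓS' : ℓ ∉ S := fun h => hℓS (Finset.mem_insert_of_mem h)
  have hdτ : LinearMap.det (ρ.ρ (τ ^ j)) = (ℓ : A) ^ j := by
    rw [map_pow, map_pow, hdet ℓ hℓ hℓS' A' hA' τ hτ]
  have hcong : LinearMap.det (ρ.ρ (τ ^ j)) - LinearMap.det (ρ.ρ σ₀) ∈ maximalIdeal A := by
    have := det_sub_mem_of_agree ρ 1 L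
      (fun σ' hσ' => hL₁ σ' fun x hx => hσ' x (hL₁L hx)) σ₀ (τ ^ j) hτs
    rwa [pow_one] at this
  have hχ1 : ((modChar p (τ ^ j) : (ZMod p)ˣ) : ZMod p) = ((ℓ : ZMod p)) ^ j := by
    rw [map_pow, Units.val_pow_eq_pow_val,
      modChar_frobenius p hℓ (fun h => hℓp ((Nat.prime_dvd_prime_iff_eq hℓ hp).mp h)) A' hA' τ hτ]
  have hχ2 : modChar p (τ ^ j) = modChar p σ₀ := by
    have h1 : modChar p (σ₀⁻¹ * τ ^ j) = 1 := by
      apply modChar_eq_one_of_fix_cycloField
      intro x hx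
      rw [AlgEquiv.mul_apply, hτs x (hcL 0 hx)]
      exact σ₀.symm_apply_apply x
    rw [map_mul, map_inv, inv_mul_eq_one] at h1
    exact h1.symm
  have hχ3 : ((modChar p σ₀ : (ZMod p)ˣ) : ZMod p) = -1 := by
    apply modChar_unique
    intro t ht
    rw [hinv t ht]
    have hdv : p ∣ ((-1 : ZMod p)).val + 1 := by
      rw [← ZMod.natCast_eq_zero_iff]
      push_cast
      rw [ZMod.natCast_zmod_val]
      ring
    obtain ⟨c, hc⟩ := hdv
    apply inv_eq_of_mul_eq_one_right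
    rw [← pow_succ', hc, pow_mul, ht, one_pow]
  have hdvd : p ∣ ℓ ^ j + 1 := by
    rw [← ZMod.natCast_eq_zero_iff]
    push_cast
    rw [← hχ1, hχ2, hχ3]
    ring
  have hmem : (ℓ : A) ^ j + 1 ∈ maximalIdeal A := by
    obtain ⟨c, hc⟩ := hdvd
    have : (ℓ : A) ^ j + 1 = (p : A) * (c : A) := by
      have := congrArg (Nat.cast : ℕ → A) hc
      push_cast at this
      exact this
    rw [this]
    exact Ideal.mul_mem_right _ _ hpA
  have e : LinearMap.det (ρ.ρ σ₀) + 1 = ((ℓ : A) ^ j + 1) -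
      (LinearMap.det (ρ.ρ (τ ^ j)) - LinearMap.det (ρ.ρ σ₀)) := by
    rw [hdτ]; ring
  rw [e]
  exact Ideal.sub_mem _ hmem hcong

/-- An endomorphism of a free module of rank two which is `≡ -1` modulo the maximal ideal has
determinant `≡ 1`. -/
theorem det_sub_one_mem_of_add_mem {V : Type} [AddCommGroup V] [Module A V]
    (b : Module.Basis (Fin 2) A V) (f : Module.End A V)
    (hf : ∀ v : V, f v + v ∈ maximalIdeal A • (⊤ : Submodule A V)) :
    LinearMap.det f - 1 ∈ maximalIdeal A := by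
  classical
  have hcoord : ∀ (v : V), v ∈ maximalIdeal A • (⊤ : Submodule A V) →
      ∀ i, b.repr v i ∈ maximalIdeal A := by
    intro v hv i
    refine Submodule.smul_induction_on hv (fun r hr n _ => ?_) (fun x y hx hy => ?_)
    · rw [map_smul, Finsupp.smul_apply, smul_eq_mul]
      exact Ideal.mul_mem_right _ _ hr
    · rw [map_add, Finsupp.add_apply]
      exact Ideal.add_mem _ hx hy
  have h00 : b.repr (f (b 0)) 0 + 1 ∈ maximalIdeal A := by
    have := hcoord _ (hf (b 0)) 0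
    rwa [map_add, Finsupp.add_apply, Module.Basis.repr_self, Finsupp.single_eq_same] at this
  have h10 : b.repr (f (b 0)) 1 ∈ maximalIdeal A := by
    have := hcoord _ (hf (b 0)) 1
    rwa [map_add, Finsupp.add_apply, Module.Basis.repr_self,
      Finsupp.single_eq_of_ne (by decide), add_zero] at this
  have h01 : b.repr (f (b 1)) 0 ∈ maximalIdeal A := by
    have := hcoord _ (hf (b 1)) 0
    rwa [map_add, Finsupp.add_apply, Module.Basis.repr_self,
      Finsupp.single_eq_of_ne (by decide), add_zero] at this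
  have h11 : b.repr (f (b 1)) 1 + 1 ∈ maximalIdeal A := by
    have := hcoord _ (hf (b 1)) 1
    rwa [map_add, Finsupp.add_apply, Module.Basis.repr_self, Finsupp.single_eq_same] at this
  have hdet : LinearMap.det f =
      b.repr (f (b 0)) 0 * b.repr (f (b 1)) 1 - b.repr (f (b 1)) 0 * b.repr (f (b 0)) 1 := by
    rw [← LinearMap.det_toMatrix b, Matrix.det_fin_two]
    simp [LinearMap.toMatrix_apply]
  have e : LinearMap.det f - 1 =
      (b.repr (f (b 0)) 0 + 1) * (b.repr (f (b 1)) 1 + 1) - (b.repr (f (b 0)) 0 + 1)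
        - (b.repr (f (b 1)) 1 + 1) - b.repr (f (b 1)) 0 * b.repr (f (b 0)) 1 := by
    rw [hdet]; ring
  rw [e]
  exact Ideal.sub_mem _ (Ideal.sub_mem _ (Ideal.sub_mem _ (Ideal.mul_mem_right _ _ h00) h00) h11)
    (Ideal.mul_mem_right _ _ h01)

end Det

section Split

variable {O : Type} [CommRing O] [IsDomain O] [IsDiscreteValuationRing O]
  {p N : ℕ} {S : Finset ℕ} {a : ℕ → O}

/-- `Lsp` is a split part of the lattice `L` at the place `P`. -/
def IsSplitPartAt (L : FrobLattice p N S O a) (P : ValuationSubring Qb)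
    (Lsp : Submodule O L.Λ) : Prop :=
  (∀ (c : O) (x : L.Λ), c ≠ 0 → c • x ∈ Lsp → x ∈ Lsp) ∧
  (∀ τ ∈ P.inertiaSubgroupIn ℚ, ∀ x : L.Λ, L.ρ τ x - x ∈ Lsp) ∧
  (∀ σ ∈ P.inertiaSubgroupIn ℚ, (∀ ζ : Qb, ζ ^ p = 1 → σ ζ = ζ⁻¹) →
    ∀ x ∈ Lsp, L.ρ σ x + x ∈ maximalIdeal O • (⊤ : Submodule O L.Λ))

/-- The lattice `L` has a split part at every place over `p`. -/
def HasSplitPart (L : FrobLattice p N S O a) : Prop :=
  ∀ P : ValuationSubring Qb, P.LiesOverPrime p → ∃ Lsp : Submodule O L.Λ, IsSplitPartAt L P Lsp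

/-- The quotient by a saturated submodule is free. -/
theorem free_quotient_of_saturated {Λ : Type} [AddCommGroup Λ] [Module O Λ] [Module.Finite O Λ]
    (M : Submodule O Λ) (hsat : ∀ (c : O) (x : Λ), c ≠ 0 → c • x ∈ M → x ∈ M) :
    Module.Free O (Λ ⧸ M) := by
  haveI : Module.IsTorsionFree O (Λ ⧸ M) := by
    refine Module.IsTorsionFree.of_smul_eq_zero fun c q hq => ?_
    by_cases hc : c = 0
    · exact Or.inl hc
    · right
      obtain ⟨x, rfl⟩ := Submodule.mkQ_surjective M q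
      have h1 : c • x ∈ M := by
        rw [← Submodule.Quotient.mk_eq_zero, Submodule.Quotient.mk_smul]
        exact hq
      exact (Submodule.Quotient.mk_eq_zero M).2 (hsat c x hc h1)
  exact Module.free_of_finite_type_torsion_free'

/-- A nonzero element of a free module has a nonzero coordinate. -/
theorem exists_form_ne_zero {Q : Type} [AddCommGroup Q] [Module O Q] [Module.Free O Q]
    {q : Q} (hq : q ≠ 0) : ∃ φ : Q →ₗ[O] O, φ q ≠ 0 := by
  classical
  let b := Module.Free.chooseBasis O Q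
  have h1 : b.repr q ≠ 0 := fun h => hq (b.repr.map_eq_zero_iff.1 h)
  obtain ⟨i, hi⟩ := Finsupp.ne_iff.1 h1
  exact ⟨b.coord i, by simpa using hi⟩

/-- **P-WIRE.**  A representation of rank two with cyclotomic determinant which embeds, with
saturated image, in a Tate lattice with a split part at `p`, is ordinary at `p`. -/
theorem isOrdinaryAt_of_hasSplitPart (hp : p.Prime) (hp2 : p ≠ 2)
    (hpO : (p : O) ∈ maximalIdeal O) (L : FrobLattice p N S O a) (hL : HasSplitPart L)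
    (ρ₁ : GaloisRepAdic O) (f : ρ₁.V →ₗ[O] L.Λ) (hf : Function.Injective f)
    (hfe : ∀ (σ : GQ) (v : ρ₁.V), f (ρ₁.ρ σ v) = L.ρ σ (f v))
    (hfs : ∀ (c : O) (x : L.Λ), c ≠ 0 → c • x ∈ LinearMap.range f → x ∈ LinearMap.range f)
    (S' : Finset ℕ)
    (hdet : ∀ ℓ : ℕ, ℓ.Prime → ℓ ∉ S' →
      ∀ A' : ValuationSubring (AlgebraicClosure ℚ), A'.LiesOverPrime ℓ →
        ∀ σ : AlgebraicClosure ℚ ≃ₐ[ℚ] AlgebraicClosure ℚ, A'.IsFrobeniusAt σ ℓ →
          LinearMap.det (ρ₁.ρ σ) = (ℓ : O)) :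
    ρ₁.IsOrdinaryAt p := by
  classical
  haveI : Fact p.Prime := ⟨hp⟩
  have hidn : IDN ρ₁ p := idn_of_det_frob ρ₁ hp hp2 hpO S' hdet
  refine isOrdinaryAt_of_invariant_functional ρ₁ p hidn fun P hP => ?_
  obtain ⟨Lsp, hsat, hb, hc⟩ := hL P hP
  by_cases hall : ∀ v : ρ₁.V, f v ∈ Lsp
  · -- impossible
    exfalso
    obtain ⟨σ₀, hσ₀, hinv⟩ := Fermat.Agent.S59.SOArith.exists_inertia_inv_on_roots p P hP
    obtain ⟨ϖ, hϖ⟩ := IsDiscreteValuationRing.exists_irreducible O
    have hm1 : ∀ v : ρ₁.V, ρ₁.ρ σ₀ v + v ∈ maximalIdeal O • (⊤ : Submodule O ρ₁.V) := by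
      intro v
      have h1 := hc σ₀ hσ₀ hinv (f v) (hall v)
      rw [hϖ.maximalIdeal_eq, Submodule.ideal_span_singleton_smul] at h1
      obtain ⟨y, -, hy⟩ := (Submodule.mem_smul_pointwise_iff_exists _ _ _).mp h1
      have h2 : ϖ • y ∈ LinearMap.range f := by
        rw [hy, ← hfe, ← map_add]
        exact LinearMap.mem_range_self _ _
      obtain ⟨w, hw⟩ := hfs ϖ y hϖ.ne_zero h2
      have h3 : ρ₁.ρ σ₀ v + v = ϖ • w := by
        apply hf
        rw [map_add, hfe, map_smul, hw, hy]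
      rw [h3, hϖ.maximalIdeal_eq, Submodule.ideal_span_singleton_smul]
      exact Submodule.smul_mem_pointwise_smul _ _ _ Submodule.mem_top
    set b : Module.Basis (Fin 2) O ρ₁.V := Module.finBasisOfFinrankEq O ρ₁.V ρ₁.finrank_eq
    have h1 := det_sub_one_mem_of_add_mem b (ρ₁.ρ σ₀) hm1
    have h2 := det_add_one_mem_of_inv ρ₁ hp hpO S' hdet σ₀ hinv
    have h3 : (2 : O) ∈ maximalIdeal O := by
      have e : (2 : O) = (LinearMap.det (ρ₁.ρ σ₀) + 1) - (LinearMap.det (ρ₁.ρ σ₀) - 1) := by ring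
      rw [e]
      exact Ideal.sub_mem _ h2 h1
    exact (mem_maximalIdeal _).1 h3 (isUnit_two_of_odd hp hp2 hpO)
  · -- the functional
    push Not at hall
    obtain ⟨v₀, hv₀⟩ := hall
    haveI := free_quotient_of_saturated Lsp hsat
    have hq : Lsp.mkQ (f v₀) ≠ 0 := fun h => hv₀ ((Submodule.Quotient.mk_eq_zero Lsp).1 h)
    obtain ⟨φ, hφ⟩ := exists_form_ne_zero (O := O) hq
    refine ⟨φ ∘ₗ Lsp.mkQ ∘ₗ f, fun h => hφ ?_, fun σ hσ v => ?_⟩
    · have := congrArg (fun l : ρ₁.V →ₗ[O] O => l v₀) h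
      simpa using this
    · show φ (Lsp.mkQ (f (ρ₁.ρ σ v))) = φ (Lsp.mkQ (f v))
      congr 1
      rw [hfe, ← sub_eq_zero, ← map_sub]
      exact (Submodule.Quotient.mk_eq_zero Lsp).2 (hb σ hσ (f v))

end Split

end Fermat.Agent.S33
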