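import Fermat.Agent.S35.TransferCond
import Fermat.Agent.S33.SplitLattice

/-!
# S33, the new part, P-TATE: the split part of the conditional Tate lattice (owner: helper11)

Abstract setting of `S35.exists_eigenLattice_transfer_cond` (helper36 / helper34): `J` an abelian
group with an action of `G` and commuting endomorphisms `T i`, `u : J → J'` a `G`-stable kernel
condition, `x n ∈ O ⊗ J[pⁿ]` a compatible eigen-class killed by `u ⊗ 1`; the lattice `Λ` is the
part of the eigen-part of the Tate module of `O ⊗ J` on which `u ⊗ 1` vanishes.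

`exists_eigenLattice_split`: in addition, for every subgroup `Sp ≤ J` there is a SATURATED
submodule `Lsp ≤ Λ` (the sequences with all components in `O ⊗ Sp`) such that

* if `τ y - y ∈ Sp` for all `y ∈ J[pⁿ] ∩ ker u` (all `n`), then `(ρ τ - 1) Λ ⊆ Lsp`;
* if `σ s + s = 0` for all `s ∈ Sp` with `p s = 0`, then `(ρ σ + 1) Lsp ⊆ 𝔪 Λ`.
-/

set_option autoImplicit false
set_option linter.unusedSectionVars false
set_option linter.style.haveILetI false

noncomputable section

namespace Fermat.Agent.S33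

open IsLocalRing Fermat.Agent.S30Tate Fermat.Agent.S35
open scoped TensorProduct

/-! ### the abstract split part -/

section SplitSub

variable {O : Type*} [CommRing O] (π : O) {M : Type*} [AddCommGroup M] [Module O M]
  {N : Type*} [AddCommGroup N] [Module O N]
  {ι : Type*} (h : ι → Module.End O M) (c : ι → O) (U : M →ₗ[O] N)

/-- The sequences of the conditional eigen-lattice with all components in `W`. -/
def splitSub (W : Submodule O M) : Submodule O (tcCondTate π h c U) where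
  carrier := {x | ∀ n, x.1 n ∈ W}
  add_mem' := by
    intro x y hx hy n
    exact W.add_mem (hx n) (hy n)
  zero_mem' := fun n => W.zero_mem
  smul_mem' := by
    intro a x hx n
    exact W.smul_mem a (hx n)

variable {π h c U}

theorem mem_splitSub {W : Submodule O M} {x : tcCondTate π h c U} :
    x ∈ splitSub π h c U W ↔ ∀ n, x.1 n ∈ W := Iff.rfl

end SplitSub

section SplitSubDVR

variable {O : Type*} [CommRing O] [IsDomain O] [IsDiscreteValuationRing O]
  {π : O} {M : Type*} [AddCommGroup M] [Module O M]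
  {N : Type*} [AddCommGroup N] [Module O N]
  {ι : Type*} {h : ι → Module.End O M} {c : ι → O} {U : M →ₗ[O] N}

/-- The split part is saturated. -/
theorem splitSub_saturated (hπ : π ∈ maximalIdeal O) (W : Submodule O M) {a : O} (ha : a ≠ 0)
    (x : tcCondTate π h c U) (hax : a • x ∈ splitSub π h c U W) : x ∈ splitSub π h c U W := by
  obtain ⟨k, b, hb⟩ := exists_dvd_pow ha hπ
  intro n
  have h1 : π ^ k • x.1 (n + k) = x.1 n := tate_pow_smul x.2.1.1 k n
  have h2 : (a • x).1 (n + k) ∈ W := hax (n + k)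
  have h3 : π ^ k • x.1 (n + k) = b • (a • x).1 (n + k) := by
    show π ^ k • x.1 (n + k) = b • (a • x.1 (n + k))
    rw [smul_smul, hb, mul_comm]
  rw [← h1, h3]
  exact W.smul_mem b h2

variable {G : Type*} [Group G] (g : G →* Module.End O M)
  (hcomm : ∀ σ i m, h i (g σ m) = g σ (h i m))
  (hstab : ∀ σ m, U m = 0 → U (g σ m) = 0)

/-- If `g τ - 1` maps the torsion of `ker U` into `W`, then `ρ τ - 1` maps the lattice into the
split part. -/
theorem tcCondTateRep_sub_mem_splitSub (W : Submodule O M) {τ : G}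
    (hτ : ∀ (n : ℕ) (m : M), π ^ n • m = 0 → U m = 0 → g τ m - m ∈ W)
    (x : tcCondTate π h c U) :
    tcCondTateRep (π := π) (c := c) g hcomm hstab τ x - x ∈ splitSub π h c U W := by
  intro n
  show g τ (x.1 n) - x.1 n ∈ W
  exact hτ n _ (tcCondTate_pow_smul_self x n) (x.2.2 n)

/-- If `g σ + 1` kills the `π`-torsion of `W`, then `ρ σ + 1` maps the split part into `𝔪 Λ`. -/
theorem tcCondTateRep_add_mem (hπ : π ∈ maximalIdeal O) (hπ0 : π ≠ 0) (W : Submodule O M)
    {σ : G} (hσ : ∀ m ∈ W, π • m = 0 → g σ m + m = 0)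
    (x : tcCondTate π h c U) (hx : x ∈ splitSub π h c U W) :
    tcCondTateRep (π := π) (c := c) g hcomm hstab σ x + x ∈
      maximalIdeal O • (⊤ : Submodule O (tcCondTate π h c U)) := by
  set w := tcCondTateRep (π := π) (c := c) g hcomm hstab σ x + x with hw
  have hwn : w.1 1 = 0 := by
    show g σ (x.1 1) + x.1 1 = 0
    refine hσ _ (hx 1) ?_
    have := tcCondTate_pow_smul_self x 1
    rwa [pow_one] at this
  obtain ⟨y, hy, hy'⟩ := exists_eq_pow_smul w.2.1.1 hwn
  have hy2 : y ∈ tcCondTate π h c U :=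
    tcCondTate_saturated hπ (pow_ne_zero 1 hπ0) hy (hy' ▸ w.2)
  have h3 : w = π • (⟨y, hy2⟩ : tcCondTate π h c U) := by
    apply Subtype.ext
    rw [hy', pow_one]
    rfl
  rw [h3]
  exact Submodule.smul_mem_smul hπ Submodule.mem_top

end SplitSubDVR

/-! ### the bridge from `J` to `O ⊗ J` -/

section Bridge

variable (O : Type*) [CommRing O] [Module.Flat ℤ O] {J : Type*} [AddCommGroup J]
  {G : Type*} [Group G] [DistribMulAction G J]

/-- The image of `O ⊗ Sp` in `O ⊗ J`, as the kernel of `O ⊗ J → O ⊗ (J ⧸ Sp)`. -/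
def tensorSub (Sp : AddSubgroup J) : Submodule O (O ⊗[ℤ] J) :=
  LinearMap.ker ((AddSubgroup.toIntSubmodule Sp).mkQ.baseChange O)

theorem mkQ_eq_zero_iff (Sp : AddSubgroup J) (y : J) :
    (AddSubgroup.toIntSubmodule Sp).mkQ y = 0 ↔ y ∈ Sp := by
  rw [Submodule.mkQ_apply, Submodule.Quotient.mk_eq_zero]
  rfl

/-- `(τ - 1)` maps `(O ⊗ J)[n] ∩ ker (u ⊗ 1)` into `O ⊗ Sp` if `τ - 1` maps `J[n] ∩ ker u` into
`Sp`. -/
theorem galBC_sub_mem_tensorSub {J' : Type*} [AddCommGroup J'] (Sp : AddSubgroup J)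
    (u : J →ₗ[ℤ] J') (n : ℕ) (τ : G)
    (hτ : ∀ y : J, n • y = 0 → u y = 0 → τ • y - y ∈ Sp)
    (m : O ⊗[ℤ] J) (hm : (n : O) • m = 0) (hum : u.baseChange O m = 0) :
    galBC O J τ m - m ∈ tensorSub O Sp := by
  have h1 := tc_baseChange_eq_zero_of_torsion_of_ker O n u
    ((AddSubgroup.toIntSubmodule Sp).mkQ ∘ₗ (galLinZ J τ - LinearMap.id))
    (fun y hy huy => by
      rw [LinearMap.comp_apply, LinearMap.sub_apply, LinearMap.id_apply, galLinZ_apply,
        mkQ_eq_zero_iff]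
      exact hτ y hy huy) m hm hum
  rw [LinearMap.baseChange_comp, LinearMap.comp_apply, LinearMap.baseChange_sub,
    LinearMap.baseChange_id, LinearMap.sub_apply, LinearMap.id_apply] at h1
  exact h1

/-- `(σ + 1)` kills the `n`-torsion of `O ⊗ Sp` if it kills the `n`-torsion of `Sp`. -/
theorem galBC_add_eq_zero_of_mem_tensorSub (Sp : AddSubgroup J) (n : ℕ) (σ : G)
    (hσ : ∀ s ∈ Sp, n • s = 0 → σ • s + s = 0)
    (m : O ⊗[ℤ] J) (hmW : m ∈ tensorSub O Sp) (hm : (n : O) • m = 0) :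
    galBC O J σ m + m = 0 := by
  have h1 := tc_baseChange_eq_zero_of_torsion_of_ker O n (AddSubgroup.toIntSubmodule Sp).mkQ
    (galLinZ J σ + LinearMap.id)
    (fun y hy hqy => by
      rw [LinearMap.add_apply, LinearMap.id_apply, galLinZ_apply]
      exact hσ y ((mkQ_eq_zero_iff Sp y).1 hqy) hy) m hm hmW
  rw [LinearMap.baseChange_add, LinearMap.baseChange_id, LinearMap.add_apply,
    LinearMap.id_apply] at h1
  exact h1

end Bridge

/-! ### the lattice with its split parts -/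

/-- **P-TATE, abstract form.** -/
theorem exists_eigenLattice_split
    {O : Type} [CommRing O] [IsDomain O] [IsDiscreteValuationRing O]
    [IsAdicComplete (maximalIdeal O) O] [CharZero O]
    {p : ℕ} (hp : p.Prime) (hpO : (p : O) ∈ maximalIdeal O)
    {J : Type} [AddCommGroup J] {G : Type} [Group G] [DistribMulAction G J]
    {ι : Type} (T : ι → Module.End ℤ J) (c : ι → O)
    (hT : ∀ i (σ : G) (x : J), T i (σ • x) = σ • T i x)
    (hfin : {x : J | p • x = 0}.Finite)
    (μ : ∀ n, Submodule.torsionBy ℤ J ((p ^ (n + 1) : ℕ) : ℤ) →ₗ[ℤ]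
      Submodule.torsionBy ℤ J ((p ^ n : ℕ) : ℤ))
    (hμ : ∀ n (y : Submodule.torsionBy ℤ J ((p ^ (n + 1) : ℕ) : ℤ)),
      ((μ n y : Submodule.torsionBy ℤ J ((p ^ n : ℕ) : ℤ)) : J) = (p : ℤ) • (y : J))
    (Tt : ∀ (_ : ι) (n : ℕ), Submodule.torsionBy ℤ J ((p ^ n : ℕ) : ℤ) →ₗ[ℤ]
      Submodule.torsionBy ℤ J ((p ^ n : ℕ) : ℤ))
    (hTt : ∀ i n (y : Submodule.torsionBy ℤ J ((p ^ n : ℕ) : ℤ)),
      ((Tt i n y : Submodule.torsionBy ℤ J ((p ^ n : ℕ) : ℤ)) : J) = T i (y : J))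
    (x : (n : ℕ) → O ⊗[ℤ] Submodule.torsionBy ℤ J ((p ^ n : ℕ) : ℤ))
    (hx0 : ∃ n, x n ≠ 0)
    (hcompat : ∀ n, (μ n).baseChange O (x (n + 1)) = x n)
    (heig : ∀ i n, (Tt i n).baseChange O (x n) = c i • x n)
    -- the kernel condition
    {J' : Type} [AddCommGroup J'] (u : J →ₗ[ℤ] J')
    (hu : ∀ (σ : G) (y : J), u y = 0 → u (σ • y) = 0)
    (hux : ∀ n, (u ∘ₗ (Submodule.torsionBy ℤ J ((p ^ n : ℕ) : ℤ)).subtype).baseChange O (x n) = 0) :
    ∃ (Λ : Type) (_ : AddCommGroup Λ) (_ : Module O Λ) (_ : Module.Free O Λ)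
      (_ : Module.Finite O Λ) (_ : Nontrivial Λ) (ρ : G →* Module.End O Λ),
      (∀ (n : ℕ) (σ : G), (∀ y : J, p ^ n • y = 0 → σ • y = y) →
          ∀ v : Λ, ρ σ v - v ∈ (maximalIdeal O ^ n) • (⊤ : Submodule O Λ)) ∧
      (∀ σ : G, (∀ (n : ℕ) (y : J), p ^ n • y = 0 → σ • y = y) → ρ σ = 1) ∧
      (∀ (σ : G) (i : ι) (ℓ : ℕ),
          (∀ (n : ℕ) (y : J), p ^ n • y = 0 → σ • σ • y - T i (σ • y) + ℓ • y = 0) →
          ρ σ * ρ σ - c i • ρ σ + (ℓ : O) • (1 : Module.End O Λ) = 0) ∧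
      (∀ Sp : AddSubgroup J, ∃ Lsp : Submodule O Λ,
          (∀ (a : O) (v : Λ), a ≠ 0 → a • v ∈ Lsp → v ∈ Lsp) ∧
          (∀ τ : G, (∀ (n : ℕ) (y : J), p ^ n • y = 0 → u y = 0 → τ • y - y ∈ Sp) →
            ∀ v : Λ, ρ τ v - v ∈ Lsp) ∧
          (∀ σ : G, (∀ s ∈ Sp, p • s = 0 → σ • s + s = 0) →
            ∀ v ∈ Lsp, ρ σ v + v ∈ maximalIdeal O • (⊤ : Submodule O Λ))) := by
  have hπ0 : (p : O) ≠ 0 := Nat.cast_ne_zero.mpr hp.ne_zero
  have hfg : (Submodule.torsionBy O (O ⊗[ℤ] J) (p : O)).FG := torsionBy_tensor_fg O p hfin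
  have hcomm : ∀ (σ : G) (i : ι) (m : O ⊗[ℤ] J),
      (T i).baseChange O (galBC O J σ m) = galBC O J σ ((T i).baseChange O m) :=
    fun σ i m => galBC_comm O (T i) (hT i) σ m
  have hstab : ∀ (σ : G) (m : O ⊗[ℤ] J), u.baseChange O m = 0 →
      u.baseChange O (galBC O J σ m) = 0 := by
    intro σ m hm
    rw [galBC_apply, ← LinearMap.comp_apply, ← LinearMap.baseChange_comp]
    exact tc_baseChange_eq_zero_of_ker O u (u ∘ₗ galLinZ J σ) (fun y hy => hu σ y hy) m hm
  have hcast : ∀ (n : ℕ) (m : O ⊗[ℤ] J), (p : O) ^ n • m = 0 →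
      ((p ^ n : ℕ) : O) • m = 0 := fun n m hm => by
    rw [Nat.cast_pow]; exact hm
  obtain ⟨X, hX, hXne⟩ :=
    tc_exists_mem_condTate_ne_zero T c μ hμ Tt hTt x hx0 hcompat heig u hux
  refine ⟨tcCondTate (p : O) (fun i => (T i).baseChange O) c (u.baseChange O),
    inferInstance, inferInstance,
    tcCondTate_free hpO hπ0 hfg, tcCondTate_finite hpO hπ0 hfg,
    ⟨⟨⟨X, hX⟩, 0, fun h => hXne (congrArg Subtype.val h)⟩⟩,
    tcCondTateRep (galBC O J) hcomm hstab, ?_, ?_, ?_, ?_⟩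
  · intro n σ hfix v
    exact tcCondTateRep_sub_mem (galBC O J) hcomm hstab hpO hπ0
      (fun m hm => galBC_fix O (p ^ n) σ hfix m (hcast n m hm)) v
  · intro σ hfix
    apply tcCondTateRep_eq_one
    intro n m hm
    exact galBC_fix O (p ^ n) σ (hfix n) m (hcast n m hm)
  · intro σ i ℓ hq
    exact tcCondTateRep_quadratic (h := fun i => (T i).baseChange O) (galBC O J) hcomm hstab i
      (ℓ : O) (fun n m hm => galBC_quadratic O (p ^ n) σ (T i) ℓ (hq n) m (hcast n m hm))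
  · intro Sp
    refine ⟨splitSub (p : O) (fun i => (T i).baseChange O) c (u.baseChange O) (tensorSub O Sp),
      fun a v ha hav => splitSub_saturated hpO _ ha v hav, fun τ hτ v => ?_, fun σ hσ v hv => ?_⟩
    · exact tcCondTateRep_sub_mem_splitSub (galBC O J) hcomm hstab _
        (fun n m hm hum => galBC_sub_mem_tensorSub O Sp u (p ^ n) τ (hτ n) m (hcast n m hm) hum) v
    · exact tcCondTateRep_add_mem (galBC O J) hcomm hstab hpO hπ0 _
        (fun m hmW hm => galBC_add_eq_zero_of_mem_tensorSub O Sp p σ hσ m hmW hm) v hv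

end Fermat.Agent.S33
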