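import Mathlib
import Fermat.Agent.S33.UForm
import Fermat.Agent.S33.SplitLattice
import Fermat.Agent.S32.PlaneRep
import Fermat.Agent.Lib.Cyclo.CharData

/-!
# S33, the new part: `NewOrdinaryU` from Tate lattices with a split part (owner: helper11)

`NewSplitLattices p N₀ N S` (target of P-TATE): for every point `χ` of the Hecke algebra of level
`N = p N₀` which does not occur at level `N₀` there is a `FrobLattice` `L` (of some level `N'`, for
the primes outside some `S' ⊇ S`, `p ∈ S'`) with the eigenvalues of `χ` which has a split part at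
`p` (`S33.HasSplitPart`).

`newOrdinaryU_of_newSplitLattices` : `NewSplitLattices p N₀ N S → NewOrdinaryU p N₀ N S`
(helper62's embedding `S32.exists_embedding_of_frobLattice` + `isOrdinaryAt_of_hasSplitPart`).
-/

set_option autoImplicit false
set_option linter.style.haveILetI false

namespace Fermat.Agent.S33

open Polynomial IsLocalRing Fermat.Agent.F3 Fermat.Agent.TraceRigidity Fermat.Agent.S30

/-- For every new point there is a Tate lattice with a split part at `p`. -/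
def NewSplitLattices (p N₀ N : ℕ) [NeZero N₀] [NeZero N] (S : Finset ℕ) : Prop :=
  ∀ (𝒪' : Type) [CommRing 𝒪'] [IsDomain 𝒪'] [IsDiscreteValuationRing 𝒪']
    [IsAdicComplete (IsLocalRing.maximalIdeal 𝒪') 𝒪'] [Finite (IsLocalRing.ResidueField 𝒪')]
    [CharZero 𝒪'] (_hp𝒪' : (p : 𝒪') ∈ IsLocalRing.maximalIdeal 𝒪')
    (χ : CuspForm.heckeAlgebra N 2 (↑S : Set ℕ) →+* 𝒪'),
    ¬ OccursAtLevel N₀ N S χ →
      ∃ (N' : ℕ) (S' : Finset ℕ), p ∈ S' ∧ S ⊆ S' ∧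
        ∃ L : FrobLattice p N' S' 𝒪' (heckeEigenvalue χ), HasSplitPart L

variable {p N₀ N : ℕ} [NeZero N₀] [NeZero N] {S : Finset ℕ}

/-- **The new part of S33 from the split Tate lattices.** -/
theorem newOrdinaryU_of_newSplitLattices (hp : p.Prime) (hp2 : p ≠ 2)
    (hNS : ∀ q : ℕ, q.Prime → q ∣ N → q ∈ S) (h : NewSplitLattices p N₀ N S) :
    NewOrdinaryU p N₀ N S := by
  haveI : Fact p.Prime := ⟨hp⟩
  intro 𝒪' _ _ _ _ _ _ hp𝒪' χ hχ ρ₀ hρ₀ b g hg _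
  obtain ⟨N', S', hpS', hSS', L, hL⟩ := h 𝒪' hp𝒪' χ hχ
  let E : CycloCharData p 𝒪' := Fermat.Agent.Cyclo.cycloCharData (p := p) (𝒪 := 𝒪') hp𝒪'
  have hfrob : ∀ ℓ : ℕ, ℓ.Prime → ℓ ∉ S' →
      ∀ A : ValuationSubring (AlgebraicClosure ℚ), A.LiesOverPrime ℓ →
        ∀ σ : AlgebraicClosure ℚ ≃ₐ[ℚ] AlgebraicClosure ℚ, A.IsFrobeniusAt σ ℓ →
          LinearMap.charpoly (ρ₀.ρ σ) = X ^ 2 - C (heckeEigenvalue χ ℓ) * X + C ((ℓ : 𝒪')) := by
    intro ℓ hℓ hℓS' A hA σ hσ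
    have hℓS : ℓ ∉ (↑S : Set ℕ) := fun h => hℓS' (hSS' (Finset.mem_coe.1 h))
    have hℓN : ¬ ℓ ∣ N := fun h => hℓS (Finset.mem_coe.2 (hNS ℓ hℓ h))
    rw [heckeEigenvalue_eq χ hℓ hℓN hℓS]
    exact hρ₀ ℓ hℓ hℓN hℓS A hA σ hσ
  obtain ⟨f, hf, hfe, hfs⟩ :=
    Fermat.Agent.S32.exists_embedding_of_frobLattice frobDensityLite hpS' (heckeEigenvalue χ) L E
      ρ₀ b g hg hfrob
  exact isOrdinaryAt_of_hasSplitPart hp hp2 hp𝒪' L hL ρ₀ f hf hfe hfs S
    (det_frob_of_charpoly χ ρ₀ hNS hρ₀)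

end Fermat.Agent.S33
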