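import Fermat.Agent.S33.NewDefs
import Fermat.Agent.S33.NewTate
import Fermat.Agent.S33.NewWire
import Fermat.Agent.S30.Final
import Fermat.Agent.Lib.BadRed.Bridge.S34Final

/-!
# S33, the new part, P-TATE for `J₀(M)`: from the torsion to the split Tate lattices
(owner: helper11)

* `exists_frobLattice_split` : from the interface propositions of cluster A at level `M`, a nonzero
  compatible eigen-class of `χ` killed by `newUAt i` and `TorsionSplitAt M i`, a `FrobLattice` of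
  `χ` with a split part at `p = i.1` (`S33.HasSplitPart`).
* `newSplitLattices_of_torsion` : `NewEigenclassAt M S i → TorsionSplitAt M i →
  NewSplitLattices p (M / p) M S`.
* `newOrdinaryU_of_torsion` : hence `NewOrdinaryU p (M / p) M S` (`S33/NewWire.lean`).
-/

set_option autoImplicit false
set_option linter.unusedSectionVars false
set_option linter.style.haveILetI false

noncomputable section

namespace Fermat.Agent.S33

open ModularCurve AlgebraicCurve IsLocalRing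
open scoped TensorProduct
open Fermat.Agent.S30 Fermat.Agent.S30Tate

local notation "Qb" => (AlgebraicClosure ℚ)

/-- **P-TATE for `J₀(M)`.** -/
theorem exists_frobLattice_split (M : ℕ) [NeZero M]
    (hFin : F3.TorsionFinite M)
    (hUnr : F3.TorsionUnramified M) (hFrob : F3.TorsionFrobQuadratic M)
    (hOpen : F3.TorsionOpenStab M) (hComm : F3.HeckeGaloisComm M)
    (i : Fermat.Agent.S35.NewIdx M 0) (S : Finset ℕ) (hpS : i.1 ∈ S)
    (hNS : ∀ q : ℕ, q.Prime → q ∣ M → q ∈ S)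
    (𝒪 : Type) [CommRing 𝒪] [IsDomain 𝒪] [IsDiscreteValuationRing 𝒪]
    [IsAdicComplete (maximalIdeal 𝒪) 𝒪] [Finite (ResidueField 𝒪)] [CharZero 𝒪]
    (hp𝒪 : (i.1 : 𝒪) ∈ maximalIdeal 𝒪) (χ : CuspForm.heckeAlgebra M 2 (↑S : Set ℕ) →+* 𝒪)
    -- the eigen-class
    (x : (n : ℕ) → 𝒪 ⊗[ℤ] F3.Jtors M (i.1 ^ n))
    (hx0 : ∃ n, x n ≠ 0)
    (hcompat : ∀ n, (mulPTors M i.1 n).baseChange 𝒪 (x (n + 1)) = x n)
    (heig : ∀ (n ℓ : ℕ) (hℓ : ℓ.Prime) (hℓN : ¬ ℓ ∣ M) (hℓS : ℓ ∉ (↑S : Set ℕ)),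
      (F3.heckeTors M (i.1 ^ n) ⟨ℓ, hℓ⟩).baseChange 𝒪 (x n) =
        χ (CuspForm.heckeAlgebra.T hℓ hℓN hℓS) • x n)
    (hux : ∀ n, (newUAt i ∘ₗ (F3.Jtors M (i.1 ^ n)).subtype).baseChange 𝒪 (x n) = 0)
    -- the split classes
    (hT : TorsionSplitAt M i) :
    ∃ L : FrobLattice i.1 M S 𝒪 (heckeEigenvalue χ), HasSplitPart L := by
  have hp : i.1.Prime := i.prime
  obtain ⟨Λ, _, _, _, _, _, ρ, hcont, hunr, hfrob, hsplit⟩ :=
    exists_eigenLattice_split (O := 𝒪) (G := GQ) (J := JZero M) (ι := HeckeIdx M S)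
      hp hp𝒪
      (fun j => heckeOperatorBar M ⟨j.1, j.2.1⟩)
      (fun j => χ (CuspForm.heckeAlgebra.T j.2.1 j.2.2.1 j.2.2.2))
      (fun j σ y => hComm ⟨j.1, j.2.1⟩ σ y)
      (hFin i.1 hp.pos)
      (fun n => mulPTors M i.1 n)
      (fun n y => mulPTors_coe M i.1 n y)
      (fun j n => F3.heckeTors M (i.1 ^ n) ⟨j.1, j.2.1⟩)
      (fun j n y => rfl)
      x hx0 hcompat
      (fun j n => heig n j.1 j.2.1 j.2.2.1 j.2.2.2)
      (newUAt i) (fun σ y h => newUAt_smul i σ y h) hux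
  refine ⟨{
    Λ := Λ
    ρ := ρ
    cont := ?_
    unram := ?_
    frob := ?_ }, ?_⟩
  · -- adic continuity
    intro n
    have hpos : 0 < i.1 ^ n := pow_pos hp.pos n
    haveI : Finite {y : JZero M // i.1 ^ n • y = 0} := (hFin (i.1 ^ n) hpos).to_subtype
    choose L hLfin hL using
      fun y : {y : JZero M // i.1 ^ n • y = 0} => hOpen (i.1 ^ n) hpos y.1 y.2
    haveI : ∀ y, FiniteDimensional ℚ (L y) := hLfin
    refine ⟨⨆ y, L y, inferInstance, fun σ hσ v => ?_⟩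
    have hfix : ∀ y : JZero M, i.1 ^ n • y = 0 → σ • y = y := fun y hy =>
      hL ⟨y, hy⟩ σ (fun z hz => hσ z (le_iSup L ⟨y, hy⟩ hz))
    exact hcont n σ hfix v
  · -- unramified
    intro q hq hqN hqp P hP σ hσ
    exact hunr σ (fun n y hy =>
      hUnr (i.1 ^ n) q hq (not_dvd_mul_pow hp hq hqN hqp n) P hP σ hσ y hy)
  · -- Frobenius relation
    intro ℓ hℓ hℓS A hA σ hσ
    have hℓS' : ℓ ∉ (↑S : Set ℕ) := fun h => hℓS (Finset.mem_coe.mp h)
    have hℓN : ¬ ℓ ∣ M := fun h => hℓS (hNS ℓ hℓ h)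
    have hℓp : ℓ ≠ i.1 := fun h => hℓS (h ▸ hpS)
    rw [heckeEigenvalue_eq χ hℓ hℓN hℓS']
    exact hfrob σ (⟨ℓ, hℓ, hℓN, hℓS'⟩ : HeckeIdx M S) ℓ (fun n y hy =>
      hFrob (i.1 ^ n) ℓ hℓ (not_dvd_mul_pow hp hℓ hℓN hℓp n) A hA σ hσ y hy)
  · -- the split part
    intro P hP
    obtain ⟨Sp, hG1, hG2⟩ := hT P hP
    obtain ⟨Lsp, hsat, hb, hc⟩ := hsplit Sp
    exact ⟨Lsp, hsat, fun τ hτ v => hb τ (fun n y hy huy => hG1 τ hτ n y hy huy) v,
      fun σ hσ hinv v hv => hc σ (fun s hs hps => hG2 σ hσ hinv s hs hps) v hv⟩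

/-- **The split Tate lattices of the new points**, from the two geometric targets. -/
theorem newSplitLattices_of_torsion (M : ℕ) [NeZero M] (S : Finset ℕ)
    (i : Fermat.Agent.S35.NewIdx M 0) (hpS : i.1 ∈ S)
    (hNS : ∀ q : ℕ, q.Prime → q ∣ M → q ∈ S)
    (hE : NewEigenclassAt M S i) (hT : TorsionSplitAt M i) :
    haveI := i.neZero_N
    NewSplitLattices i.1 (M / i.1) M S := by
  haveI := i.neZero_N
  intro 𝒪' _ _ _ _ _ _ hp𝒪' χ hχ
  obtain ⟨x, hx0, hcompat, heig, hux⟩ := hE 𝒪' hp𝒪' χ hχ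
  obtain ⟨L, hL⟩ := exists_frobLattice_split M
    (Fermat.Agent.F3TF.torsionFinite M)
    (Fermat.Agent.GaussInt.torsionUnramified_of_keyLemmaAt
      (Fermat.Agent.GaussInt.keyLemmaAt_all M))
    (Fermat.Agent.GaussIntFP.torsionFrobQuadratic_of_keyLemmaAt
      (Fermat.Agent.GaussInt.keyLemmaAt_all M) (Fermat.Agent.F3W.heckeInputs_all M))
    (Fermat.Agent.F3.torsionOpenStab M) (Fermat.Agent.F3G.heckeGaloisComm M)
    i S hpS hNS 𝒪' hp𝒪' χ x hx0 hcompat heig hux hT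
  exact ⟨M, S, hpS, Finset.Subset.refl S, L, hL⟩

/-- **The new part of S33** from the two geometric targets. -/
theorem newOrdinaryU_of_torsion (M : ℕ) [NeZero M] (S : Finset ℕ)
    (i : Fermat.Agent.S35.NewIdx M 0) (hp2 : i.1 ≠ 2) (hpS : i.1 ∈ S)
    (hNS : ∀ q : ℕ, q.Prime → q ∣ M → q ∈ S)
    (hE : NewEigenclassAt M S i) (hT : TorsionSplitAt M i) :
    haveI := i.neZero_N
    NewOrdinaryU i.1 (M / i.1) M S :=
  haveI := i.neZero_N
  newOrdinaryU_of_newSplitLattices i.prime hp2 hNS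
    (newSplitLattices_of_torsion M S i hpS hNS hE hT)

end Fermat.Agent.S33
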